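import Fermat.Agent.H18T.Low

set_option autoImplicit false
set_option linter.all false

/-!
# The forms `U₂² (θ₀ φ_X)` and their coefficients

-/

noncomputable section

open Module Function Filter Topology UpperHalfPlane Complex
open Fermat.Agent.H29W Fermat.Agent.H24ES Fermat.Agent.H16
open scoped MatrixGroups Manifold

namespace Fermat.Agent.H18T

/-! ### coefficients of `θ₀` -/

/-- number of representations by `x² + 2 M y²` -/
def rep (M n : ℕ) : ℕ := Nat.card {p : ℤ × ℤ // p.1 ^ 2 + 2 * M * p.2 ^ 2 = (n : ℤ)}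

theorem finite_rep (M n : ℕ) [NeZero M] :
    {p : ℤ × ℤ | p.1 ^ 2 + 2 * M * p.2 ^ 2 = (n : ℤ)}.Finite := by
  have hM : (0 : ℤ) < M := by exact_mod_cast NeZero.pos M
  refine Set.Finite.subset (((Set.finite_Icc (-(n : ℤ)) n).prod (Set.finite_Icc (-(n : ℤ)) n))) ?_
  rintro ⟨x, y⟩ h
  have h' : x ^ 2 + 2 * M * y ^ 2 = (n : ℤ) := h
  have key : ∀ w : ℤ, w ^ 2 ≤ n → w ∈ Set.Icc (-(n : ℤ)) n := by
    intro w hw
    have hn : (0 : ℤ) ≤ n := by positivity
    rw [Set.mem_Icc]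
    constructor
    · by_contra hc
      push Not at hc
      nlinarith
    · by_contra hc
      push Not at hc
      nlinarith
  refine Set.mk_mem_prod (key x ?_) (key y ?_)
  · nlinarith [mul_nonneg hM.le (sq_nonneg y)]
  · nlinarith [sq_nonneg x, sq_nonneg y, mul_nonneg (show (0 : ℤ) ≤ 2 * M - 1 by omega) (sq_nonneg y)]

theorem hasSum_theta0 (M : ℕ) [NeZero M] {z : ℂ} (hz : 0 < z.im) :
    HasSum (fun n : ℕ => (rep M n : ℂ) * ex (n * z)) (theta0 M z) := by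
  have hM : (0 : ℤ) < M := by exact_mod_cast NeZero.pos M
  have hD0 : 0 < dsc 1 0 (2 * M) := by rw [dsc_one]; linarith
  have h1 := (summable_thz (f := 1) (h := 0) one_pos hD0 hz).hasSum
  have h2 : HasSum (fun m : ℤ × ℤ => ex (((m.1 ^ 2 + 2 * M * m.2 ^ 2 : ℤ) : ℂ) * z))
      (theta0 M z) := by
    refine h1.congr_fun fun m => ?_
    congr 1
    rw [qz]
    push_cast
    simp
  have h3 := h2.tsum_fiberwise (fun m : ℤ × ℤ => (m.1 ^ 2 + 2 * M * m.2 ^ 2).toNat)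
  refine h3.congr_fun fun n => ?_
  have hnn : ∀ m : ℤ × ℤ, 0 ≤ m.1 ^ 2 + 2 * M * m.2 ^ 2 := fun m => by positivity
  have h4 : ∀ m : ((fun m : ℤ × ℤ => (m.1 ^ 2 + 2 * M * m.2 ^ 2).toNat) ⁻¹' {n}),
      ex ((((m : ℤ × ℤ).1 ^ 2 + 2 * M * (m : ℤ × ℤ).2 ^ 2 : ℤ) : ℂ) * z) = ex (n * z) := by
    rintro ⟨m, hm⟩
    have h5 : (m.1 ^ 2 + 2 * M * m.2 ^ 2).toNat = n := hm
    have h6 : m.1 ^ 2 + 2 * M * m.2 ^ 2 = (n : ℤ) := by
      rw [← h5, Int.toNat_of_nonneg (hnn m)]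
    show ex (((m.1 ^ 2 + 2 * M * m.2 ^ 2 : ℤ) : ℂ) * z) = _
    rw [h6, Int.cast_natCast]
  rw [tsum_congr h4, tsum_const, nsmul_eq_mul]
  congr 2
  rw [rep]
  apply Nat.card_congr
  refine Equiv.subtypeEquivRight fun m => ?_
  rw [Set.mem_preimage, Set.mem_singleton_iff]
  constructor
  · intro h; omega
  · intro h; have := hnn m; omega

/-! ### coefficients of `φ_X` -/

section phi

variable {S : Type*} [CommRing S] [IsDedekindDomain S] [Module.Free ℤ S] [Module.Finite ℤ S]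

/-- the coefficients of the theta series of a character of ideals -/
def cX (X : Ideal S → ℂ) (n : ℕ) : ℂ := ∑' b : {b : Ideal S // Ideal.absNorm b = n}, X b

omit [Module.Finite ℤ S] in
theorem cX_eq_sum (X : Ideal S → ℂ) (n : ℕ) (s : Finset (Ideal S))
    (hs : ∀ b, b ∈ s ↔ Ideal.absNorm b = n) : cX X n = ∑ b ∈ s, X b := by
  rw [cX, ← Finset.tsum_subtype]
  exact (Equiv.subtypeEquivRight fun b => (hs b).symm).tsum_eq
    (fun b : {b // b ∈ s} => X b)

variable {M f : ℕ} [NeZero M] [NeZero f] {ι : Type*} [Fintype ι] [DecidableEq ι] {k : ι → Type*}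
  [∀ i, Field (k i)] [∀ i, Fintype (k i)] [∀ i, DecidableEq (k i)]
  {E : ZMod f ≃+* ((i : ι) → k i)} {d : ZMod f}
  [hF : ∀ i, Fact (∀ r : k i, r ^ 2 ≠ pr E i d + 0 * r)] (D : WData E d ℂ)
  [Finite (ClassGroup S)]
  (e : S ≃+* QuadraticAlgebra ℤ (-2 * M : ℤ) 0) (hd : ((-2 * M : ℤ) : ZMod f) = d)
  {X : Ideal S → ℂ} (hXmul : ∀ a b : Ideal S, X (a * b) = X a * X b)
  (hXξ : ∀ y : S, X (Ideal.span {y}) = xi' D (rdS e hd y))

include hXmul hXξ

theorem hasSeq_phiX (hf1 : 1 < f) : HasSeq (fun z : ℍ => phiX (f := f) X z) (cX X) := by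
  intro z t
  have h1 := (summable_GX D e hd hXmul hXξ hf1 z.im_pos t).hasSum
  have h2 := h1.tsum_fiberwise (Ideal.absNorm : Ideal S → ℕ)
  refine h2.congr_fun fun n => ?_
  have h3 : ∀ b : ((Ideal.absNorm : Ideal S → ℕ) ⁻¹' {n}), GX X z t b =
      (if (n : ZMod f) = t then ex (n * z / f) else 0) * X b := by
    rintro ⟨b, hb⟩
    have hb' : Ideal.absNorm b = n := hb
    show GX X z t b = _ * X b
    rw [GX, hb']
    split_ifs
    · ring
    · ring
  rw [tsum_congr h3, tsum_mul_left]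
  have h4 : ∑' b : ((Ideal.absNorm : Ideal S → ℕ) ⁻¹' {n}), X b = cX X n := rfl
  rw [h4]
  split_ifs
  · ring
  · ring

end phi

/-! ### products -/

/-- coefficients of the product -/
def conv (f : ℕ) (u c : ℕ → ℂ) (n : ℕ) : ℂ :=
  ∑ j ∈ Finset.range (n / f + 1), u j * c (n - f * j)

/-- auxiliary double sequence -/
def dbl (f : ℕ) (u : ℕ → ℂ) (v : ℕ → ℂ) (w : ℕ → ℂ) (p : ℕ × ℕ) : ℂ :=
  if f * p.2 ≤ p.1 then u p.2 * v (p.1 - f * p.2) * w p.1 else 0

theorem hasSum_dbl {f : ℕ} [NeZero f] {u v w : ℕ → ℂ} {s : ℂ}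
    (h : HasSum (fun p : ℕ × ℕ => u p.1 * v p.2 * w (f * p.1 + p.2)) s) :
    HasSum (fun n => conv f u v n * w n) s := by
  have hf0 : 0 < f := NeZero.pos f
  have hι : Injective (fun p : ℕ × ℕ => ((f * p.1 + p.2, p.1) : ℕ × ℕ)) := by
    rintro ⟨a, b⟩ ⟨a', b'⟩ h
    have h4 : f * a + b = f * a' + b' := congrArg Prod.fst h
    have h5 : a = a' := congrArg Prod.snd h
    subst h5
    have h6 : b = b' := Nat.add_left_cancel h4
    rw [h6]
  have hzero : ∀ p : ℕ × ℕ, p ∉ Set.range (fun p : ℕ × ℕ => ((f * p.1 + p.2, p.1) : ℕ × ℕ)) →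
      dbl f u v w p = 0 := by
    rintro ⟨n, j⟩ hp
    rw [dbl, if_neg]
    intro hle
    apply hp
    refine ⟨(j, n - f * j), ?_⟩
    exact Prod.ext (Nat.add_sub_cancel' hle) rfl
  have h6 : HasSum (dbl f u v w) s := by
    refine (hι.hasSum_iff hzero).mp ?_
    refine h.congr_fun fun p => ?_
    rw [Function.comp_apply, dbl, if_pos (Nat.le_add_right _ _), Nat.add_sub_cancel_left]
  have h7 : ∀ n : ℕ, HasSum (fun j => dbl f u v w (n, j)) (conv f u v n * w n) := by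
    intro n
    have h8 : conv f u v n * w n = ∑ j ∈ Finset.range (n / f + 1), dbl f u v w (n, j) := by
      rw [conv, Finset.sum_mul]
      refine Finset.sum_congr rfl fun j hj => ?_
      have hle : f * j ≤ n := by
        rw [Finset.mem_range, Nat.lt_succ_iff, Nat.le_div_iff_mul_le hf0] at hj
        rwa [mul_comm]
      rw [dbl, if_pos hle]
    rw [h8]
    refine hasSum_sum_of_ne_finset_zero fun j hj => ?_
    rw [dbl, if_neg]
    intro hle
    apply hj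
    rw [Finset.mem_range, Nat.lt_succ_iff, Nat.le_div_iff_mul_le hf0, mul_comm]
    exact hle
  exact h6.prod_fiberwise h7

theorem hasSum_mul' {A B : ℕ → ℂ} {a b : ℂ} (hA : HasSum A a) (hB : HasSum B b) :
    HasSum (fun p : ℕ × ℕ => A p.1 * B p.2) (a * b) :=
  hA.mul hB (summable_mul_of_summable_norm hA.summable.norm hB.summable.norm)

theorem HasSeq.mul {f : ℕ} [NeZero f] {θ : ℍ → ℂ} {u : ℕ → ℂ}
    (hθ : ∀ z : ℍ, HasSum (fun n : ℕ => u n * ex (n * z)) (θ z))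
    {F : ℍ → ((ZMod f)ˣ → ℂ)} {c : ℕ → ℂ} (hF : HasSeq F c) :
    HasSeq (fun z => θ z • F z) (conv f u c) := by
  intro z t
  have hfc : (f : ℂ) ≠ 0 := by exact_mod_cast NeZero.ne f
  have h1 := hθ z
  have h2 := hF z t
  have h3 := hasSum_mul' h1 h2
  have h4 := hasSum_dbl (f := f) (u := u) (v := c)
    (w := fun n => if (n : ZMod f) = t then ex (n * z / f) else 0) (s := θ z * F z t) ?_
  · refine HasSum.congr_fun h4 fun n => ?_
    split_ifs
    · rfl
    · rw [mul_zero]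
  · refine HasSum.congr_fun h3 fun p => ?_
    have h7 : ((f * p.1 + p.2 : ℕ) : ZMod f) = (p.2 : ZMod f) := by
      push_cast; rw [ZMod.natCast_self, zero_mul, zero_add]
    rw [h7]
    split_ifs
    · have h8 : ex (((f * p.1 + p.2 : ℕ) : ℂ) * z / f) = ex (p.1 * z) * ex (p.2 * z / f) := by
        rw [← ex_add]
        congr 1
        push_cast
        field_simp
      rw [h8]; ring
    · rw [mul_zero, mul_zero]

/-! ### the final forms -/

section final

variable {S : Type*} [CommRing S] [IsDedekindDomain S] [Module.Free ℤ S] [Module.Finite ℤ S]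
  {M f : ℕ} [NeZero M] [NeZero f]

/-- the function `U₂² (θ₀ φ_X)` -/
def UX (M f : ℕ) [NeZero f] (hf2 : Nat.Coprime 2 f) (X : Ideal S → ℂ) :
    ℍ → ((ZMod f)ˣ → ℂ) :=
  Ufun 2 hf2 (Ufun 2 hf2 fun z : ℍ => theta0 M z • phiX (f := f) X z)

variable {ι : Type*} [Fintype ι] [DecidableEq ι] {k : ι → Type*}
  [∀ i, Field (k i)] [∀ i, Fintype (k i)] [∀ i, DecidableEq (k i)]
  {E : ZMod f ≃+* ((i : ι) → k i)} {d : ZMod f}
  [hF : ∀ i, Fact (∀ r : k i, r ^ 2 ≠ pr E i d + 0 * r)] (D : WData E d ℂ)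
  [Finite (ClassGroup S)]
  (e : S ≃+* QuadraticAlgebra ℤ (-2 * M : ℤ) 0) (hd : ((-2 * M : ℤ) : ZMod f) = d)
  {X : Ideal S → ℂ} (hXmul : ∀ a b : Ideal S, X (a * b) = X a * X b)
  (hXξ : ∀ y : S, X (Ideal.span {y}) = xi' D (rdS e hd y))
  (hΨ : ∀ x : ZMod f, D.Ψ x = ZMod.stdAddChar x)

include hXmul hXξ hΨ

/-- **the weight two forms of level `2M`** -/
theorem UX_mem (hf1 : 1 < f) (hf : Nat.Coprime f (8 * M)) (hf2 : Nat.Coprime 2 f) :
    UX M f hf2 X ∈ vForms (2 * M) (ofGL f (kirE D)) 2 := by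
  have hr := upT_kirE D hΨ
  have h1 := theta_mem_vForms D e hd hXmul hXξ hΨ hf1 hf
  have e1 : 8 * M = 2 * (2 * (2 * M)) := by ring
  rw [e1] at h1
  have h2 := Ufun_mem hr Nat.prime_two hf2 (dvd_mul_right 2 (2 * M)) h1
  exact Ufun_mem hr Nat.prime_two hf2 (dvd_mul_right 2 M) h2

/-- the coefficients of the form -/
theorem UX_seq (hf1 : 1 < f) (hf2 : Nat.Coprime 2 f) :
    HasSeq (UX M f hf2 X) (fun n => conv f (fun j => (rep M j : ℂ)) (cX X) (4 * n)) := by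
  have hr := upT_kirE D hΨ
  have h1 := (hasSeq_phiX D e hd hXmul hXξ hf1).mul
    (fun z : ℍ => hasSum_theta0 M z.im_pos)
  have h2 := Ufun_seq hr two_pos hf2 (Ufun_seq hr two_pos hf2 h1)
  have h3 : (fun n => conv f (fun j => (rep M j : ℂ)) (cX X) (4 * n)) =
      fun n => conv f (fun j => (rep M j : ℂ)) (cX X) (2 * (2 * n)) := by
    funext n
    congr 1
    ring
  rw [h3]
  exact h2

theorem coefV_UX (hf1 : 1 < f) (hf : Nat.Coprime f (8 * M)) (hf2 : Nat.Coprime 2 f) {n : ℕ}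
    (hn : IsUnit (n : ZMod f)) :
    coefV (upT_kirE D hΨ) ⟨UX M f hf2 X, UX_mem D e hd hXmul hXξ hΨ hf1 hf hf2⟩ n =
      ∑ j ∈ Finset.range (4 * n / f + 1), (rep M j : ℂ) * cX X (4 * n - f * j) :=
  coefV_eq (upT_kirE D hΨ) ⟨UX M f hf2 X, UX_mem D e hd hXmul hXξ hΨ hf1 hf hf2⟩
    (UX_seq D e hd hXmul hXξ hΨ hf1 hf2) hn

end final

/-! ### parity of the representation numbers -/

theorem rep_zero (M : ℕ) [NeZero M] : rep M 0 = 1 := by
  have hM : (0 : ℤ) < M := by exact_mod_cast NeZero.pos M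
  rw [rep, Nat.card_eq_one_iff_unique]
  refine ⟨⟨fun p q => ?_⟩, ⟨⟨(0, 0), by simp⟩⟩⟩
  have key : ∀ p : {p : ℤ × ℤ // p.1 ^ 2 + 2 * M * p.2 ^ 2 = ((0 : ℕ) : ℤ)}, p.1 = 0 := by
    rintro ⟨⟨x, y⟩, h⟩
    have h' : x ^ 2 + 2 * M * y ^ 2 = 0 := h
    have hy : y = 0 := by
      by_contra hy
      have : 0 < y ^ 2 := by positivity
      nlinarith [sq_nonneg x, mul_pos hM this]
    subst hy
    have hx : x = 0 := by
      have : x ^ 2 = 0 := by linarith
      exact pow_eq_zero_iff (two_ne_zero) |>.mp this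
    subst hx
    rfl
  exact Subtype.ext ((key p).trans (key q).symm)

theorem even_rep (M : ℕ) [NeZero M] {n : ℕ} (hn : 0 < n) : Even (rep M n) := by
  classical
  haveI : Fintype {p : ℤ × ℤ // p.1 ^ 2 + 2 * M * p.2 ^ 2 = (n : ℤ)} := (finite_rep M n).fintype
  let σ : {p : ℤ × ℤ // p.1 ^ 2 + 2 * M * p.2 ^ 2 = (n : ℤ)} →
      {p : ℤ × ℤ // p.1 ^ 2 + 2 * M * p.2 ^ 2 = (n : ℤ)} := fun p =>
    ⟨-p.1, by
      have := p.2
      simp only [Prod.fst_neg, Prod.snd_neg, neg_sq]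
      exact this⟩
  have hσ : ∀ p, σ (σ p) = p := fun p => Subtype.ext (neg_neg _)
  have hσ' : ∀ p, σ p ≠ p := by
    rintro ⟨⟨x, y⟩, h⟩ hp
    have h1 : -((x, y) : ℤ × ℤ) = (x, y) := congrArg Subtype.val hp
    have h2 := congrArg Prod.fst h1
    have h3 := congrArg Prod.snd h1
    simp only [Prod.fst_neg, Prod.snd_neg] at h2 h3
    have hx : x = 0 := by omega
    have hy : y = 0 := by omega
    subst hx hy
    simp at h
    omega
  have h1 : ∑ p : {p : ℤ × ℤ // p.1 ^ 2 + 2 * M * p.2 ^ 2 = (n : ℤ)}, (1 : ZMod 2) = 0 :=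
    Finset.sum_involution (fun p _ => σ p) (fun _ _ => by decide) (fun p _ _ => hσ' p)
      (fun p _ => Finset.mem_univ _) (fun p _ => hσ p)
  rw [Finset.sum_const, Finset.card_univ, nsmul_eq_mul, mul_one,
    ZMod.natCast_eq_zero_iff_even] at h1
  rw [rep, Nat.card_eq_fintype_card]
  exact h1

end Fermat.Agent.H18T
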