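import Fermat.Agent.H18T.Gauss

set_option autoImplicit false
set_option linter.all false

/-!
# The quadratic character of `ℚ(√-2M)` and the evaluated transformation formula

-/

noncomputable section

open Complex Real Filter Topology
open scoped NumberTheorySymbols

namespace Fermat.Agent.H18T

/-- the quadratic character of `ℚ(√-2M)` -/
def chi (M : ℕ) (n : ℤ) : ℤ := J(-2 * M | (n % (8 * M)).toNat)

section chi

variable {M : ℕ}

theorem chi_congr {m n : ℤ} (h : (8 * M : ℤ) ∣ m - n) : chi M m = chi M n := by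
  rw [chi, chi, (Int.emod_eq_emod_iff_emod_sub_eq_zero).mpr (Int.emod_eq_zero_of_dvd h)]

theorem chi_natCast {n : ℕ} (hn : Odd n) : chi M n = J(-2 * M | n) := by
  have h1 : (-2 * (M : ℤ)).natAbs = 2 * M := by omega
  have h2 : ((n : ℤ) % (8 * M)).toNat = n % (4 * (-2 * (M : ℤ)).natAbs) := by
    rw [h1]
    have h3 : ((n : ℤ) % (8 * M)) = ((n % (8 * M) : ℕ) : ℤ) := by push_cast; rfl
    rw [h3, Int.toNat_natCast]
    congr 1; ring
  rw [jacobiSym.mod_right _ hn, chi, h2]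

theorem exists_rep [NeZero M] {m : ℤ} (hm : Odd m) : ∃ m' : ℕ, Odd m' ∧ (8 * M : ℤ) ∣ m - m' := by
  have hM : (0 : ℤ) < 8 * M := by
    have : (0 : ℤ) < M := by exact_mod_cast NeZero.pos M
    linarith
  refine ⟨(m % (8 * M)).toNat, ?_, ?_⟩
  · have h1 := Int.emod_nonneg m hM.ne'
    have h2 : Odd (m % (8 * M)) := by
      rw [Int.emod_def]
      exact hm.sub_even (Even.mul_right (Even.mul_right (by decide) _) _)
    rw [← Int.odd_coe_nat, Int.toNat_of_nonneg h1]
    exact h2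
  · rw [Int.toNat_of_nonneg (Int.emod_nonneg m hM.ne')]
    exact Int.dvd_self_sub_emod

theorem chi_mul [NeZero M] {m n : ℤ} (hm : Odd m) (hn : Odd n) :
    chi M (m * n) = chi M m * chi M n := by
  obtain ⟨m', hm', hmd⟩ := exists_rep (M := M) hm
  obtain ⟨n', hn', hnd⟩ := exists_rep (M := M) hn
  have h1 : (8 * M : ℤ) ∣ m * n - ((m' * n' : ℕ) : ℤ) := by
    have : m * n - ((m' * n' : ℕ) : ℤ) = m * (n - n') + n' * (m - m') := by push_cast; ring
    rw [this]
    exact dvd_add (hnd.mul_left _) (hmd.mul_left _)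
  rw [chi_congr h1, chi_congr hmd, chi_congr hnd, chi_natCast hm', chi_natCast hn',
    chi_natCast (hm'.mul hn')]
  exact jacobiSym.mul_right' _ (by rintro rfl; simp at hm') (by rintro rfl; simp at hn')

theorem chi_one : chi M 1 = 1 := by
  have := chi_natCast (M := M) (n := 1) odd_one
  rw [jacobiSym.one_right] at this
  exact_mod_cast this

theorem odd_of_mul_sub {a b k : ℤ} (hk : Even k) {c : ℤ} (h : a * b - c * k = 1) :
    Odd a ∧ Odd b := by
  have : Odd (a * b) := by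
    have h1 : a * b = 1 + c * k := by linarith
    rw [h1]
    exact odd_one.add_even (hk.mul_left _)
  exact Int.odd_mul.mp this

theorem chi_inv [NeZero M] {a b : ℤ} (h : (8 * M : ℤ) ∣ a * b - 1) : chi M a = chi M b := by
  obtain ⟨c, hc⟩ := h
  have he : Even (8 * (M : ℤ)) := Even.mul_right (by decide) _
  obtain ⟨ha, hb⟩ := odd_of_mul_sub he (show a * b - c * (8 * M) = 1 by linarith)
  have h1 : chi M a * chi M b = 1 := by
    rw [← chi_mul ha hb, chi_congr ⟨c, hc⟩, chi_one]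
  have h2 := Int.eq_one_or_neg_one_of_mul_eq_one h1
  rcases h2 with h2 | h2
  · rw [h2] at h1 ⊢; linarith
  · rw [h2] at h1 ⊢; linarith

theorem chi_sq [NeZero M] {a b : ℤ} (h : (8 * M : ℤ) ∣ a * b - 1) : chi M a * chi M a = 1 := by
  conv_lhs => rw [chi_inv h]
  obtain ⟨c, hc⟩ := h
  have he : Even (8 * (M : ℤ)) := Even.mul_right (by decide) _
  obtain ⟨ha, hb⟩ := odd_of_mul_sub he (show a * b - c * (8 * M) = 1 by linarith)
  have h1 : chi M a * chi M b = 1 := by
    rw [← chi_mul ha hb, chi_congr ⟨c, hc⟩, chi_one]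
  have h2 : chi M a = chi M b := chi_inv ⟨c, hc⟩
  rw [h2] at h1
  exact h1

end chi

variable {A B C : ℤ} {M : ℕ} [NeZero M]

theorem Gs_eval (hA : 0 < A) (hD : dsc A B C = 8 * M) {k : ℕ} [NeZero k] (hk : (8 * M : ℤ) ∣ k)
    {α : ℤ} (hα : IsCoprime α k) :
    -I * Gs A B C α k / (k * (√((dsc A B C : ℤ) : ℝ) : ℝ)) = chi M α := by
  have hM : (0 : ℤ) < M := by exact_mod_cast NeZero.pos M
  have hD0 : 0 < dsc A B C := by rw [hD]; linarith
  obtain ⟨β, γ, hβγ⟩ := hα
  have hβ : IsCoprime β (k : ℤ) := ⟨α, γ, by linarith⟩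
  obtain ⟨p, hpN, hp, hpβ⟩ := Nat.forall_exists_prime_gt_and_zmodEq (2 + A.natAbs + 8 * M) (NeZero.ne k) hβ
  haveI : Fact p.Prime := ⟨hp⟩
  haveI : NeZero p := ⟨hp.ne_zero⟩
  obtain ⟨b, hb⟩ : ∃ b : ℤ, α * p - b * k = 1 := by
    obtain ⟨x, hx⟩ := (Int.modEq_iff_dvd.mp hpβ)
    refine ⟨- γ - α * x, ?_⟩
    have : (p : ℤ) = β - k * x := by linarith
    rw [this]
    linear_combination hβγ
  rw [Gs_recip hA hD0 (by rwa [hD]) hb]
  have hpZ : (p : ℤ) > 2 + A.natAbs + 8 * M := by exact_mod_cast hpN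
  have hAn : (A.natAbs : ℤ) = A := Int.natAbs_of_nonneg hA.le
  have h1 : ¬ (p : ℤ) ∣ A := by
    intro h
    have := Int.le_of_dvd hA h
    omega
  have h2 : ¬ (p : ℤ) ∣ dsc A B C := by
    intro h
    have := Int.le_of_dvd hD0 h
    omega
  have h3 : ¬ (p : ℤ) ∣ b := by
    intro h
    have h4 : (p : ℤ) ∣ 1 := by
      rw [← hb]
      exact dvd_sub (dvd_mul_left _ _) (h.mul_right _)
    have := Int.le_of_dvd one_pos h4
    omega
  have hp2 : p ≠ 2 := by omega
  rw [Gs_prime hp2 h1 h2 h3]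
  have hpc : (p : ℂ) ≠ 0 := by exact_mod_cast hp.ne_zero
  rw [mul_div_cancel_left₀ _ hpc]
  congr 1
  have hodd : Odd p := hp.odd_of_ne_two hp2
  have h5 : legendreSym p (-dsc A B C) = J(-2 * M | p) := by
    rw [jacobiSym.legendreSym.to_jacobiSym, hD]
    have h6 := jacobiSym.div_four_left (a := -(8 * (M : ℤ))) (b := p) (by omega)
      (Nat.odd_iff.mp hodd)
    rw [← h6]
    congr 1
    omega
  rw [h5, ← chi_natCast hodd]
  apply chi_inv
  obtain ⟨y, hy⟩ := hk
  refine ⟨b * y, ?_⟩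
  rw [mul_comm (p : ℤ) α]
  have : α * p - 1 = b * k := by linarith
  rw [this, hy]; ring

variable {f : ℕ} [NeZero f] {a b d : ℤ} {k : ℕ} [NeZero k]

/-- The transformation formula of theta series of binary forms of discriminant `-8M`. -/
theorem thz_trans (hA : 0 < A) (hD : dsc A B C = 8 * M) (hk : (8 * M : ℤ) ∣ k)
    (hdet : a * d - b * k = 1) {kb fb : ℤ} (hcop : (k : ℤ) * kb + f * fb = 1) (h : ℤ × ℤ) {z : ℂ}
    (hz : 0 < z.im) :
    thz A B C f h ((a * z + b) / (k * z + d)) =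
      (chi M d : ℂ) * (k * z + d) * ((chi M f : ℂ) / f *
      ∑ y : Fin f × Fin f,
        ex ((kb * (a * qz A B C h.1 h.2 - bz A B C h (((y.1 : ℕ) : ℤ), ((y.2 : ℕ) : ℤ)) +
          d * qz A B C ((y.1 : ℕ) : ℤ) ((y.2 : ℕ) : ℤ)) : ℤ) / f) *
        thz A B C f (((y.1 : ℕ) : ℤ), ((y.2 : ℕ) : ℤ)) z) := by
  have hM : (0 : ℤ) < M := by exact_mod_cast NeZero.pos M
  have hD0 : 0 < dsc A B C := by rw [hD]; linarith
  have hac : IsCoprime a (k : ℤ) := ⟨d, -b, by linarith⟩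
  have hfc : IsCoprime fb (k : ℤ) := ⟨f, kb, by linarith⟩
  have h1 := Gs_eval hA hD hk (hfc.mul_left hac)
  have he : Even (k : ℤ) := by
    obtain ⟨y, hy⟩ := hk
    rw [hy]
    exact Even.mul_right (Even.mul_right (by decide) _) _
  obtain ⟨ha, hd⟩ := odd_of_mul_sub he hdet
  obtain ⟨hf1, hfb⟩ := odd_of_mul_sub he (show (f : ℤ) * fb - (-kb) * k = 1 by linarith)
  have h2 : chi M a = chi M d := by
    apply chi_inv
    refine hk.trans ⟨b, by linarith⟩
  have h3 : chi M fb = chi M f := by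
    apply chi_inv
    refine hk.trans ⟨-kb, by linarith⟩
  rw [chi_mul hfb ha, h2, h3] at h1
  rw [thz_level hA hD0 (by rwa [hD]) hdet hcop h hz, h1]
  push_cast
  ring

end Fermat.Agent.H18T
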