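import Fermat.Agent.H18T.Vec

set_option autoImplicit false
set_option linter.all false

/-!
# Behaviour at the cusps

-/

noncomputable section

open Complex Real Filter Topology UpperHalfPlane
open scoped NumberTheorySymbols MatrixGroups Manifold
open Fermat.Agent.H29W

namespace Fermat.Agent.H18T

/-- translations -/
def Tn (n : ℤ) : SL(2, ℤ) := ⟨!![1, n; 0, 1], by simp [Matrix.det_fin_two]⟩

theorem jf_Tn (n : ℤ) (z : ℍ) : jf (Tn n) z = 1 := by simp [jf, Tn]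

theorem coe_Tn (n : ℤ) (z : ℍ) : ((Tn n • z : ℍ) : ℂ) = z + n := by
  rw [coe_smul']; simp [Tn]

theorem tendsto_Tn (n : ℤ) : Tendsto (fun z : ℍ => Tn n • z) atImInfty atImInfty := by
  rw [atImInfty, tendsto_comap_iff]
  have : (UpperHalfPlane.im ∘ fun z : ℍ => Tn n • z) = UpperHalfPlane.im := by
    funext z
    show ((Tn n • z : ℍ) : ℂ).im = (z : ℂ).im
    rw [coe_Tn]
    simp
  rw [this]
  exact tendsto_comap

theorem tendsto_coe_imTop : Tendsto (fun z : ℍ => (z : ℂ)) atImInfty imTop := by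
  rw [imTop, tendsto_comap_iff]
  exact tendsto_comap

section lim

variable {W : Type*} [NormedAddCommGroup W] [NormedSpace ℂ W] [FiniteDimensional ℂ W]

/-- limit of `F | g` at `i∞` (weight one) -/
def LimAt (F : ℍ → W) (g : SL(2, ℤ)) (c : W) : Prop :=
  Tendsto (fun z : ℍ => (jf g z)⁻¹ • F (g • z)) atImInfty (𝓝 c)

omit [FiniteDimensional ℂ W] in
theorem LimAt.mul_Tn {F : ℍ → W} {g : SL(2, ℤ)} {c : W} (h : LimAt F g c) (n : ℤ) :
    LimAt F (g * Tn n) c := by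
  have h1 := h.comp (tendsto_Tn n)
  refine h1.congr fun z => ?_
  simp only [Function.comp_apply]
  rw [jf_mul, jf_Tn, mul_one, mul_smul]

omit [FiniteDimensional ℂ W] in
theorem LimAt.unique {F : ℍ → W} {g : SL(2, ℤ)} {c c' : W} (h : LimAt F g c) (h' : LimAt F g c') :
    c = c' := tendsto_nhds_unique h h'

variable {M f : ℕ} [NeZero M] [NeZero f] {ρ : SL(2, ZMod f) →* (W →ₗ[ℂ] W)} {F : ℍ → W}

theorem LimAt.law {γ g : SL(2, ℤ)} {c : W} (hγ : γ ∈ lawGroup M f ρ F) (h : LimAt F g c) :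
    LimAt F (γ * g) ((chi M (γ 1 1) : ℂ) • ρ (redSL f γ) c) := by
  have h1 : Tendsto (fun z : ℍ => (chi M (γ 1 1) : ℂ) • ρ (redSL f γ) ((jf g z)⁻¹ • F (g • z)))
      atImInfty (𝓝 ((chi M (γ 1 1) : ℂ) • ρ (redSL f γ) c)) :=
    (((ρ (redSL f γ)).continuous_of_finiteDimensional.tendsto c).comp h).const_smul _
  refine h1.congr fun z => ?_
  rw [mul_smul, hγ.2 (g • z), jf_mul, map_smul, smul_smul, smul_smul]
  congr 1
  have h2 := jf_ne_zero γ (g • z)
  have h3 := jf_ne_zero g z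
  field_simp

theorem exists_LimAt (hlaw : ∀ g : SL(2, ℤ), (8 * M : ℤ) ∣ g 1 0 → g ∈ lawGroup M f ρ F)
    (hpos : ∀ g : SL(2, ℤ), 0 < g 1 0 → ∃ c, LimAt F g c) (g : SL(2, ℤ)) : ∃ c, LimAt F g c := by
  have hM : (0 : ℤ) < M := by exact_mod_cast NeZero.pos M
  rcases lt_trichotomy (g 1 0) 0 with h | h | h
  · obtain ⟨c, hc⟩ := hpos (-g) (by
      rw [Matrix.SpecialLinearGroup.coe_neg, Matrix.neg_apply]; linarith)
    have h1 := hc.law (hlaw (-1) (by simp))
    rw [neg_mul, one_mul, neg_neg] at h1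
    exact ⟨_, h1⟩
  · have hdet := det_eq g
    rw [h, mul_zero, sub_zero] at hdet
    have h00 : g 0 0 * g 0 0 = 1 := by
      rcases Int.eq_one_or_neg_one_of_mul_eq_one hdet with h0 | h0 <;> rw [h0] <;> norm_num
    obtain ⟨c, hc⟩ := hpos (Ulow M (g 0 0) * g) (by
      rw [Matrix.SpecialLinearGroup.coe_mul, Matrix.mul_apply, Fin.sum_univ_two]
      show 0 < 8 * M * g 0 0 * g 0 0 + 1 * g 1 0
      rw [h, mul_assoc, h00]
      linarith)
    have hU : Ulow M (g 0 0) ∈ lawGroup M f ρ F := hlaw _ (dvd_mul_right _ _)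
    have h1 := hc.law ((lawGroup M f ρ F).inv_mem hU)
    rw [inv_mul_cancel_left] at h1
    exact ⟨_, h1⟩
  · exact hpos g h

/-- conjugates of translations -/
theorem conj_Tn (g : SL(2, ℤ)) (n : ℤ) :
    (g * Tn n * g⁻¹) 1 0 = -(n * g 1 0 ^ 2) ∧ (g * Tn n * g⁻¹) 1 1 = 1 + n * g 0 0 * g 1 0 := by
  have hdet := det_eq g
  have e10 : (g⁻¹ : SL(2, ℤ)) 1 0 = - g 1 0 := by
    rw [Matrix.SpecialLinearGroup.coe_inv, Matrix.adjugate_fin_two]; simp
  have e11 : (g⁻¹ : SL(2, ℤ)) 1 1 = g 0 0 := by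
    rw [Matrix.SpecialLinearGroup.coe_inv, Matrix.adjugate_fin_two]; simp
  have e00 : (g⁻¹ : SL(2, ℤ)) 0 0 = g 1 1 := by
    rw [Matrix.SpecialLinearGroup.coe_inv, Matrix.adjugate_fin_two]; simp
  have e01 : (g⁻¹ : SL(2, ℤ)) 0 1 = -g 0 1 := by
    rw [Matrix.SpecialLinearGroup.coe_inv, Matrix.adjugate_fin_two]; simp
  have t10 : (g * Tn n) 1 0 = g 1 0 := by
    rw [Matrix.SpecialLinearGroup.coe_mul, Matrix.mul_apply, Fin.sum_univ_two]
    show g 1 0 * 1 + g 1 1 * 0 = _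
    ring
  have t11 : (g * Tn n) 1 1 = g 1 0 * n + g 1 1 := by
    rw [Matrix.SpecialLinearGroup.coe_mul, Matrix.mul_apply, Fin.sum_univ_two]
    show g 1 0 * n + g 1 1 * 1 = _
    ring
  constructor
  · rw [Matrix.SpecialLinearGroup.coe_mul, Matrix.mul_apply, Fin.sum_univ_two, e00, e10, t10, t11]
    ring
  · rw [Matrix.SpecialLinearGroup.coe_mul, Matrix.mul_apply, Fin.sum_univ_two, e01, e11, t10, t11]
    linear_combination hdet

theorem conj_law (hlaw : ∀ g : SL(2, ℤ), (8 * M : ℤ) ∣ g 1 0 → g ∈ lawGroup M f ρ F)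
    (g : SL(2, ℤ)) {n : ℤ} (hn : (8 * M : ℤ) ∣ n) :
    g * Tn n * g⁻¹ ∈ lawGroup M f ρ F ∧ chi M ((g * Tn n * g⁻¹) 1 1) = 1 := by
  obtain ⟨h10, h11⟩ := conj_Tn g n
  refine ⟨hlaw _ (by rw [h10]; exact (hn.mul_right _).neg_right), ?_⟩
  have h1 : chi M ((g * Tn n * g⁻¹) 1 1) = chi M 1 := by
    apply chi_congr
    rw [h11, add_sub_cancel_left, mul_assoc]
    exact hn.mul_right _
  rw [h1, chi_one]

end lim

/-! ### vanishing at the cusps in the Kirillov model -/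

section vanish

variable {M f : ℕ} [NeZero M] [NeZero f]
variable {ι : Type*} [Fintype ι] [DecidableEq ι] {k : ι → Type*} [∀ i, Field (k i)]
  [∀ i, Fintype (k i)] [∀ i, DecidableEq (k i)]
  {E : ZMod f ≃+* ((i : ι) → k i)} {d : ZMod f}
  [∀ i, Fact (∀ r : k i, r ^ 2 ≠ pr E i d + 0 * r)] (D : WData E d ℂ)

theorem kirSL_Tn (n : ℤ) (φ : (ZMod f)ˣ → ℂ) (s : (ZMod f)ˣ) :
    kirSL D (redSL f (Tn n)) φ s = D.Ψ ((n : ZMod f) * s) * φ s := by
  rw [kirSL_apply, Matrix.mulVec, dotProduct]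
  have h0 : (redSL f (Tn n)).1 1 0 = 0 := by
    show ((0 : ℤ) : ZMod f) = 0
    simp
  have h1 : (redSL f (Tn n)).1 1 1 = 1 := by
    show ((1 : ℤ) : ZMod f) = 1
    simp
  have h2 : (redSL f (Tn n)).1 0 0 = 1 := by
    show ((1 : ℤ) : ZMod f) = 1
    simp
  have h3 : (redSL f (Tn n)).1 0 1 = (n : ZMod f) := rfl
  rw [Finset.sum_eq_single s]
  · rw [D.M_apply_of_zero h0 (e' := 1) (by rw [h1, one_mul]), h2, h3, mul_one, mul_one, one_mul,
      if_pos rfl]
  · intro t _ hts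
    rw [D.M_apply_of_zero h0 (e' := 1) (by rw [h1, one_mul]), h2, mul_one, one_mul, if_neg, zero_mul]
    intro h; exact hts (Units.ext h)
  · intro h; exact absurd (Finset.mem_univ _) h

theorem LimAt_eq_zero (hΨ : ∀ x : ZMod f, D.Ψ x = ZMod.stdAddChar x) (hf1 : 1 < f)
    (hf : Nat.Coprime f (8 * M)) {F : ℍ → ((ZMod f)ˣ → ℂ)}
    (hlaw : ∀ g : SL(2, ℤ), (8 * M : ℤ) ∣ g 1 0 → g ∈ lawGroup M f (kirSL D) F)
    {g : SL(2, ℤ)} {c : (ZMod f)ˣ → ℂ} (hc : LimAt F g c) : c = 0 := by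
  haveI : Fact (1 < f) := ⟨hf1⟩
  obtain ⟨hγ, hχ⟩ := conj_law hlaw g (dvd_refl (8 * M : ℤ))
  have h1 := hc.law hγ
  rw [hχ, Int.cast_one, one_smul, inv_mul_cancel_right] at h1
  have h2 := (hc.mul_Tn (8 * M)).unique h1
  -- `v := ρ(g⁻¹) c` is fixed by `T^{8M}`
  have h3 : kirSL D (redSL f g⁻¹) c = kirSL D (redSL f (Tn (8 * M))) (kirSL D (redSL f g⁻¹) c) := by
    conv_lhs => rw [h2]
    rw [← Module.End.mul_apply, ← map_mul, ← Module.End.mul_apply, ← map_mul, ← map_mul, ← map_mul]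
    congr 3
    group
  have h4 : kirSL D (redSL f g⁻¹) c = 0 := by
    funext s
    have h5 := congrFun h3 s
    rw [kirSL_Tn] at h5
    have hu : IsUnit (((8 * M : ℤ) : ZMod f) * s) := by
      refine IsUnit.mul ?_ s.isUnit
      have := (ZMod.isUnit_iff_coprime (8 * M) f).mpr hf.symm
      push_cast at this ⊢
      exact this
    have h6 : D.Ψ (((8 * M : ℤ) : ZMod f) * s) ≠ 1 := by
      rw [hΨ, ← AddChar.map_zero_eq_one (ZMod.stdAddChar (N := f))]
      intro h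
      have := ZMod.injective_stdAddChar h
      rw [this] at hu
      exact not_isUnit_zero hu
    have h7 : (1 - D.Ψ (((8 * M : ℤ) : ZMod f) * s)) * kirSL D (redSL f g⁻¹) c s = 0 := by
      rw [sub_mul, one_mul, ← h5, sub_self]
    rcases mul_eq_zero.mp h7 with h8 | h8
    · exact absurd (sub_eq_zero.mp h8).symm h6
    · exact h8
  have h5 : c = kirSL D (redSL f g) (kirSL D (redSL f g⁻¹) c) := by
    rw [← Module.End.mul_apply, ← map_mul, ← map_mul, mul_inv_cancel, map_one, map_one]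
    rfl
  rw [h5, h4, map_zero]

end vanish

/-! ### limits and holomorphy of theta series -/

section theta

variable {A B C : ℤ} {f : ℕ} [NeZero f] {M : ℕ} [NeZero M]

theorem LimAt_thz (hA : 0 < A) (hD : 0 < dsc A B C) (h : ℤ × ℤ) {g : SL(2, ℤ)} (hg : 0 < g 1 0) :
    ∃ c : ℂ, LimAt (fun z : ℍ => thz A B C f h z) g c := by
  obtain ⟨k, hk⟩ : ∃ k : ℕ, g 1 0 = k := ⟨(g 1 0).toNat, (Int.toNat_of_nonneg hg.le).symm⟩
  have hk0 : k ≠ 0 := by rintro rfl; rw [hk] at hg; simp at hg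
  haveI : NeZero k := ⟨hk0⟩
  have hdet : g 0 0 * g 1 1 - g 0 1 * k = 1 := by rw [← hk]; exact det_eq g
  have h1 := (tendsto_thz_smul (f := f) hA hD hdet h).comp tendsto_coe_imTop
  refine ⟨_, h1.congr fun z => ?_⟩
  simp only [Function.comp_apply]
  rw [jf, coe_smul', hk, Int.cast_natCast, smul_eq_mul]

theorem differentiableOn_thz (hA : 0 < A) (hD : 0 < dsc A B C) (h : ℤ × ℤ) :
    DifferentiableOn ℂ (thz A B C f h) {z | 0 < z.im} := by
  classical
  have hf : (0 : ℝ) < f := by exact_mod_cast NeZero.pos f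
  set ψ : ℤ × ℤ → ℂ := fun t => if cong f t h then 1 else 0 with hψ
  have hb : ∀ n, ‖ψ n‖ ≤ 1 := by
    intro n; rw [hψ]; simp only; split_ifs <;> simp
  have h1 := differentiableOn_TS hA hD hb (r := 1 / f) (by positivity)
  refine h1.congr fun z hz => ?_
  have hE : ∀ p q, cong f p q → ψ p = ψ q := by
    intro p q hpq
    have : cong f p h ↔ cong f q h := by
      constructor
      · intro hp
        refine ⟨?_, ?_⟩
        · have := dvd_sub hp.1 hpq.1
          rwa [sub_sub_sub_cancel_left] at this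
        · have := dvd_sub hp.2 hpq.2
          rwa [sub_sub_sub_cancel_left] at this
      · intro hq
        refine ⟨?_, ?_⟩
        · have := dvd_add hpq.1 hq.1
          rwa [sub_add_sub_cancel] at this
        · have := dvd_add hpq.2 hq.2
          rwa [sub_add_sub_cancel] at this
    rw [hψ]; simp only [this]
  have h2 := tsum_periodic' hA hD ψ hE (Equiv.refl (ZMod f × ZMod f)) (z := z) hz
  rw [TS]
  have h3 : ∑' n : ℤ × ℤ, ψ n * ex ((qz A B C n.1 n.2 : ℤ) * ((1 / f : ℝ) * z)) =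
      ∑' t : ℤ × ℤ, ψ t * ex ((qz A B C t.1 t.2 : ℤ) * z / f) := by
    refine tsum_congr fun n => ?_
    congr 2
    push_cast
    ring
  rw [h3, h2, Finset.sum_eq_single (((h.1 : ZMod f), (h.2 : ZMod f)))]
  · have e1 : ψ (lft ((h.1 : ZMod f), (h.2 : ZMod f))) = ψ h := (hE _ _ (cong_lft h)).symm
    have e2 : ψ h = 1 := by
      rw [hψ]; simp only
      rw [if_pos ⟨by simp, by simp⟩]
    rw [Equiv.refl_apply, e1, e2, one_mul, thX, Equiv.refl_apply]
    exact thz_congr (cong_lft h) z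
  · intro b _ hb'
    have : ψ (lft b) = 0 := by
      rw [hψ]; simp only
      rw [if_neg]
      intro hc
      apply hb'
      have e := lft_coe b
      rw [← e]
      refine Prod.ext ?_ ?_
      · have := (ZMod.intCast_zmod_eq_zero_iff_dvd ((lft b).1 - h.1) f).mpr hc.1
        push_cast at this
        exact sub_eq_zero.mp this
      · have := (ZMod.intCast_zmod_eq_zero_iff_dvd ((lft b).2 - h.2) f).mpr hc.2
        push_cast at this
        exact sub_eq_zero.mp this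
    rw [Equiv.refl_apply, this, zero_mul]
  · intro h; exact absurd (Finset.mem_univ _) h

theorem mdiff_thz (hA : 0 < A) (hD : 0 < dsc A B C) (h : ℤ × ℤ) :
    MDiff (fun z : ℍ => thz A B C f h z) := by
  rw [UpperHalfPlane.mdifferentiable_iff]
  refine (differentiableOn_thz (f := f) hA hD h).congr fun z hz => ?_
  simp only [Function.comp_apply]
  rw [ofComplex_apply_of_im_pos hz]

/-- the transformation law of the theta series of the lattice itself -/
theorem theta0_law (hA : 0 < A) (hD : dsc A B C = 8 * M) :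
    ∀ g : SL(2, ℤ), (8 * M : ℤ) ∣ g 1 0 → g ∈ lawGroup M 1 (1 : SL(2, ZMod 1) →* (ℂ →ₗ[ℂ] ℂ))
      (fun z : ℍ => thz A B C 1 0 z) := by
  refine mem_of_level (M := M) (f := 1) (Nat.coprime_one_left _) _ ?_
  intro g h8 hpos _
  refine ⟨h8, fun z => ?_⟩
  show thz A B C 1 0 (g • z : ℍ) = ((chi M (g 1 1) : ℂ) * jf g z) • thz A B C 1 0 z
  obtain ⟨k, hk⟩ : ∃ k : ℕ, g 1 0 = k := ⟨(g 1 0).toNat, (Int.toNat_of_nonneg hpos.le).symm⟩
  have hk0 : k ≠ 0 := by rintro rfl; rw [hk] at hpos; simp at hpos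
  haveI : NeZero k := ⟨hk0⟩
  have hdet : g 0 0 * g 1 1 - g 0 1 * k = 1 := by rw [← hk]; exact det_eq g
  have h1 := thz_trans (f := 1) (kb := 0) (fb := 1) hA hD (by rwa [← hk]) hdet (by norm_num) 0
    z.im_pos
  have h2 : ((g • z : ℍ) : ℂ) = (((g 0 0 : ℤ) : ℂ) * z + ((g 0 1 : ℤ) : ℂ)) /
      ((k : ℂ) * z + ((g 1 1 : ℤ) : ℂ)) := by
    rw [coe_smul', hk, Int.cast_natCast]
  have h3 : jf g z = (k : ℂ) * z + ((g 1 1 : ℤ) : ℂ) := by rw [jf, hk, Int.cast_natCast]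
  rw [h2, h1, h3, smul_eq_mul]
  congr 1
  rw [Fintype.sum_prod_type, Fin.sum_univ_one, Fin.sum_univ_one]
  have h4 : chi M (1 : ℕ) = 1 := by rw [Nat.cast_one, chi_one]
  rw [h4]
  simp [ex_zero]
  rfl

end theta

end Fermat.Agent.H18T
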