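import Fermat.Agent.H18T.Chi

set_option autoImplicit false
set_option linter.all false

/-!
# Extension of transformation formulas to all of `Γ₀(8M)`

-/

noncomputable section

open Complex Real Filter Topology UpperHalfPlane
open scoped NumberTheorySymbols MatrixGroups

namespace Fermat.Agent.H18T

/-- the automorphy factor -/
def jf (g : SL(2, ℤ)) (z : ℍ) : ℂ := ((g 1 0 : ℤ) : ℂ) * z + ((g 1 1 : ℤ) : ℂ)

theorem jf_eq_denom (g : SL(2, ℤ)) (z : ℍ) : jf g z = denom (g : GL (Fin 2) ℝ) z := by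
  rw [jf, ModularGroup.denom_apply]

theorem jf_ne_zero (g : SL(2, ℤ)) (z : ℍ) : jf g z ≠ 0 := by
  rw [jf_eq_denom]; exact denom_ne_zero _ _

theorem coe_smul' (g : SL(2, ℤ)) (z : ℍ) : ((g • z : ℍ) : ℂ) =
    (((g 0 0 : ℤ) : ℂ) * z + ((g 0 1 : ℤ) : ℂ)) / (((g 1 0 : ℤ) : ℂ) * z + ((g 1 1 : ℤ) : ℂ)) := by
  rw [UpperHalfPlane.specialLinearGroup_apply]
  simp

theorem jf_mul (g h : SL(2, ℤ)) (z : ℍ) : jf (g * h) z = jf g (h • z) * jf h z := by
  have h1 := jf_ne_zero h z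
  rw [jf, jf, coe_smul']
  rw [jf] at h1 ⊢
  have e1 : (g * h) 1 0 = g 1 0 * h 0 0 + g 1 1 * h 1 0 := by
    rw [Matrix.SpecialLinearGroup.coe_mul, Matrix.mul_apply, Fin.sum_univ_two]
  have e2 : (g * h) 1 1 = g 1 0 * h 0 1 + g 1 1 * h 1 1 := by
    rw [Matrix.SpecialLinearGroup.coe_mul, Matrix.mul_apply, Fin.sum_univ_two]
  rw [e1, e2]
  push_cast
  field_simp
  ring

theorem jf_one (z : ℍ) : jf 1 z = 1 := by simp [jf]

theorem det_eq (g : SL(2, ℤ)) : g 0 0 * g 1 1 - g 0 1 * g 1 0 = 1 := by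
  have := g.2
  rwa [Matrix.det_fin_two] at this

theorem coprime_row (g : SL(2, ℤ)) : IsCoprime (g 1 0) (g 1 1) :=
  ⟨-g 0 1, g 0 0, by linarith [det_eq g]⟩

/-- reduction modulo `f` -/
abbrev redSL (f : ℕ) : SL(2, ℤ) →* SL(2, ZMod f) :=
  Matrix.SpecialLinearGroup.map (Int.castRingHom (ZMod f))

section ext

variable {W : Type*} [AddCommGroup W] [Module ℂ W] {M f : ℕ} [NeZero M] [NeZero f]

theorem odd_diag {g : SL(2, ℤ)} (h : (8 * M : ℤ) ∣ g 1 0) : Odd (g 0 0) ∧ Odd (g 1 1) := by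
  have he : Even (g 1 0) := by
    obtain ⟨y, hy⟩ := h
    rw [hy]
    exact Even.mul_right (Even.mul_right (by decide) _) _
  exact odd_of_mul_sub he (det_eq g)

theorem chi_diag {g : SL(2, ℤ)} (h : (8 * M : ℤ) ∣ g 1 0) :
    (chi M (g 0 0) : ℂ) * chi M (g 1 1) = 1 := by
  obtain ⟨h0, h1⟩ := odd_diag h
  have h2 : chi M (g 0 0 * g 1 1) = chi M 1 := by
    apply chi_congr
    have := det_eq g
    exact h.trans ⟨g 0 1, by linarith⟩
  rw [← Int.cast_mul, ← chi_mul h0 h1, h2, chi_one, Int.cast_one]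

variable (M f) in
/-- the group of matrices for which the transformation law holds -/
def lawGroup (ρ : SL(2, ZMod f) →* (W →ₗ[ℂ] W)) (F : ℍ → W) : Subgroup SL(2, ℤ) where
  carrier := {g | (8 * M : ℤ) ∣ g 1 0 ∧ ∀ z : ℍ, F (g • z) =
    ((chi M (g 1 1) : ℂ) * jf g z) • ρ (redSL f g) (F z)}
  one_mem' := by
    refine ⟨by simp, fun z => ?_⟩
    rw [one_smul, jf_one, map_one, map_one]
    have : (1 : SL(2, ℤ)) 1 1 = 1 := by simp
    rw [this, chi_one]
    simp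
  mul_mem' := by
    rintro g h ⟨hg, hg'⟩ ⟨hh, hh'⟩
    have e1 : (g * h) 1 0 = g 1 0 * h 0 0 + g 1 1 * h 1 0 := by
      rw [Matrix.SpecialLinearGroup.coe_mul, Matrix.mul_apply, Fin.sum_univ_two]
    have e2 : (g * h) 1 1 = g 1 0 * h 0 1 + g 1 1 * h 1 1 := by
      rw [Matrix.SpecialLinearGroup.coe_mul, Matrix.mul_apply, Fin.sum_univ_two]
    refine ⟨by rw [e1]; exact dvd_add (hg.mul_right _) (hh.mul_left _), fun z => ?_⟩
    have e3 : chi M ((g * h) 1 1) = chi M (g 1 1) * chi M (h 1 1) := by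
      rw [← chi_mul (odd_diag hg).2 (odd_diag hh).2]
      apply chi_congr
      rw [e2]
      have : g 1 0 * h 0 1 + g 1 1 * h 1 1 - g 1 1 * h 1 1 = g 1 0 * h 0 1 := by ring
      rw [this]
      exact hg.mul_right _
    rw [mul_smul, hg', hh', map_smul, map_mul (redSL f), map_mul ρ, smul_smul, e3, jf_mul]
    push_cast
    rw [Module.End.mul_apply]
    congr 1
    ring
  inv_mem' := by
    rintro g ⟨hg, hg'⟩
    have e1 : (g⁻¹ : SL(2, ℤ)) 1 0 = - g 1 0 := by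
      rw [Matrix.SpecialLinearGroup.coe_inv, Matrix.adjugate_fin_two]; simp
    have e2 : (g⁻¹ : SL(2, ℤ)) 1 1 = g 0 0 := by
      rw [Matrix.SpecialLinearGroup.coe_inv, Matrix.adjugate_fin_two]; simp
    refine ⟨by rw [e1]; exact hg.neg_right, fun z => ?_⟩
    have h1 := hg' (g⁻¹ • z)
    rw [smul_inv_smul] at h1
    have h2 : jf g (g⁻¹ • z) * jf g⁻¹ z = 1 := by
      rw [← jf_mul, mul_inv_cancel, jf_one]
    have h3 : ρ (redSL f g⁻¹) (ρ (redSL f g) (F (g⁻¹ • z))) = F (g⁻¹ • z) := by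
      rw [← Module.End.mul_apply, ← map_mul, ← map_mul, inv_mul_cancel, map_one, map_one]
      rfl
    rw [h1, map_smul, h3, smul_smul, e2]
    have h4 : (chi M (g 0 0) : ℂ) * jf g⁻¹ z * (chi M (g 1 1) * jf g (g⁻¹ • z)) = 1 := by
      calc _ = ((chi M (g 0 0) : ℂ) * chi M (g 1 1)) * (jf g (g⁻¹ • z) * jf g⁻¹ z) := by ring
        _ = 1 := by rw [chi_diag hg, h2, one_mul]
    rw [h4, one_smul]

variable (M) in
/-- lower triangular matrices -/
def Ulow (n : ℤ) : SL(2, ℤ) := ⟨!![1, 0; 8 * M * n, 1], by simp [Matrix.det_fin_two]⟩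

theorem Ulow_add (m n : ℤ) : Ulow M (m + n) = Ulow M m * Ulow M n := by
  apply Subtype.ext
  ext i j
  fin_cases i <;> fin_cases j <;>
    simp [Ulow, Matrix.mul_apply, Fin.sum_univ_two, Matrix.SpecialLinearGroup.coe_mul]
  ring

theorem Ulow_zero : Ulow M 0 = 1 := by
  apply Subtype.ext
  ext i j
  fin_cases i <;> fin_cases j <;> simp [Ulow]

theorem Ulow_mem {H : Subgroup SL(2, ℤ)} (h : Ulow M 1 ∈ H) (n : ℤ) : Ulow M n ∈ H := by
  have key : ∀ n : ℕ, Ulow M n ∈ H := by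
    intro n
    induction n with
    | zero => rw [Nat.cast_zero, Ulow_zero]; exact H.one_mem
    | succ n ih => rw [Nat.cast_succ, Ulow_add]; exact H.mul_mem ih h
  obtain ⟨m, rfl | rfl⟩ := n.eq_nat_or_neg
  · exact key m
  · have h1 : Ulow M (-(m : ℤ)) = (Ulow M m)⁻¹ := by
      rw [eq_inv_iff_mul_eq_one, ← Ulow_add, neg_add_cancel, Ulow_zero]
    rw [h1]
    exact H.inv_mem (key m)

/-- a subgroup containing all matrices of level `8M` with positive lower left entry prime to `f`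
contains `Γ₀(8M)` -/
theorem mem_of_level (hf : Nat.Coprime f (8 * M)) (H : Subgroup SL(2, ℤ))
    (hH : ∀ g : SL(2, ℤ), (8 * M : ℤ) ∣ g 1 0 → 0 < g 1 0 → IsCoprime (g 1 0) (f : ℤ) → g ∈ H)
    (g : SL(2, ℤ)) (hg : (8 * M : ℤ) ∣ g 1 0) : g ∈ H := by
  have hM : (0 : ℤ) < 8 * M := by
    have : (0 : ℤ) < M := by exact_mod_cast NeZero.pos M
    linarith
  have hf' : IsCoprime (8 * M : ℤ) (f : ℤ) := by
    have := Nat.isCoprime_iff_coprime.mpr hf
    push_cast at this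
    exact this.symm
  have hU1 : Ulow M 1 ∈ H := by
    apply hH
    · show (8 * M : ℤ) ∣ 8 * M * 1
      exact dvd_mul_right _ _
    · show (0 : ℤ) < 8 * M * 1
      linarith
    · show IsCoprime (8 * M * 1 : ℤ) (f : ℤ)
      rwa [mul_one]
  obtain ⟨c', hc'⟩ := hg
  have hg11 : g 1 1 ≠ 0 := by
    intro h0
    have := (odd_diag (M := M) ⟨c', hc'⟩).2
    rw [h0] at this
    exact absurd this (by decide)
  have hcop : IsCoprime c' ((g 1 1).natAbs : ℤ) := by
    have h1 := coprime_row g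
    rw [hc'] at h1
    have h2 := h1.of_mul_left_right
    rw [Int.natCast_natAbs]
    exact (IsCoprime.abs_right_iff _ _).mpr h2
  obtain ⟨p, hpf, hp, hpc⟩ := Nat.forall_exists_prime_gt_and_zmodEq f
    (Int.natAbs_ne_zero.mpr hg11) hcop
  obtain ⟨n, hn⟩ : ∃ n : ℤ, (p : ℤ) = c' + n * g 1 1 := by
    have h1 : (g 1 1) ∣ (p : ℤ) - c' := by
      have h2 := (Int.modEq_iff_dvd.mp hpc.symm)
      rwa [Int.natCast_natAbs, abs_dvd] at h2
    obtain ⟨n, hn⟩ := h1
    exact ⟨n, by linarith⟩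
  have hgU : (g * Ulow M n) 1 0 = 8 * M * p := by
    rw [Matrix.SpecialLinearGroup.coe_mul, Matrix.mul_apply, Fin.sum_univ_two]
    show g 1 0 * 1 + g 1 1 * (8 * M * n) = _
    rw [hc', hn]; ring
  have hmem : g * Ulow M n ∈ H := by
    apply hH
    · rw [hgU]; exact dvd_mul_right _ _
    · rw [hgU]
      have : (0 : ℤ) < p := by exact_mod_cast hp.pos
      positivity
    · rw [hgU]
      refine hf'.mul_left ?_
      rw [Nat.isCoprime_iff_coprime]
      refine (Nat.Prime.coprime_iff_not_dvd hp).mpr fun hd => ?_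
      exact absurd (Nat.le_of_dvd (NeZero.pos f) hd) (by omega)
  have h3 := H.mul_mem hmem (H.inv_mem (Ulow_mem hU1 n))
  rwa [mul_inv_cancel_right] at h3

end ext

end Fermat.Agent.H18T
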