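import Fermat.Agent.H18T.Cusp
import Fermat.Agent.H24ES.VForm

set_option autoImplicit false
set_option linter.all false

/-!
# Products of weight one forms as vector valued cusp forms of weight two

-/

noncomputable section

open Complex Real Filter Topology UpperHalfPlane Function
open scoped NumberTheorySymbols MatrixGroups Manifold ModularForm
open Fermat.Agent.H29W Fermat.Agent.H24ES Fermat.Agent.H16

namespace Fermat.Agent.H18T

section kirE

variable {ι : Type*} [Fintype ι] [DecidableEq ι] {k : ι → Type*} [∀ i, Field (k i)]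
  [∀ i, Fintype (k i)] [∀ i, DecidableEq (k i)] {Z : Type*} [CommRing Z] [Fintype Z]
  [DecidableEq Z] {E : Z ≃+* ((i : ι) → k i)} {d : Z}
  [∀ i, Fact (∀ r : k i, r ^ 2 ≠ pr E i d + 0 * r)] {R : Type*} [CommRing R] (D : WData E d R)

/-- the Kirillov model of `GL₂` by linear endomorphisms -/
def kirE : GL (Fin 2) Z →* Module.End R (Zˣ → R) :=
  (Matrix.toLinAlgEquiv' : Matrix Zˣ Zˣ R ≃ₐ[R] _).toMulEquiv.toMonoidHom.comp D.kir

theorem kirE_apply (g : GL (Fin 2) Z) (φ : Zˣ → R) : kirE D g φ = (D.M g.1).mulVec φ := rfl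

end kirE

theorem ofGL_kirE {f : ℕ} [NeZero f] {ι : Type*} [Fintype ι] [DecidableEq ι] {k : ι → Type*}
    [∀ i, Field (k i)] [∀ i, Fintype (k i)] [∀ i, DecidableEq (k i)]
    {E : ZMod f ≃+* ((i : ι) → k i)} {d : ZMod f}
    [∀ i, Fact (∀ r : k i, r ^ 2 ≠ pr E i d + 0 * r)] (D : WData E d ℂ) (γ : SL(2, ℤ)) :
    ofGL f (kirE D) (γ : M2) = kirSL D (redSL f γ) := by
  have h : IsUnit (redM f (γ : M2)).det := by
    rw [det_redM, γ.2, Int.cast_one]; exact isUnit_one
  rw [ofGL_of_isUnit _ h]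
  rfl

section weightOne

variable {W : Type*} [NormedAddCommGroup W] [NormedSpace ℂ W] [FiniteDimensional ℂ W]
  {M f : ℕ} [NeZero M] [NeZero f]

/-- components are holomorphic -/
def HolW (F : ℍ → W) : Prop := ∀ φ : W →ₗ[ℂ] ℂ, MDiff fun z => φ (F z)

variable {ρ : SL(2, ZMod f) →* (W →ₗ[ℂ] W)} {F : ℍ → W} {θ : ℍ → ℂ}

theorem law_mul (hθ : ∀ g : SL(2, ℤ), (8 * M : ℤ) ∣ g 1 0 →
      g ∈ lawGroup M 1 (1 : SL(2, ZMod 1) →* (ℂ →ₗ[ℂ] ℂ)) θ)
    (hF : ∀ g : SL(2, ℤ), (8 * M : ℤ) ∣ g 1 0 → g ∈ lawGroup M f ρ F)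
    (g : SL(2, ℤ)) (h8 : (8 * M : ℤ) ∣ g 1 0) (z : ℍ) :
    θ (g • z) • F (g • z) = jf g z ^ 2 • ρ (redSL f g) (θ z • F z) := by
  have h1 := (hθ g h8).2 z
  have h2 := (hF g h8).2 z
  have h3 : θ (g • z) = ((chi M (g 1 1) : ℂ) * jf g z) * θ z := h1
  rw [h3, h2, smul_smul, map_smul, smul_smul]
  congr 1
  have h4 : (chi M (g 1 1) : ℂ) * chi M (g 1 1) = 1 := by
    have hd := det_eq g
    have h5 : (8 * M : ℤ) ∣ g 1 1 * g 0 0 - 1 := h8.trans ⟨g 0 1, by linarith⟩
    exact_mod_cast congrArg (fun n : ℤ => (n : ℂ)) (chi_sq h5)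
  linear_combination (jf g z) ^ 2 * θ z * h4

omit [FiniteDimensional ℂ W] in
theorem limAt_mul {g : SL(2, ℤ)} {c : ℂ} {w : W} (hθ : LimAt θ g c) (hF : LimAt F g w) :
    Tendsto (fun z : ℍ => (jf g z ^ 2)⁻¹ • (θ (g • z) • F (g • z))) atImInfty (𝓝 (c • w)) := by
  have h := Tendsto.smul hθ hF
  refine h.congr fun z => ?_
  rw [smul_eq_mul, smul_smul, smul_smul]
  congr 1
  rw [sq, mul_inv]
  ring

end weightOne

section form

variable {M f : ℕ} [NeZero M] [NeZero f]
variable {ι : Type*} [Fintype ι] [DecidableEq ι] {k : ι → Type*} [∀ i, Field (k i)]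
  [∀ i, Fintype (k i)] [∀ i, DecidableEq (k i)]
  {E : ZMod f ≃+* ((i : ι) → k i)} {d : ZMod f}
  [∀ i, Fact (∀ r : k i, r ^ 2 ≠ pr E i d + 0 * r)] (D : WData E d ℂ)

theorem slash_two (h : ℍ → ℂ) (g : SL(2, ℤ)) (z : ℍ) :
    (h ∣[(2 : ℤ)] (Matrix.SpecialLinearGroup.mapGL ℝ g : GL (Fin 2) ℝ)) z =
      (jf g z ^ 2)⁻¹ * h (g • z) := by
  have h1 := ModularForm.SL_slash_apply (k := 2) h g z
  rw [jf_eq_denom]
  rw [ModularForm.SL_slash] at h1
  refine h1.trans ?_
  rw [mul_comm, _root_.zpow_neg]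
  rfl

/-- the product of a scalar and a vector valued form of weight one -/
theorem mem_vForms_of (hΨ : ∀ x : ZMod f, D.Ψ x = ZMod.stdAddChar x) (hf1 : 1 < f)
    (hf : Nat.Coprime f (8 * M)) {θ : ℍ → ℂ} {F : ℍ → ((ZMod f)ˣ → ℂ)}
    (hθ : ∀ g : SL(2, ℤ), (8 * M : ℤ) ∣ g 1 0 →
      g ∈ lawGroup M 1 (1 : SL(2, ZMod 1) →* (ℂ →ₗ[ℂ] ℂ)) θ)
    (hF : ∀ g : SL(2, ℤ), (8 * M : ℤ) ∣ g 1 0 → g ∈ lawGroup M f (kirSL D) F)
    (hθl : ∀ g : SL(2, ℤ), 0 < g 1 0 → ∃ c, LimAt θ g c)
    (hFl : ∀ g : SL(2, ℤ), 0 < g 1 0 → ∃ c, LimAt F g c)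
    (hθh : MDiff θ) (hFh : ∀ t, MDiff fun z => F z t) :
    (fun z => θ z • F z) ∈ vForms (8 * M) (ofGL f (kirE D)) 2 := by
  rw [mem_vForms_iff]
  refine ⟨fun γ z => ?_, fun φ g => ?_⟩
  · have h8 : (8 * M : ℤ) ∣ (γ : SL(2, ℤ)) 1 0 := by
      have := (CongruenceSubgroup.Gamma0_mem).mp γ.2
      have h2 := (ZMod.intCast_zmod_eq_zero_iff_dvd _ _).mp this
      push_cast at h2
      exact h2
    have h1 := law_mul hθ hF (γ : SL(2, ℤ)) h8 z
    have h2 : ofGL f (kirE D) (gm γ) = kirSL D (redSL f (γ : SL(2, ℤ))) := ofGL_kirE D _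
    rw [h2]
    exact h1
  · -- cuspidality
    have hhol : MDiff fun z => φ (θ z • F z) := by
      have h1 : (fun z => φ (θ z • F z)) = fun z => θ z * ∑ t, F z t * φ (Pi.single t 1) := by
        funext z
        rw [map_smul, smul_eq_mul]
        congr 1
        conv_lhs => rw [pi_eq_sum_univ' (F z)]
        rw [map_sum]
        refine Finset.sum_congr rfl fun t _ => ?_
        rw [map_smul, smul_eq_mul]
      rw [h1]
      refine MDifferentiable.mul hθh ?_
      have h2 : ∀ s : Finset (ZMod f)ˣ, MDiff fun z => ∑ t ∈ s, F z t * φ (Pi.single t 1) := by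
        classical
        intro s
        induction s using Finset.induction_on with
        | empty => simp only [Finset.sum_empty]; exact mdifferentiable_const
        | insert a s ha ih =>
          simp only [Finset.sum_insert ha]
          exact ((hFh a).mul mdifferentiable_const).add ih
      exact h2 Finset.univ
    refine ⟨MDifferentiable.slash hhol 2 _, ?_, ?_⟩
    · -- period
      refine ⟨8 * M * f, ?_, ?_⟩
      · have := NeZero.pos M
        have := NeZero.pos f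
        positivity
      apply periodic_comp_ofComplex_of
      intro τ hw
      rw [slash_two, slash_two]
      set n : ℤ := 8 * M * f with hn
      have hτ : (⟨(τ : ℂ) + ((8 * M * f : ℕ) : ℝ), hw⟩ : ℍ) = Tn n • τ := by
        apply UpperHalfPlane.ext
        rw [coe_Tn, hn]
        show (τ : ℂ) + ((8 * M * f : ℕ) : ℝ) = _
        push_cast
        ring
      rw [hτ]
      have hγ : (8 * M : ℤ) ∣ (g * Tn n * g⁻¹) 1 0 := by
        rw [(conj_Tn g n).1, hn]
        exact ((dvd_mul_right _ _).mul_right _).neg_right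
      have h1 := law_mul hθ hF (g * Tn n * g⁻¹) hγ (g • τ)
      have h2 : redSL f (g * Tn n * g⁻¹) = 1 := by
        have h3 : redSL f (Tn n) = 1 := by
          apply Subtype.ext
          ext i j
          fin_cases i <;> fin_cases j
          · show ((1 : ℤ) : ZMod f) = 1
            simp
          · show ((n : ℤ) : ZMod f) = 0
            rw [hn]; push_cast; rw [ZMod.natCast_self, mul_zero]
          · show ((0 : ℤ) : ZMod f) = 0
            simp
          · show ((1 : ℤ) : ZMod f) = 1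
            simp
        rw [map_mul, map_mul, h3, mul_one, ← map_mul, mul_inv_cancel, map_one]
      rw [h2, map_one] at h1
      have h3 : (g * Tn n * g⁻¹) • g • τ = g • Tn n • τ := by
        rw [mul_smul, inv_smul_smul, mul_smul]
      rw [h3] at h1
      have h4 : jf (g * Tn n * g⁻¹) (g • τ) * jf g τ = jf g (Tn n • τ) := by
        rw [← jf_mul, inv_mul_cancel_right, jf_mul, jf_Tn, mul_one]
      show (jf g (Tn n • τ) ^ 2)⁻¹ * φ (θ (g • Tn n • τ) • F (g • Tn n • τ)) =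
        (jf g τ ^ 2)⁻¹ * φ (θ (g • τ) • F (g • τ))
      rw [h1, ← h4, map_smul, smul_eq_mul, Module.End.one_apply]
      have h5 := jf_ne_zero (g * Tn n * g⁻¹) (g • τ)
      have h6 := jf_ne_zero g τ
      field_simp
    · -- vanishing
      obtain ⟨c, hc⟩ := exists_LimAt hθ hθl g
      obtain ⟨w, hw⟩ := exists_LimAt hF hFl g
      have hw0 := LimAt_eq_zero D hΨ hf1 hf hF hw
      subst hw0
      have h1 := limAt_mul hc hw
      rw [smul_zero] at h1
      have h2 : Tendsto (fun z : ℍ => φ ((jf g z ^ 2)⁻¹ • (θ (g • z) • F (g • z)))) atImInfty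
          (𝓝 (φ 0)) := (φ.continuous_of_finiteDimensional.tendsto 0).comp h1
      rw [map_zero] at h2
      refine h2.congr fun z => ?_
      rw [slash_two, map_smul, smul_eq_mul]

end form

end Fermat.Agent.H18T
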