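import Fermat.Agent.H18T.Level

set_option autoImplicit false
set_option linter.all false

/-!
# Evaluation of the Gauss sums of binary forms

-/

noncomputable section

open Complex Real Filter Topology
open scoped NumberTheorySymbols

namespace Fermat.Agent.H18T

/-! ### the Gauss sum modulo a prime -/

section prime

theorem psum_zmod {k : ℕ} [NeZero k] {F : ℤ × ℤ → ℂ} {G : ZMod k × ZMod k → ℂ}
    (h : ∀ p : ℤ × ℤ, F p = G ((p.1 : ZMod k), (p.2 : ZMod k))) :
    psum k F = ∑ s, G s := by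
  let ι : Fin k × Fin k → ZMod k × ZMod k := fun s => (((s.1 : ℕ) : ZMod k), ((s.2 : ℕ) : ZMod k))
  have hinj : Function.Injective fun x : Fin k => ((x : ℕ) : ZMod k) := by
    intro x y hxy
    have h1 := (ZMod.natCast_eq_natCast_iff' _ _ _).mp hxy
    rw [Nat.mod_eq_of_lt x.2, Nat.mod_eq_of_lt y.2] at h1
    exact Fin.ext h1
  have hbij : Function.Bijective ι := by
    rw [Fintype.bijective_iff_injective_and_card]
    constructor
    · intro s t hst
      exact Prod.ext (hinj (congrArg Prod.fst hst)) (hinj (congrArg Prod.snd hst))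
    · simp [ZMod.card]
  rw [← hbij.sum_comp G, psum]
  refine Finset.sum_congr rfl fun s _ => ?_
  rw [h]
  simp [ι]

theorem ex_zmod {k : ℕ} [NeZero k] (x : ℤ) : ex ((x : ℂ) / k) = ZMod.stdAddChar (x : ZMod k) := by
  rw [ZMod.stdAddChar_coe, ex]
  congr 1
  ring

variable {p : ℕ} [Fact p.Prime]

/-- the quadratic character with complex values -/
def qchi (p : ℕ) [Fact p.Prime] : MulChar (ZMod p) ℂ :=
  (quadraticChar (ZMod p)).ringHomComp (Int.castRingHom ℂ)

theorem qchi_apply (x : ZMod p) : qchi p x = ((quadraticChar (ZMod p) x : ℤ) : ℂ) := rfl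

theorem sum_sq (hp : p ≠ 2) {β : ZMod p} (hβ : β ≠ 0) :
    ∑ u : ZMod p, (ZMod.stdAddChar (β * u ^ 2) : ℂ) =
      qchi p β * gaussSum (qchi p) (ZMod.stdAddChar (N := p)) := by
  classical
  have hp' : ringChar (ZMod p) ≠ 2 := by rwa [ZMod.ringChar_zmod_n]
  have h1 : ∑ u : ZMod p, (ZMod.stdAddChar (β * u ^ 2) : ℂ) =
      ∑ t : ZMod p, (1 + qchi p t) * ZMod.stdAddChar (β * t) := by
    have h2 : ∀ t : ZMod p, (1 + qchi p t) * (ZMod.stdAddChar (β * t) : ℂ) =
        ∑ u ∈ Finset.univ.filter (fun u : ZMod p => u ^ 2 = t),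
          (ZMod.stdAddChar (β * u ^ 2) : ℂ) := by
      intro t
      have h3 := quadraticChar_card_sqrts hp' t
      have h4 : (({x : ZMod p | x ^ 2 = t} : Set (ZMod p)).toFinset) =
          Finset.univ.filter (fun u : ZMod p => u ^ 2 = t) := by
        ext x; simp
      rw [h4] at h3
      have h5 : ∀ u ∈ Finset.univ.filter (fun u : ZMod p => u ^ 2 = t),
          (ZMod.stdAddChar (β * u ^ 2) : ℂ) = ZMod.stdAddChar (β * t) := by
        intro u hu
        rw [(Finset.mem_filter.mp hu).2]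
      rw [Finset.sum_congr rfl h5, Finset.sum_const, nsmul_eq_mul, qchi_apply]
      congr 1
      have : (((Finset.univ.filter (fun u : ZMod p => u ^ 2 = t)).card : ℤ) : ℂ) =
        ((quadraticChar (ZMod p) t + 1 : ℤ) : ℂ) := by rw [h3]
      push_cast at this
      rw [this]; ring
    simp only [h2]
    rw [← Finset.sum_fiberwise (s := Finset.univ) (g := fun u : ZMod p => u ^ 2)]
  have h6 : ∑ t : ZMod p, (ZMod.stdAddChar (β * t) : ℂ) = 0 := by
    have := AddChar.sum_mulShift β (ZMod.isPrimitive_stdAddChar p)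
    rw [if_neg hβ, Nat.cast_zero] at this
    rw [← this]
    refine Finset.sum_congr rfl fun t _ => ?_
    rw [mul_comm]
  have h7 : ∑ t : ZMod p, qchi p t * (ZMod.stdAddChar (β * t) : ℂ) =
      gaussSum (qchi p) ((ZMod.stdAddChar (N := p)).mulShift β) := by
    rw [gaussSum]
    refine Finset.sum_congr rfl fun t _ => ?_
    rw [AddChar.mulShift_apply]
  have h8 := gaussSum_mulShift (qchi p) (ZMod.stdAddChar (N := p)) (Units.mk0 β hβ)
  rw [Units.val_mk0] at h8
  have h9 : qchi p β * qchi p β = 1 := by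
    rw [qchi_apply, ← Int.cast_mul, ← sq, quadraticChar_sq_one hβ, Int.cast_one]
  rw [h1]
  simp only [add_mul, one_mul, Finset.sum_add_distrib]
  rw [h6, h7, zero_add, ← h8, ← mul_assoc, h9, one_mul]

theorem Gs_prime {A B C b : ℤ} (hp : p ≠ 2) (hA : ¬ (p : ℤ) ∣ A) (hD : ¬ (p : ℤ) ∣ dsc A B C)
    (hb : ¬ (p : ℤ) ∣ b) :
    Gs A B C b p = p * ((legendreSym p (-dsc A B C) : ℤ) : ℂ) := by
  have hp' : ringChar (ZMod p) ≠ 2 := by rwa [ZMod.ringChar_zmod_n]
  have hA' : (A : ZMod p) ≠ 0 := by rwa [Ne, ZMod.intCast_zmod_eq_zero_iff_dvd]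
  have hb' : (b : ZMod p) ≠ 0 := by rwa [Ne, ZMod.intCast_zmod_eq_zero_iff_dvd]
  have hD' : ((dsc A B C : ℤ) : ZMod p) ≠ 0 := by rwa [Ne, ZMod.intCast_zmod_eq_zero_iff_dvd]
  have h2' : (2 : ZMod p) ≠ 0 := Ring.two_ne_zero hp'
  set β : ZMod p := (b : ZMod p) * (4 * (A : ZMod p))⁻¹ with hβ
  have h4' : (4 : ZMod p) ≠ 0 := by
    have : (4 : ZMod p) = 2 * 2 := by norm_num
    rw [this]
    exact mul_ne_zero h2' h2'
  have h4A : (4 * (A : ZMod p)) ≠ 0 := mul_ne_zero h4' hA'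
  have hβ0 : β ≠ 0 := mul_ne_zero hb' (inv_ne_zero h4A)
  have h1 : Gs A B C b p = ∑ s : ZMod p × ZMod p,
      (ZMod.stdAddChar (β * (2 * (A : ZMod p) * s.1 + (B : ZMod p) * s.2) ^ 2) : ℂ) *
        ZMod.stdAddChar (β * ((dsc A B C : ℤ) : ZMod p) * s.2 ^ 2) := by
    rw [Gs]
    apply psum_zmod
    intro s
    rw [ex_zmod, ← AddChar.map_add_eq_mul]
    congr 1
    rw [hβ, qz]
    push_cast
    field_simp
    ring
  rw [h1, Fintype.sum_prod_type_right]
  simp only
  have h2 : ∀ y : ZMod p, ∑ x : ZMod p, (ZMod.stdAddChar (β * (2 * (A : ZMod p) * x + (B : ZMod p) * y) ^ 2) : ℂ) *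
      ZMod.stdAddChar (β * ((dsc A B C : ℤ) : ZMod p) * y ^ 2) =
      (∑ u : ZMod p, (ZMod.stdAddChar (β * u ^ 2) : ℂ)) *
        ZMod.stdAddChar (β * ((dsc A B C : ℤ) : ZMod p) * y ^ 2) := by
    intro y
    rw [← Finset.sum_mul]
    congr 1
    have h2A : (2 * (A : ZMod p)) ≠ 0 := mul_ne_zero h2' hA'
    have hbij : Function.Bijective fun x : ZMod p => 2 * (A : ZMod p) * x + B * y := by
      rw [← Finite.injective_iff_bijective]
      intro x x' hxx
      exact mul_left_cancel₀ h2A (add_right_cancel hxx)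
    exact hbij.sum_comp (fun u => (ZMod.stdAddChar (β * u ^ 2) : ℂ))
  simp only [h2]
  rw [← Finset.mul_sum, sum_sq hp hβ0, sum_sq hp (mul_ne_zero hβ0 hD')]
  have hquad : (qchi p).IsQuadratic := (quadraticChar_isQuadratic (ZMod p)).comp _
  have hne : qchi p ≠ 1 := by
    intro h
    obtain ⟨a, ha⟩ := quadraticChar_exists_neg_one hp'
    have h3 : qchi p a = -1 := by rw [qchi_apply, ha]; norm_num
    have ha0 : a ≠ 0 := by
      rintro rfl
      rw [MulChar.map_zero] at ha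
      norm_num at ha
    rw [h, MulChar.one_apply (Ne.isUnit ha0)] at h3
    norm_num at h3
  have h4 := gaussSum_sq hne hquad (ZMod.isPrimitive_stdAddChar p)
  have h9 : qchi p β * qchi p β = 1 := by
    rw [qchi_apply, ← Int.cast_mul, ← sq, quadraticChar_sq_one hβ0, Int.cast_one]
  rw [ZMod.card] at h4
  have h5 : ((legendreSym p (-dsc A B C) : ℤ) : ℂ) = qchi p (-1) *
      qchi p ((dsc A B C : ℤ) : ZMod p) := by
    rw [← map_mul, legendreSym, qchi_apply]
    congr 2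
    push_cast
    ring
  rw [h5, map_mul (qchi p) β]
  calc _ = (qchi p β * qchi p β) * qchi p ((dsc A B C : ℤ) : ZMod p) *
      gaussSum (qchi p) (ZMod.stdAddChar (N := p)) ^ 2 := by ring
    _ = _ := by rw [h9, h4]; ring

end prime

/-! ### comparison of two Gauss sums -/

variable {A B C : ℤ}

theorem gsum_one_zero (a : ℤ) (k : ℕ) : gsum A B C 1 a k 0 0 = Gs A B C a k := by
  rw [gsum_eq_psum, Gs]
  refine psum_congr fun s => ?_
  congr 1
  simp

theorem tendsto_thz_one (hA : 0 < A) (hD : 0 < dsc A B C) :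
    Tendsto (thz A B C 1 0) imTop (𝓝 1) := by
  have h := tendsto_TS (ψ := fun _ => 1) (K := 1) (r := 1) hA hD (by simp) one_pos
  refine h.congr fun z => ?_
  rw [TS, thz]
  refine tsum_congr fun m => ?_
  simp

theorem Gs_recip (hA : 0 < A) (hD : 0 < dsc A B C) {a b : ℤ} {k d : ℕ} [NeZero k] [NeZero d]
    (hdvd : dsc A B C ∣ (k : ℤ)) (hdet : a * d - b * k = 1) :
    -I * Gs A B C a k / (k * (√((dsc A B C : ℤ) : ℝ) : ℝ)) = Gs A B C b d / d := by
  have hdc : (d : ℂ) ≠ 0 := by exact_mod_cast NeZero.ne d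
  have hkc : (k : ℂ) ≠ 0 := by exact_mod_cast NeZero.ne k
  have hs0 : ((√((dsc A B C : ℤ) : ℝ) : ℝ) : ℂ) ≠ 0 := by
    have : (0 : ℝ) < (dsc A B C : ℤ) := by exact_mod_cast hD
    exact_mod_cast (Real.sqrt_pos.mpr this).ne'
  -- first limit
  have l1 := tendsto_thz_smul (f := 1) (k := d) (a := b) (b := -a) (d := -k) hA hD
    (by linarith) 0
  rw [gsum_one_zero] at l1
  have l2 := tendsto_thz_smul (f := 1) (k := 1) (a := 0) (b := -1) (d := 0) hA hD (by norm_num) 0
  have hG1 : gsum A B C 1 0 1 0 0 = 1 := by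
    rw [gsum_one_zero, Gs, psum]
    simp [ex_zero]
  rw [hG1] at l2
  set κ : ℂ := -I * Gs A B C a k / (k * (√((dsc A B C : ℤ) : ℝ) : ℝ)) with hκ
  have l3 := l2.const_mul κ
  have heq : ∀ᶠ z : ℂ in imTop, κ * ((((1 : ℕ) : ℂ) * z + ((0 : ℤ) : ℂ))⁻¹ *
      thz A B C 1 0 ((((0 : ℤ) : ℂ) * z + ((-1 : ℤ) : ℂ)) / (((1 : ℕ) : ℂ) * z + ((0 : ℤ) : ℂ)))) =
      ((d : ℂ) * z + ((-k : ℤ) : ℂ))⁻¹ * thz A B C 1 0 ((b * z + ((-a : ℤ) : ℂ)) /
        (d * z + ((-k : ℤ) : ℂ))) := by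
    filter_upwards [eventually_imTop 1] with z hz
    have hz0 : 0 < z.im := by linarith
    have hzne : z ≠ 0 := fun h => by rw [h, Complex.zero_im] at hz0; exact lt_irrefl _ hz0
    have hw : ((d : ℂ) * z - k) ≠ 0 := by
      intro h
      have : ((d : ℂ) * z - k).im = d * z.im := by simp
      rw [h, Complex.zero_im] at this
      have h2 : (0 : ℝ) < d * z.im := by
        have : (0 : ℝ) < d := by exact_mod_cast NeZero.pos d
        positivity
      rw [← this] at h2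
      exact lt_irrefl _ h2
    have him : 0 < (-1 / z).im := by
      have := im_neg_inv hz0 one_pos
      rwa [Complex.ofReal_one, one_mul] at this
    have h1 := thz_level (f := 1) (kb := 0) (fb := 1) (a := a) (b := b) (d := d) (k := k)
      hA hD hdvd hdet (by norm_num) 0 him
    rw [one_mul] at h1
    have h2 : ∑ y : Fin 1 × Fin 1,
        ex ((0 * (a * qz A B C (0 : ℤ × ℤ).1 (0 : ℤ × ℤ).2 -
          bz A B C 0 (((y.1 : ℕ) : ℤ), ((y.2 : ℕ) : ℤ)) +
          d * qz A B C ((y.1 : ℕ) : ℤ) ((y.2 : ℕ) : ℤ)) : ℤ) / ((1 : ℕ) : ℂ)) *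
        thz A B C 1 (((y.1 : ℕ) : ℤ), ((y.2 : ℕ) : ℤ)) (-1 / z) = thz A B C 1 0 (-1 / z) := by
      rw [Fintype.sum_prod_type, Fin.sum_univ_one, Fin.sum_univ_one]
      simp [ex_zero]
      rfl
    rw [h2, ← hκ] at h1
    have h3 : (b * z + ((-a : ℤ) : ℂ)) / (d * z + ((-k : ℤ) : ℂ)) =
        ((a : ℂ) * (-1 / z) + b) / (k * (-1 / z) + (d : ℤ)) := by
      have h4 : (k : ℂ) * (-1 / z) + (d : ℤ) = (d * z - k) / z := by
        field_simp; push_cast; ring
      rw [h4]
      push_cast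
      have h5 : (d : ℂ) * z + -k ≠ 0 := by rwa [← sub_eq_add_neg]
      field_simp
      ring
    rw [h3, h1]
    have h6 : (((0 : ℤ) : ℂ) * z + ((-1 : ℤ) : ℂ)) / (((1 : ℕ) : ℂ) * z + ((0 : ℤ) : ℂ)) = -1 / z := by
      push_cast; simp
    rw [h6]
    generalize thz A B C 1 0 (-1 / z) = T
    have e7 : ((d : ℂ) * z + ((-k : ℤ) : ℂ)) = d * z - k := by push_cast; ring
    have e8 : (k : ℂ) * (-1 / z) + (d : ℤ) = (d * z - k) / z := by
      field_simp; push_cast; ring
    rw [e7, e8]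
    have e9 : ((1 : ℕ) : ℂ) * z + ((0 : ℤ) : ℂ) = z := by push_cast; ring
    rw [e9, Nat.cast_one]
    generalize (d : ℂ) * z - k = w at hw ⊢
    field_simp
  have l4 := l3.congr' heq
  have hne : imTop.NeBot := by
    rw [imTop]
    apply Filter.NeBot.comap_of_surj atTop_neBot
    intro y
    exact ⟨⟨0, y⟩, rfl⟩
  have l5 := tendsto_nhds_unique l4 l1
  clear_value κ
  generalize ((√((dsc A B C : ℤ) : ℝ) : ℝ) : ℂ) = s at *
  have h7 : (-I : ℂ) ≠ 0 := neg_ne_zero.mpr Complex.I_ne_zero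
  rw [Nat.cast_one, one_mul, mul_one, one_mul, mul_one] at l5
  rw [eq_div_iff hdc]
  have h8 : κ * d = (κ * (-I / s)) * (d * s / (-I)) := by
    field_simp
  rw [h8, l5]
  field_simp

end Fermat.Agent.H18T
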