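import Fermat.Agent.H18T.Seq

set_option autoImplicit false
set_option linter.all false

/-!
# Hecke operators on sequences of coefficients

-/

noncomputable section

open Module Function Filter Topology UpperHalfPlane Complex
open Fermat.Agent.H29W Fermat.Agent.H24ES Fermat.Agent.H16
open scoped MatrixGroups Manifold

namespace Fermat.Agent.H18T

section vsl

variable {W : Type*} [AddCommGroup W] [Module ℂ W]

theorem coe_iGL_smul {A : M2} (hA : 0 < A.det) (z : ℍ) : ((iGL A • z : ℍ) : ℂ) =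
    (((A 0 0 : ℤ) : ℂ) * z + ((A 0 1 : ℤ) : ℂ)) / (((A 1 0 : ℤ) : ℂ) * z + ((A 1 1 : ℤ) : ℂ)) := by
  rw [UpperHalfPlane.coe_smul_of_det_pos (det_iGL_pos hA)]
  have hc : ∀ i j, ((iGL A) i j : ℝ) = ((A i j : ℤ) : ℝ) := by
    intro i j
    have := congrFun (congrFun (coe_iGL hA) i) j
    exact this
  rw [num, denom, hc, hc, hc, hc]
  simp

theorem vslash_upper (k : ℤ) {A : M2} (hA : 0 < A.det) (h10 : A 1 0 = 0) (F : ℍ → W) (z : ℍ) :
    vslash k A F z = (((A.det : ℤ) : ℂ) ^ (k - 1) * ((A 1 1 : ℤ) : ℂ) ^ (-k)) • F (iGL A • z) := by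
  rw [vslash]
  have h1 : |(iGL A).det.val| = ((A.det : ℤ) : ℝ) := by
    rw [det_iGL hA, abs_of_pos (by exact_mod_cast hA)]
  have hc : ∀ i j, ((iGL A) i j : ℝ) = ((A i j : ℤ) : ℝ) := by
    intro i j
    have := congrFun (congrFun (coe_iGL hA) i) j
    exact this
  have h2 : denom (iGL A) z = ((A 1 1 : ℤ) : ℂ) := by
    rw [denom, hc, hc, h10]
    simp
  rw [h1, h2, Complex.ofReal_intCast]

end vsl

section seq

variable {f : ℕ} [NeZero f] {ℓ : ℕ}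

theorem sum_root (hℓ : 0 < ℓ) (m : ℤ) :
    ∑ j : Fin ℓ, ex ((((j : ℕ) : ℤ) * m : ℤ) / ℓ) = if (ℓ : ℤ) ∣ m then (ℓ : ℂ) else 0 := by
  haveI : NeZero ℓ := ⟨hℓ.ne'⟩
  have hℓc : (ℓ : ℂ) ≠ 0 := by exact_mod_cast hℓ.ne'
  split_ifs with h
  · obtain ⟨x, rfl⟩ := h
    have : ∀ j : Fin ℓ, ex ((((j : ℕ) : ℤ) * (ℓ * x) : ℤ) / ℓ) = 1 := by
      intro j
      rw [ex_eq_one_iff]
      refine ⟨(j : ℕ) * x, ?_⟩
      push_cast
      field_simp
    simp only [this]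
    simp
  · set w := ex ((m : ℂ) / ℓ) with hw
    have h1 : ∀ j : Fin ℓ, ex ((((j : ℕ) : ℤ) * m : ℤ) / ℓ) = w ^ (j : ℕ) := by
      intro j
      rw [hw, ex, ex, ← Complex.exp_nat_mul]
      congr 1
      push_cast
      ring
    simp only [h1]
    rw [Fin.sum_univ_eq_sum_range (fun i => w ^ i) ℓ]
    have hw1 : w ≠ 1 := by
      intro hw1
      rw [hw, ex_eq_one_iff] at hw1
      obtain ⟨n, hn⟩ := hw1
      apply h
      refine ⟨n, ?_⟩
      rw [div_eq_iff hℓc] at hn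
      have : (m : ℂ) = ((ℓ * n : ℤ) : ℂ) := by rw [hn]; push_cast; ring
      exact_mod_cast this
    have hwl : w ^ ℓ = 1 := by
      have e : w ^ ℓ = ex m := by
        rw [hw, ex, ex, ← Complex.exp_nat_mul]
        congr 1
        field_simp
      rw [e, ex_int]
    have h2 := geom_sum_mul w ℓ
    rw [hwl, sub_self] at h2
    rcases mul_eq_zero.mp h2 with h3 | h3
    · exact h3
    · exact absurd (sub_eq_zero.mp h3) hw1

variable {r : GL (Fin 2) (ZMod f) →* Module.End ℂ ((ZMod f)ˣ → ℂ)} (hr : UpT r) {k : ℤ}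

include hr

/-- one term of `U_ℓ` -/
theorem term_up (hℓ : 0 < ℓ) (hℓf : Nat.Coprime ℓ f) (F : ℍ → ((ZMod f)ˣ → ℂ)) (j : ℤ) (z : ℍ)
    (s : (ZMod f)ˣ) :
    ofGL f r (upM ℓ j).adjugate (vslash k (upM ℓ j) F z) s =
      ZMod.stdAddChar (-(j : ZMod f) * (s : ZMod f)) * ((ℓ : ℂ)⁻¹ *
        F (iGL (upM ℓ j) • z) (ZMod.unitOfCoprime ℓ hℓf * s)) := by
  have hℓc : (ℓ : ℂ) ≠ 0 := by exact_mod_cast hℓ.ne'
  have hdet : 0 < (upM ℓ j).det := by rw [det_upM]; exact_mod_cast hℓ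
  rw [vslash_upper k hdet rfl]
  have h10 : (upM ℓ j).adjugate 1 0 = 0 := by rw [adj_upM]; rfl
  have h00 : (((upM ℓ j).adjugate 0 0 : ℤ) : ZMod f) = (ZMod.unitOfCoprime ℓ hℓf : ZMod f) := by
    rw [adj_upM, ZMod.coe_unitOfCoprime]
    show ((ℓ : ℤ) : ZMod f) = _
    push_cast; rfl
  have h11 : (((upM ℓ j).adjugate 1 1 : ℤ) : ZMod f) = ((1 : (ZMod f)ˣ) : ZMod f) := by
    rw [adj_upM]
    show ((1 : ℤ) : ZMod f) = _
    push_cast; rfl
  have h01 : (((upM ℓ j).adjugate 0 1 : ℤ) : ZMod f) = -(j : ZMod f) := by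
    rw [adj_upM]
    show ((-j : ℤ) : ZMod f) = _
    push_cast; rfl
  rw [hr.up _ h10 _ _ h00 h11, h01, inv_one, Units.val_one, mul_one, mul_one, Pi.smul_apply,
    smul_eq_mul, det_upM]
  congr 2
  show ((ℓ : ℤ) : ℂ) ^ (k - 1) * ((ℓ : ℤ) : ℂ) ^ (-k) = (ℓ : ℂ)⁻¹
  rw [Int.cast_natCast, ← zpow_add₀ hℓc, ← zpow_neg_one]
  congr 1
  ring

/-- the term at infinity of `T_ℓ` -/
theorem term_di (hℓ : 0 < ℓ) (hℓf : Nat.Coprime ℓ f) (F : ℍ → ((ZMod f)ˣ → ℂ)) (z : ℍ)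
    (s : (ZMod f)ˣ) :
    ofGL f r (diM ℓ).adjugate (vslash k (diM ℓ) F z) s =
      (ℓ : ℂ) ^ (k - 1) * F (iGL (diM ℓ) • z) ((ZMod.unitOfCoprime ℓ hℓf)⁻¹ * s) := by
  have hℓc : (ℓ : ℂ) ≠ 0 := by exact_mod_cast hℓ.ne'
  have hdet : 0 < (diM ℓ).det := by rw [det_diM]; exact_mod_cast hℓ
  rw [vslash_upper k hdet rfl]
  have h10 : (diM ℓ).adjugate 1 0 = 0 := by rw [adj_diM]; rfl
  have h11 : (((diM ℓ).adjugate 1 1 : ℤ) : ZMod f) = (ZMod.unitOfCoprime ℓ hℓf : ZMod f) := by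
    rw [adj_diM, ZMod.coe_unitOfCoprime]
    show ((ℓ : ℤ) : ZMod f) = _
    push_cast; rfl
  have h00 : (((diM ℓ).adjugate 0 0 : ℤ) : ZMod f) = ((1 : (ZMod f)ˣ) : ZMod f) := by
    rw [adj_diM]
    show ((1 : ℤ) : ZMod f) = _
    push_cast; rfl
  have h01 : (((diM ℓ).adjugate 0 1 : ℤ) : ZMod f) = 0 := by
    rw [adj_diM]
    show ((0 : ℤ) : ZMod f) = _
    push_cast; rfl
  rw [hr.up _ h10 _ _ h00 h11, h01, zero_mul, zero_mul, AddChar.map_zero_eq_one, one_mul, one_mul,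
    Pi.smul_apply, smul_eq_mul, det_diM]
  congr 1
  show ((ℓ : ℤ) : ℂ) ^ (k - 1) * ((1 : ℤ) : ℂ) ^ (-k) = _
  rw [Int.cast_natCast, Int.cast_one, one_zpow, mul_one]

theorem U_seq (hℓ : 0 < ℓ) (hℓf : Nat.Coprime ℓ f) {F : ℍ → ((ZMod f)ˣ → ℂ)} {a : ℕ → ℂ}
    (ha : HasSeq F a) :
    HasSeq (fun z => ∑ j : Fin ℓ, ofGL f r (upM ℓ (j : ℕ)).adjugate
      (vslash k (upM ℓ (j : ℕ)) F z)) (fun n => a (ℓ * n)) := by
  intro z s
  haveI : NeZero ℓ := ⟨hℓ.ne'⟩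
  have hℓc : (ℓ : ℂ) ≠ 0 := by exact_mod_cast hℓ.ne'
  have hfc : (f : ℂ) ≠ 0 := by exact_mod_cast NeZero.ne f
  set u := ZMod.unitOfCoprime ℓ hℓf with hu
  have huv : (u : ZMod f) = (ℓ : ZMod f) := ZMod.coe_unitOfCoprime ℓ hℓf
  -- the sum of all terms
  have h1 : ∀ j : Fin ℓ, HasSum (fun n : ℕ => if (n : ZMod f) = ((u * s : (ZMod f)ˣ) : ZMod f) then
      a n * ex (n * z / (ℓ * f)) * ((ℓ : ℂ)⁻¹ *
        (ZMod.stdAddChar (-((j : ℕ) : ZMod f) * (s : ZMod f)) * ex (n * (j : ℕ) / (ℓ * f)))) else 0)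
      (ofGL f r (upM ℓ (j : ℕ)).adjugate (vslash k (upM ℓ (j : ℕ)) F z) s) := by
    intro j
    rw [term_up hr hℓ hℓf, Int.cast_natCast]
    refine (((ha _ (u * s)).mul_left (ℓ : ℂ)⁻¹).mul_left _).congr_fun fun n => ?_
    have hz' : ((iGL (upM ℓ ((j : ℕ) : ℤ)) • z : ℍ) : ℂ) = (z + (j : ℕ)) / ℓ := by
      rw [coe_iGL_smul (by rw [det_upM]; exact_mod_cast hℓ)]
      show (((1 : ℤ) : ℂ) * z + (((j : ℕ) : ℤ) : ℂ)) / (((0 : ℤ) : ℂ) * z + ((ℓ : ℤ) : ℂ)) = _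
      push_cast
      rw [one_mul, zero_mul, zero_add]
    split_ifs
    · rw [hz']
      have h2 : ex (n * ((z + (j : ℕ)) / ℓ) / f) = ex (n * z / (ℓ * f)) * ex (n * (j : ℕ) / (ℓ * f)) := by
        rw [← ex_add]
        congr 1
        field_simp
      rw [h2]
      ring
    · simp
  have h2 := hasSum_sum (s := Finset.univ) fun j _ => h1 j
  have h3 : (∑ j : Fin ℓ, ofGL f r (upM ℓ (j : ℕ)).adjugate (vslash k (upM ℓ (j : ℕ)) F z)) s =
      ∑ j : Fin ℓ, ofGL f r (upM ℓ (j : ℕ)).adjugate (vslash k (upM ℓ (j : ℕ)) F z) s :=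
    Finset.sum_apply _ _ _
  show HasSum _ ((∑ j : Fin ℓ, ofGL f r (upM ℓ (j : ℕ)).adjugate
    (vslash k (upM ℓ (j : ℕ)) F z)) s)
  rw [h3]
  -- evaluation of the inner sums
  have h4 : (fun n : ℕ => ∑ j : Fin ℓ, if (n : ZMod f) = ((u * s : (ZMod f)ˣ) : ZMod f) then
      a n * ex (n * z / (ℓ * f)) * ((ℓ : ℂ)⁻¹ *
        (ZMod.stdAddChar (-((j : ℕ) : ZMod f) * (s : ZMod f)) * ex (n * (j : ℕ) / (ℓ * f)))) else 0) =
      fun n : ℕ => if (n : ZMod f) = ((u * s : (ZMod f)ˣ) : ZMod f) ∧ ℓ ∣ n then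
        a n * ex (n * z / (ℓ * f)) else 0 := by
    funext n
    by_cases hn : (n : ZMod f) = ((u * s : (ZMod f)ˣ) : ZMod f)
    · simp only [hn, if_true, true_and]
      obtain ⟨m, hm⟩ : ∃ m : ℤ, (n : ℤ) - ℓ * ((s : ZMod f).val : ℤ) = f * m := by
        have : ((f : ℤ)) ∣ (n : ℤ) - ℓ * ((s : ZMod f).val : ℤ) := by
          rw [← ZMod.intCast_zmod_eq_zero_iff_dvd]
          push_cast
          rw [hn, ZMod.natCast_zmod_val, Units.val_mul, huv, sub_self]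
        exact this
      have h5 : ∀ j : Fin ℓ, (ZMod.stdAddChar (-((j : ℕ) : ZMod f) * (s : ZMod f)) : ℂ) *
          ex (n * (j : ℕ) / (ℓ * f)) = ex ((((j : ℕ) : ℤ) * m : ℤ) / ℓ) := by
        intro j
        have h6 : (-((j : ℕ) : ZMod f) * (s : ZMod f)) =
            ((-((j : ℕ) * ((s : ZMod f).val : ℤ)) : ℤ) : ZMod f) := by
          push_cast
          rw [ZMod.natCast_zmod_val]
          ring
        rw [h6, ← ex_zmod, ← ex_add]
        congr 1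
        have hm' : (n : ℂ) - ℓ * ((s : ZMod f).val : ℂ) = f * m := by
          have := congrArg (fun x : ℤ => (x : ℂ)) hm
          push_cast at this
          exact this
        have hn' : (n : ℂ) = f * m + ℓ * ((s : ZMod f).val : ℂ) := by linear_combination hm'
        rw [hn']
        push_cast
        field_simp
        ring
      simp only [h5]
      rw [← Finset.mul_sum, ← Finset.mul_sum, sum_root hℓ]
      have h7 : (ℓ : ℤ) ∣ m ↔ ℓ ∣ n := by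
        have hcop : IsCoprime (ℓ : ℤ) (f : ℤ) := Nat.isCoprime_iff_coprime.mpr hℓf
        rw [← Int.natCast_dvd_natCast]
        have h8 : (n : ℤ) = f * m + ℓ * ((s : ZMod f).val : ℤ) := by linarith
        rw [h8]
        constructor
        · intro h; exact dvd_add (h.mul_left _) (dvd_mul_right _ _)
        · intro h
          have h9 : (ℓ : ℤ) ∣ f * m := by
            have := dvd_sub h (dvd_mul_right (ℓ : ℤ) ((s : ZMod f).val : ℤ))
            rwa [add_sub_cancel_right] at this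
          exact hcop.dvd_of_dvd_mul_left h9
      by_cases h10 : ℓ ∣ n
      · rw [if_pos (h7.mpr h10), if_pos h10, inv_mul_cancel₀ hℓc, mul_one]
      · rw [if_neg (fun h => h10 (h7.mp h)), if_neg h10, mul_zero, mul_zero]
    · simp only [hn, if_false, false_and, Finset.sum_const_zero]
  rw [h4] at h2
  -- reindexing
  have hinj : Injective fun n : ℕ => ℓ * n := fun x y h => Nat.eq_of_mul_eq_mul_left hℓ h
  have h5 := (hinj.hasSum_iff (f := fun n : ℕ => if (n : ZMod f) = ((u * s : (ZMod f)ˣ) : ZMod f) ∧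
    ℓ ∣ n then a n * ex (n * z / (ℓ * f)) else 0) (by
      intro n hn
      rw [if_neg]
      rintro ⟨-, x, rfl⟩
      exact hn ⟨x, rfl⟩)).mpr h2
  refine h5.congr_fun fun n => ?_
  show _ = if ((ℓ * n : ℕ) : ZMod f) = ((u * s : (ZMod f)ˣ) : ZMod f) ∧ ℓ ∣ ℓ * n then
    a (ℓ * n) * ex ((ℓ * n : ℕ) * z / (ℓ * f)) else 0
  have h6 : (((ℓ * n : ℕ) : ZMod f) = ((u * s : (ZMod f)ˣ) : ZMod f) ∧ ℓ ∣ ℓ * n) ↔
      (n : ZMod f) = s := by
    rw [Nat.cast_mul, Units.val_mul, huv]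
    constructor
    · rintro ⟨h, -⟩
      rw [← huv] at h
      exact u.isUnit.mul_left_cancel h
    · intro h
      exact ⟨by rw [h], dvd_mul_right _ _⟩
  by_cases h7 : (n : ZMod f) = s
  · rw [if_pos h7, if_pos (h6.mpr h7)]
    congr 2
    push_cast
    field_simp
  · rw [if_neg h7, if_neg (fun h => h7 (h6.mp h))]

theorem V_seq (hℓ : 0 < ℓ) (hℓf : Nat.Coprime ℓ f) {F : ℍ → ((ZMod f)ˣ → ℂ)} {a : ℕ → ℂ}
    (ha : HasSeq F a) :
    HasSeq (fun z => ofGL f r (diM ℓ).adjugate (vslash k (diM ℓ) F z))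
      (fun n => (ℓ : ℂ) ^ (k - 1) * if ℓ ∣ n then a (n / ℓ) else 0) := by
  intro z s
  have hℓc : (ℓ : ℂ) ≠ 0 := by exact_mod_cast hℓ.ne'
  have hfc : (f : ℂ) ≠ 0 := by exact_mod_cast NeZero.ne f
  set u := ZMod.unitOfCoprime ℓ hℓf with hu
  have huv : (u : ZMod f) = (ℓ : ZMod f) := ZMod.coe_unitOfCoprime ℓ hℓf
  have h0 : ofGL f r (diM ℓ).adjugate (vslash k (diM ℓ) F z) s =
      (ℓ : ℂ) ^ (k - 1) * F (iGL (diM ℓ) • z) (u⁻¹ * s) := term_di hr hℓ hℓf F z s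
  show HasSum _ (ofGL f r (diM ℓ).adjugate (vslash k (diM ℓ) F z) s)
  rw [h0]
  have h1 := (ha (iGL (diM ℓ) • z) (u⁻¹ * s)).mul_left ((ℓ : ℂ) ^ (k - 1))
  have hz' : ((iGL (diM ℓ) • z : ℍ) : ℂ) = ℓ * z := by
    rw [coe_iGL_smul (by rw [det_diM]; exact_mod_cast hℓ)]
    show (((ℓ : ℤ) : ℂ) * z + (((0 : ℤ)) : ℂ)) / (((0 : ℤ) : ℂ) * z + ((1 : ℤ) : ℂ)) = _
    push_cast
    rw [zero_mul, zero_add, div_one, add_zero]
  rw [hz'] at h1
  have hinj : Injective fun n : ℕ => ℓ * n := fun x y h => Nat.eq_of_mul_eq_mul_left hℓ h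
  refine (hinj.hasSum_iff (f := fun n : ℕ => if (n : ZMod f) = s then
    ((ℓ : ℂ) ^ (k - 1) * if ℓ ∣ n then a (n / ℓ) else 0) * ex (n * z / f) else 0) ?_).mp ?_
  · intro n hn
    have : ¬ ℓ ∣ n := by
      rintro ⟨x, rfl⟩
      exact hn ⟨x, rfl⟩
    rw [if_neg this]
    simp
  · refine h1.congr_fun fun n => ?_
    show (if ((ℓ * n : ℕ) : ZMod f) = s then ((ℓ : ℂ) ^ (k - 1) *
      if ℓ ∣ ℓ * n then a (ℓ * n / ℓ) else 0) * ex ((ℓ * n : ℕ) * z / f) else 0) = _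
    have h6 : ((ℓ * n : ℕ) : ZMod f) = s ↔ (n : ZMod f) = ((u⁻¹ * s : (ZMod f)ˣ) : ZMod f) := by
      rw [Nat.cast_mul, ← huv]
      constructor
      · intro h
        rw [Units.val_mul, ← h, ← mul_assoc, Units.inv_mul, one_mul]
      · intro h
        rw [h, Units.val_mul, ← mul_assoc, Units.mul_inv, one_mul]
    by_cases h7 : ((ℓ * n : ℕ) : ZMod f) = s
    · rw [if_pos h7, if_pos (h6.mp h7), if_pos (dvd_mul_right _ _), Nat.mul_div_cancel_left _ hℓ,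
        mul_assoc]
      congr 3
      push_cast
      ring
    · rw [if_neg h7, if_neg (fun h => h7 (h6.mpr h)), mul_zero]

end seq

end Fermat.Agent.H18T
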