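import Mathlib

set_option autoImplicit false
set_option linter.all false

/-!
# Inversion formula for binary theta series

-/

noncomputable section

open Complex Real Filter Topology

namespace Fermat.Agent.H18T

/-- one dimensional inversion with characteristic -/
theorem one_dim (t s : ℂ) (ht : 0 < t.im) :
    ∑' n : ℤ, cexp (π * I * t * (n + s) ^ 2) =
      1 / (-I * t) ^ (1 / 2 : ℂ) * ∑' k : ℤ, cexp (2 * π * I * k * s - π * I * k ^ 2 / t) := by
  have ht0 : t ≠ 0 := fun h => by rw [h, Complex.zero_im] at ht; exact lt_irrefl _ ht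
  have h1 := jacobiTheta₂_functional_equation (t * s) t
  have h2 : ∑' n : ℤ, cexp (π * I * t * (n + s) ^ 2) =
      cexp (π * I * t * s ^ 2) * jacobiTheta₂ (t * s) t := by
    rw [jacobiTheta₂, ← tsum_mul_left]
    refine tsum_congr fun n => ?_
    rw [jacobiTheta₂_term, ← Complex.exp_add]
    congr 1
    ring
  have h3 : ∑' k : ℤ, cexp (2 * π * I * k * s - π * I * k ^ 2 / t) =
      jacobiTheta₂ (t * s / t) (-1 / t) := by
    rw [jacobiTheta₂]
    refine tsum_congr fun n => ?_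
    rw [jacobiTheta₂_term]
    congr 1
    field_simp
    ring
  rw [h2, h1, h3]
  have h4 : cexp (π * I * t * s ^ 2) * cexp (-π * I * (t * s) ^ 2 / t) = 1 := by
    rw [← Complex.exp_add, ← Complex.exp_zero]
    congr 1
    field_simp
    ring
  calc _ = (cexp (π * I * t * s ^ 2) * cexp (-π * I * (t * s) ^ 2 / t)) *
      (1 / (-I * t) ^ (1 / 2 : ℂ) * jacobiTheta₂ (t * s / t) (-1 / t)) := by ring
    _ = _ := by rw [h4, one_mul]

/-- summability of a real gaussian -/
theorem summable_gauss {c : ℝ} (hc : 0 < c) (r : ℝ) :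
    Summable fun n : ℤ => rexp (-c * (n + r) ^ 2) := by
  have h1 := (summable_jacobiTheta₂_term_iff (I * (c * r / π : ℝ)) (I * (c / π : ℝ))).mpr (by
    rw [Complex.mul_im]
    simp
    positivity)
  have h2 := (h1.norm).mul_left (rexp (-c * r ^ 2))
  refine h2.congr fun n => ?_
  rw [norm_jacobiTheta₂_term, ← Real.exp_add]
  congr 1
  simp only [Complex.mul_im, Complex.I_re, Complex.I_im, Complex.ofReal_im, Complex.ofReal_re]
  field_simp
  ring

variable {A B C : ℝ}

/-- a real binary quadratic form -/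
def qr (A B C x y : ℝ) : ℝ := A * x ^ 2 + B * x * y + C * y ^ 2

theorem C_pos (hA : 0 < A) (hD : 0 < 4 * A * C - B ^ 2) : 0 < C := by
  by_contra h
  push Not at h
  nlinarith [sq_nonneg B, mul_nonneg hA.le (neg_nonneg.mpr h)]

theorem qr_ge (hA : 0 < A) (hD : 0 < 4 * A * C - B ^ 2) (x y : ℝ) :
    (4 * A * C - B ^ 2) / (4 * (A + C)) * (x ^ 2 + y ^ 2) ≤ qr A B C x y := by
  have hC := C_pos hA hD
  have hAC : 0 < 4 * (A + C) := by linarith
  rw [div_mul_eq_mul_div, div_le_iff₀ hAC, qr]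
  nlinarith [sq_nonneg (2 * A * x + B * y), sq_nonneg (B * x + 2 * C * y)]

theorem qr_nonneg (hA : 0 < A) (hD : 0 < 4 * A * C - B ^ 2) (x y : ℝ) : 0 ≤ qr A B C x y := by
  have hC := C_pos hA hD
  refine le_trans ?_ (qr_ge hA hD x y)
  positivity

/-- summability of a binary gaussian -/
theorem summable_gauss₂ (hA : 0 < A) (hD : 0 < 4 * A * C - B ^ 2) {c : ℝ} (hc : 0 < c) (r s : ℝ) :
    Summable fun p : ℤ × ℤ => rexp (-c * qr A B C (p.1 + r) (p.2 + s)) := by
  have hC := C_pos hA hD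
  set δ := c * ((4 * A * C - B ^ 2) / (4 * (A + C))) with hδ
  have hδ0 : 0 < δ := by positivity
  refine Summable.of_nonneg_of_le (fun p => (Real.exp_pos _).le) (fun p => ?_)
    ((summable_gauss hδ0 r).mul_of_nonneg (summable_gauss hδ0 s)
      (fun _ => (Real.exp_pos _).le) (fun _ => (Real.exp_pos _).le))
  rw [← Real.exp_add]
  apply Real.exp_le_exp.mpr
  have := mul_le_mul_of_nonneg_left (qr_ge hA hD (p.1 + r) (p.2 + s)) hc.le
  have h2 : c * ((4 * A * C - B ^ 2) / (4 * (A + C)) * (((p.1 : ℝ) + r) ^ 2 + (p.2 + s) ^ 2)) =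
    δ * ((p.1 : ℝ) + r) ^ 2 + δ * (p.2 + s) ^ 2 := by rw [hδ]; ring
  rw [h2] at this
  linarith

theorem norm_exp_qr (x : ℝ) (τ : ℂ) : ‖cexp (2 * π * I * (x : ℝ) * τ)‖ =
    rexp (-(2 * π * τ.im) * x) := by
  rw [Complex.norm_exp]
  congr 1
  simp [Complex.mul_re, Complex.mul_im]
  ring

theorem summable_theta (hA : 0 < A) (hD : 0 < 4 * A * C - B ^ 2) {τ : ℂ} (hτ : 0 < τ.im)
    (r s : ℝ) :
    Summable fun p : ℤ × ℤ => cexp (2 * π * I * (qr A B C (p.1 + r) (p.2 + s) : ℝ) * τ) := by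
  apply Summable.of_norm
  simp only [norm_exp_qr]
  exact summable_gauss₂ hA hD (by positivity) r s

theorem im_neg_inv {τ : ℂ} (hτ : 0 < τ.im) {c : ℝ} (hc : 0 < c) : 0 < (-1 / (c * τ)).im := by
  have h0 : τ ≠ 0 := fun h => by rw [h, Complex.zero_im] at hτ; exact lt_irrefl _ hτ
  rw [neg_div, Complex.neg_im, one_div, Complex.inv_im]
  have h1 : 0 < Complex.normSq (c * τ) := by
    apply Complex.normSq_pos.mpr
    exact mul_ne_zero (by exact_mod_cast hc.ne') h0
  have h2 : ((c : ℂ) * τ).im = c * τ.im := by simp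
  rw [h2, neg_div, neg_neg]
  positivity

theorem cpow_half_mul {a b : ℝ} (ha : 0 < a) (hb : 0 < b) {z : ℂ} (hz : z ≠ 0) :
    ((a : ℂ) * z) ^ (1 / 2 : ℂ) * ((b : ℂ) * z) ^ (1 / 2 : ℂ) = (√(a * b) : ℝ) * z := by
  have ha' : (a : ℂ) ≠ 0 := by exact_mod_cast ha.ne'
  have hb' : (b : ℂ) ≠ 0 := by exact_mod_cast hb.ne'
  rw [Complex.cpow_def_of_ne_zero (mul_ne_zero ha' hz),
    Complex.cpow_def_of_ne_zero (mul_ne_zero hb' hz), Complex.log_ofReal_mul ha hz,
    Complex.log_ofReal_mul hb hz, ← Complex.exp_add]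
  have h1 : (Real.log a + Complex.log z) * (1 / 2 : ℂ) + (Real.log b + Complex.log z) * (1 / 2) =
      (((Real.log a + Real.log b) / 2 : ℝ) : ℂ) + Complex.log z := by push_cast; ring
  rw [h1, Complex.exp_add, Complex.exp_log hz, ← Complex.ofReal_exp]
  congr 2
  rw [eq_comm, Real.sqrt_eq_iff_mul_self_eq (by positivity) (Real.exp_pos _).le, ← Real.exp_add,
    add_halves, Real.exp_add, Real.exp_log ha, Real.exp_log hb]

theorem norm_exp_sq (t : ℂ) (x : ℝ) : ‖cexp (π * I * t * (x : ℂ) ^ 2)‖ =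
    rexp (-(π * t.im) * x ^ 2) := by
  rw [Complex.norm_exp]
  congr 1
  have h1 : π * I * t * (x : ℂ) ^ 2 = ((π * x ^ 2 : ℝ) : ℂ) * (I * t) := by push_cast; ring
  rw [h1, Complex.re_ofReal_mul, Complex.I_mul_re]
  ring

/-- **Inversion formula for binary theta series.** -/
theorem inversion (hA : 0 < A) (hD : 0 < 4 * A * C - B ^ 2) (r s : ℝ) {τ : ℂ} (hτ : 0 < τ.im) :
    ∑' p : ℤ × ℤ, cexp (2 * π * I * (qr A B C (p.1 + r) (p.2 + s) : ℝ) * τ) =
      I / (τ * (√(4 * A * C - B ^ 2) : ℝ)) * ∑' p : ℤ × ℤ,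
        cexp (2 * π * I * (qr C (-B) A p.1 p.2 : ℝ) * (-1 / ((4 * A * C - B ^ 2 : ℝ) * τ)) +
          2 * π * I * (p.1 * r + p.2 * s)) := by
  have hC := C_pos hA hD
  set D := 4 * A * C - B ^ 2 with hDdef
  have hτ0 : τ ≠ 0 := fun h => by rw [h, Complex.zero_im] at hτ; exact lt_irrefl _ hτ
  have hC0 : (C : ℂ) ≠ 0 := by exact_mod_cast hC.ne'
  have hD0 : (D : ℂ) ≠ 0 := by exact_mod_cast hD.ne'
  have hAC : (A : ℂ) = (D + B ^ 2) / (4 * C) := by
    rw [hDdef]; push_cast; field_simp; ring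
  set t : ℂ := ((2 * C : ℝ) : ℂ) * τ with ht
  set t' : ℂ := ((D / (2 * C) : ℝ) : ℂ) * τ with ht'
  have ht0 : t ≠ 0 := mul_ne_zero (by exact_mod_cast (by positivity : (2 * C : ℝ) ≠ 0)) hτ0
  have ht'0 : t' ≠ 0 := mul_ne_zero (by exact_mod_cast (by positivity : (D / (2 * C) : ℝ) ≠ 0)) hτ0
  have htim : 0 < t.im := by rw [ht, Complex.im_ofReal_mul]; positivity
  have ht'im : 0 < t'.im := by rw [ht', Complex.im_ofReal_mul]; positivity
  have htinv : 0 < (-1 / t).im := im_neg_inv hτ (by positivity)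
  -- first inversion
  have hG : Summable fun p : ℤ × ℤ => cexp (π * I * t' * (p.1 + r) ^ 2 +
      2 * π * I * p.2 * (s + B * (p.1 + r) / (2 * C)) - π * I * p.2 ^ 2 / t) := by
    apply Summable.of_norm
    have h1 := (summable_gauss (c := π * t'.im) (by positivity) r).mul_of_nonneg
      (summable_gauss (c := π * (-1 / t).im) (by positivity) 0)
      (fun _ => (Real.exp_pos _).le) (fun _ => (Real.exp_pos _).le)
    refine h1.congr fun p => ?_
    have h2 : π * I * t' * (p.1 + r) ^ 2 +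
      2 * π * I * p.2 * (s + B * (p.1 + r) / (2 * C)) - π * I * p.2 ^ 2 / t =
      π * I * t' * (((p.1 + r : ℝ)) : ℂ) ^ 2 + π * I * (-1 / t) * (((p.2 + 0 : ℝ)) : ℂ) ^ 2 +
        ((2 * π * p.2 * (s + B * (p.1 + r) / (2 * C)) : ℝ) : ℂ) * I := by
      push_cast; ring
    rw [h2, Complex.exp_add, Complex.exp_add, norm_mul, norm_mul, Complex.norm_exp_ofReal_mul_I,
      mul_one, norm_exp_sq, norm_exp_sq]
  have step1 : ∑' p : ℤ × ℤ, cexp (2 * π * I * (qr A B C (p.1 + r) (p.2 + s) : ℝ) * τ) =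
      1 / (-I * t) ^ (1 / 2 : ℂ) * ∑' (m : ℤ) (k : ℤ), cexp (π * I * t' * (m + r) ^ 2 +
        2 * π * I * k * (s + B * (m + r) / (2 * C)) - π * I * k ^ 2 / t) := by
    rw [(summable_theta hA hD hτ r s).tsum_prod, ← tsum_mul_left]
    refine tsum_congr fun m => ?_
    have h1 := one_dim t (s + B * (m + r) / (2 * C)) htim
    calc _ = ∑' n : ℤ, cexp (π * I * t' * (m + r) ^ 2) *
        cexp (π * I * t * (n + (s + B * (m + r) / (2 * C))) ^ 2) := by
          refine tsum_congr fun n => ?_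
          rw [← Complex.exp_add]
          congr 1
          rw [ht, ht', qr]
          push_cast
          rw [hAC]
          field_simp
          ring
      _ = _ := by
          rw [tsum_mul_left, h1, ← tsum_mul_left, ← tsum_mul_left, ← tsum_mul_left]
          refine tsum_congr fun k => ?_
          rw [mul_left_comm, ← Complex.exp_add]
          congr 2
          ring
  -- second inversion
  have step2 : ∀ k : ℤ, ∑' m : ℤ, cexp (π * I * t' * (m + r) ^ 2 +
        2 * π * I * k * (s + B * (m + r) / (2 * C)) - π * I * k ^ 2 / t) =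
      1 / (-I * t') ^ (1 / 2 : ℂ) * ∑' l : ℤ,
        cexp (2 * π * I * (qr C (-B) A l k : ℝ) * (-1 / ((D : ℝ) * τ)) +
          2 * π * I * (l * r + k * s)) := by
    intro k
    have h1 := one_dim t' (r + k * B / (D * τ)) ht'im
    calc _ = ∑' m : ℤ, cexp (2 * π * I * k * s - π * I * k ^ 2 / t -
        π * I * k ^ 2 * B ^ 2 / (2 * C * D * τ)) *
        cexp (π * I * t' * (m + (r + k * B / (D * τ))) ^ 2) := by
          refine tsum_congr fun m => ?_
          rw [← Complex.exp_add]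
          congr 1
          rw [ht']
          push_cast
          field_simp
          ring
      _ = _ := by
          rw [tsum_mul_left, h1, ← tsum_mul_left, ← tsum_mul_left, ← tsum_mul_left]
          refine tsum_congr fun l => ?_
          rw [mul_left_comm, ← Complex.exp_add]
          congr 2
          rw [ht, ht', qr]
          push_cast
          rw [hAC]
          field_simp
          ring
  have hR : Summable fun p : ℤ × ℤ => cexp (2 * π * I * (qr C (-B) A p.1 p.2 : ℝ) *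
      (-1 / ((D : ℝ) * τ)) + 2 * π * I * (p.1 * r + p.2 * s)) := by
    apply Summable.of_norm
    have hD' : 0 < 4 * C * A - (-B) ^ 2 := by rw [hDdef] at hD; linarith
    have h1 := summable_gauss₂ hC hD' (c := 2 * π * (-1 / ((D : ℝ) * τ)).im)
      (by have := im_neg_inv hτ hD; positivity) 0 0
    refine h1.congr fun p => ?_
    have h2 : 2 * π * I * ((p.1 : ℂ) * r + p.2 * s) =
        ((2 * π * (p.1 * r + p.2 * s) : ℝ) : ℂ) * I := by push_cast; ring
    rw [Complex.exp_add, norm_mul, h2, Complex.norm_exp_ofReal_mul_I, mul_one, norm_exp_qr,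
      add_zero, add_zero]
  rw [step1]
  have hswap : ∑' (m : ℤ) (k : ℤ), cexp (π * I * t' * (m + r) ^ 2 +
        2 * π * I * k * (s + B * (m + r) / (2 * C)) - π * I * k ^ 2 / t) =
      ∑' (k : ℤ) (m : ℤ), cexp (π * I * t' * (m + r) ^ 2 +
        2 * π * I * k * (s + B * (m + r) / (2 * C)) - π * I * k ^ 2 / t) :=
    (Summable.tsum_comm (f := fun (m k : ℤ) => cexp (π * I * t' * (m + r) ^ 2 +
        2 * π * I * k * (s + B * (m + r) / (2 * C)) - π * I * k ^ 2 / t)) hG).symm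
  rw [hswap]
  simp only [step2]
  rw [tsum_mul_left, hR.tsum_prod]
  have hswap2 : ∑' (l : ℤ) (k : ℤ), cexp (2 * π * I * (qr C (-B) A l k : ℝ) *
      (-1 / ((D : ℝ) * τ)) + 2 * π * I * (l * r + k * s)) =
      ∑' (k : ℤ) (l : ℤ), cexp (2 * π * I * (qr C (-B) A l k : ℝ) *
      (-1 / ((D : ℝ) * τ)) + 2 * π * I * (l * r + k * s)) :=
    (Summable.tsum_comm (f := fun (l k : ℤ) => cexp (2 * π * I * (qr C (-B) A l k : ℝ) *
      (-1 / ((D : ℝ) * τ)) + 2 * π * I * (l * r + k * s))) hR).symm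
  rw [hswap2, ← mul_assoc]
  congr 1
  have h5 := cpow_half_mul (a := 2 * C) (b := D / (2 * C)) (by positivity) (by positivity)
    (z := -I * τ) (mul_ne_zero (neg_ne_zero.mpr I_ne_zero) hτ0)
  have h6 : -I * t = ((2 * C : ℝ) : ℂ) * (-I * τ) := by rw [ht]; ring
  have h7 : -I * t' = ((D / (2 * C) : ℝ) : ℂ) * (-I * τ) := by rw [ht']; ring
  have h8 : 2 * C * (D / (2 * C)) = D := by field_simp
  rw [h8] at h5
  rw [h6, h7, one_div_mul_one_div, h5]
  have h9 : ((√D : ℝ) : ℂ) ≠ 0 := by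
    exact_mod_cast (Real.sqrt_pos.mpr hD).ne'
  rw [div_eq_div_iff (mul_ne_zero h9 (mul_ne_zero (neg_ne_zero.mpr I_ne_zero) hτ0))
    (mul_ne_zero hτ0 h9)]
  linear_combination (τ * ((√D : ℝ) : ℂ)) * I_sq

end Fermat.Agent.H18T
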