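import Fermat.Agent.H18T.Form

set_option autoImplicit false
set_option linter.all false

/-!
# Ideals of an imaginary quadratic order as binary forms

-/

noncomputable section

open Module
open Fermat.Agent.H29W

namespace Fermat.Agent.H18T

section norm

variable {S : Type*} [CommRing S] {dz : ℤ} (e : S ≃+* QuadraticAlgebra ℤ dz 0)

theorem alg_norm_quad (x : QuadraticAlgebra ℤ dz 0) : Algebra.norm ℤ x = x.norm := by
  rw [Algebra.norm_apply, ← QuadraticAlgebra.det_toLinearMap_eq_norm]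
  congr 1

theorem alg_norm_eq (s : S) : Algebra.norm ℤ s = (e s).norm := by
  rw [← alg_norm_quad]
  have h := Algebra.norm_eq_of_equiv_equiv (RingEquiv.refl ℤ) e (Subsingleton.elim _ _) s
  simpa using h

theorem quad_norm (x : QuadraticAlgebra ℤ dz 0) : x.norm = x.re ^ 2 - dz * x.im ^ 2 := by
  rw [QuadraticAlgebra.norm_def]; ring

/-- the `ℤ`-basis of `S` -/
def bS : Basis (Fin 2) ℤ S :=
  (QuadraticAlgebra.basis dz 0).map e.symm.toAddEquiv.toIntLinearEquiv

theorem bS_repr (s : S) (i : Fin 2) : (bS e).repr s i = ![(e s).re, (e s).im] i := by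
  rw [bS, Basis.map_repr]
  show (QuadraticAlgebra.basis dz 0).repr (e s) i = _
  rw [QuadraticAlgebra.basis_repr_apply]

end norm

section lattice

variable {S : Type*} [CommRing S] [IsDedekindDomain S] [Module.Free ℤ S] [Module.Finite ℤ S]
  {M : ℕ} [NeZero M] (e : S ≃+* QuadraticAlgebra ℤ (-2 * M : ℤ) 0)

theorem nm_nonneg (s : S) : 0 ≤ (e s).norm := by
  rw [quad_norm]
  have : (0 : ℤ) ≤ M := by positivity
  nlinarith [sq_nonneg (e s).re, sq_nonneg (e s).im, mul_nonneg this (sq_nonneg (e s).im)]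

theorem nm_pos {s : S} (hs : s ≠ 0) : 0 < (e s).norm := by
  have hM : (0 : ℤ) < M := by exact_mod_cast NeZero.pos M
  rw [quad_norm]
  have h1 : e s ≠ 0 := by
    intro h; exact hs (by simpa using h)
  by_cases h2 : (e s).im = 0
  · have h3 : (e s).re ≠ 0 := fun h3 => h1 (QuadraticAlgebra.ext h3 h2)
    have h5 : 0 < (e s).re ^ 2 := by positivity
    rw [h2]
    linarith
  · have h4 : 0 < (e s).im ^ 2 := by positivity
    nlinarith [sq_nonneg (e s).re, mul_pos hM h4]

theorem absNorm_span (s : S) : ((Ideal.absNorm (Ideal.span {s}) : ℕ) : ℤ) = (e s).norm := by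
  rw [Ideal.absNorm_span_singleton, alg_norm_eq e, Int.natAbs_of_nonneg (nm_nonneg e s)]

theorem absNorm_dvd {a : Ideal S} {s : S} (hs : s ∈ a) : (Ideal.absNorm a : ℤ) ∣ (e s).norm := by
  rw [← alg_norm_eq e]; exact Ideal.absNorm_dvd_norm_of_mem hs

/-- a non-zero ideal as a lattice with an integral form of discriminant `-8M` -/
theorem exists_lattice {a : Ideal S} (ha : a ≠ ⊥) : ∃ (w₁ w₂ : S) (A B C : ℤ), 0 < A ∧
    dsc A B C = 8 * M ∧ (∀ y, y ∈ a ↔ ∃ m n : ℤ, y = m * w₁ + n * w₂) ∧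
    (∀ m n : ℤ, (m : S) * w₁ + n * w₂ = 0 → m = 0 ∧ n = 0) ∧
    (∀ m n : ℤ, (e (m * w₁ + n * w₂)).norm = (Ideal.absNorm a : ℤ) * qz A B C m n) := by
  set bI := Ideal.selfBasis (bS e) a ha with hbI
  set w₁ : S := (bI 0 : S) with hw₁
  set w₂ : S := (bI 1 : S) with hw₂
  have h1a : w₁ ∈ a := (bI 0).2
  have h2a : w₂ ∈ a := (bI 1).2
  have hdet : ((e w₁).re * (e w₂).im - (e w₂).re * (e w₁).im).natAbs = Ideal.absNorm a := by
    rw [← Ideal.natAbs_det_basis_change (bS e) a bI, Basis.det_apply, Matrix.det_fin_two]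
    simp only [Basis.toMatrix_apply, bS_repr, Function.comp_apply]
    rfl
  set Na : ℤ := (Ideal.absNorm a : ℤ) with hNa
  have hNa0 : 0 < Na := by
    rw [hNa]
    have : Ideal.absNorm a ≠ 0 := fun h => ha (Ideal.absNorm_eq_zero_iff.mp h)
    exact_mod_cast Nat.pos_of_ne_zero this
  have hdet2 : ((e w₁).re * (e w₂).im - (e w₂).re * (e w₁).im) ^ 2 = Na ^ 2 := by
    rw [← Int.natAbs_sq, hdet]
  obtain ⟨A, hA⟩ := absNorm_dvd e h1a
  obtain ⟨C, hC⟩ := absNorm_dvd e h2a
  obtain ⟨E', hE⟩ := absNorm_dvd e (a.add_mem h1a h2a)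
  rw [← hNa] at hA hC hE
  set B : ℤ := E' - A - C with hB
  have hBt : 2 * ((e w₁).re * (e w₂).re + 2 * M * ((e w₁).im * (e w₂).im)) = Na * B := by
    have h1 : (e (w₁ + w₂)).norm = (e w₁).norm + (e w₂).norm +
        2 * ((e w₁).re * (e w₂).re + 2 * M * ((e w₁).im * (e w₂).im)) := by
      rw [quad_norm, quad_norm, quad_norm, map_add, QuadraticAlgebra.re_add,
        QuadraticAlgebra.im_add]
      ring
    rw [hA, hC, hE] at h1
    rw [hB]
    linear_combination -h1
  have hform : ∀ m n : ℤ, (e (m * w₁ + n * w₂)).norm = Na * qz A B C m n := by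
    intro m n
    rw [quad_norm] at hA hC
    rw [quad_norm, map_add, map_mul, map_mul, map_intCast, map_intCast, qz]
    simp only [QuadraticAlgebra.re_add, QuadraticAlgebra.im_add, QuadraticAlgebra.re_mul,
      QuadraticAlgebra.im_mul, QuadraticAlgebra.re_intCast, QuadraticAlgebra.im_intCast]
    linear_combination m ^ 2 * hA + n ^ 2 * hC + m * n * hBt
  have hw1 : w₁ ≠ 0 := by
    intro h
    have := bI.ne_zero 0
    exact this (Subtype.ext h)
  refine ⟨w₁, w₂, A, B, C, ?_, ?_, ?_, ?_, hform⟩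
  · have := nm_pos e hw1
    rw [hA] at this
    exact (mul_pos_iff_of_pos_left hNa0).mp this
  · have h1 : Na ^ 2 * dsc A B C = Na ^ 2 * (8 * M) := by
      rw [← hdet2]
      rw [quad_norm] at hA hC
      have h2 : Na ^ 2 * dsc A B C = 4 * (Na * A) * (Na * C) - (Na * B) ^ 2 := by
        simp only [dsc]; ring
      rw [hdet2, h2, ← hA, ← hC, ← hBt, ← hdet2]
      ring
    exact mul_left_cancel₀ (pow_ne_zero 2 hNa0.ne') h1
  · intro y
    constructor
    · intro hy
      have h1 := bI.sum_repr ⟨y, hy⟩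
      rw [Fin.sum_univ_two] at h1
      have h2 := congrArg (Subtype.val) h1
      refine ⟨bI.repr ⟨y, hy⟩ 0, bI.repr ⟨y, hy⟩ 1, ?_⟩
      rw [← zsmul_eq_mul, ← zsmul_eq_mul]
      exact h2.symm
    · rintro ⟨m, n, rfl⟩
      exact a.add_mem (a.mul_mem_left _ h1a) (a.mul_mem_left _ h2a)
  · intro m n hmn
    have h1 := bI.linearIndependent
    rw [Fintype.linearIndependent_iff] at h1
    have h2 := h1 ![m, n] (by
      rw [Fin.sum_univ_two]
      apply Subtype.ext
      show m • w₁ + n • w₂ = 0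
      rw [zsmul_eq_mul, zsmul_eq_mul]
      exact hmn)
    exact ⟨h2 0, h2 1⟩

end lattice

end Fermat.Agent.H18T
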