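import Fermat.Agent.H18T.Limit

set_option autoImplicit false
set_option linter.all false

/-!
# The transformation formula for matrices of level divisible by the discriminant

-/

noncomputable section

open Complex Real Filter Topology

namespace Fermat.Agent.H18T

/-! ### periodic sums -/

/-- sum over a box -/
def psum (k : ℕ) (F : ℤ × ℤ → ℂ) : ℂ :=
  ∑ s : Fin k × Fin k, F (((s.1 : ℕ) : ℤ), ((s.2 : ℕ) : ℤ))

/-- congruence modulo `k` -/
def cong (k : ℕ) (p q : ℤ × ℤ) : Prop := (k : ℤ) ∣ p.1 - q.1 ∧ (k : ℤ) ∣ p.2 - q.2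

/-- reduction -/
def red (k : ℕ) [NeZero k] (x : ℤ) : Fin k :=
  ⟨(x % k).toNat, by
    have hk : (0 : ℤ) < k := by exact_mod_cast NeZero.pos k
    have h1 := Int.emod_nonneg x hk.ne'
    have h2 := Int.emod_lt_of_pos x hk
    omega⟩

theorem red_coe (k : ℕ) [NeZero k] (x : ℤ) : (((red k x : Fin k) : ℕ) : ℤ) = x % k := by
  have hk : (0 : ℤ) < k := by exact_mod_cast NeZero.pos k
  have h1 := Int.emod_nonneg x hk.ne'
  show (((x % k).toNat : ℕ) : ℤ) = x % k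
  omega

theorem dvd_red (k : ℕ) [NeZero k] (x : ℤ) : (k : ℤ) ∣ (((red k x : Fin k) : ℕ) : ℤ) - x := by
  rw [red_coe]
  exact (Int.dvd_self_sub_emod).neg_right.trans (by rw [neg_sub])

theorem psum_congr {k : ℕ} {F G : ℤ × ℤ → ℂ} (h : ∀ p, F p = G p) : psum k F = psum k G := by
  unfold psum; simp only [h]

theorem psum_const_mul {k : ℕ} {F : ℤ × ℤ → ℂ} (c : ℂ) :
    psum k (fun p => c * F p) = c * psum k F := by
  unfold psum; rw [Finset.mul_sum]

theorem psum_comp {k : ℕ} [NeZero k] {F : ℤ × ℤ → ℂ} (hF : ∀ p q, cong k p q → F p = F q)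
    (e : ℤ × ℤ → ℤ × ℤ) (he : ∀ p q, cong k (e p) (e q) → cong k p q) :
    psum k (fun p => F (e p)) = psum k F := by
  let ι : Fin k × Fin k → ℤ × ℤ := fun s => (((s.1 : ℕ) : ℤ), ((s.2 : ℕ) : ℤ))
  let R : ℤ × ℤ → Fin k × Fin k := fun p => (red k p.1, red k p.2)
  have hR : ∀ p, cong k (ι (R p)) p := fun p => ⟨dvd_red k p.1, dvd_red k p.2⟩
  have hinj : ∀ s t : Fin k × Fin k, cong k (ι s) (ι t) → s = t := by
    intro s t h
    have key : ∀ x y : Fin k, (k : ℤ) ∣ ((x : ℕ) : ℤ) - ((y : ℕ) : ℤ) → x = y := by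
      intro x y hxy
      have hx := x.2
      have hy := y.2
      have h1 := Int.eq_zero_of_abs_lt_dvd hxy (by rw [abs_lt]; omega)
      exact Fin.ext (by omega)
    exact Prod.ext (key _ _ h.1) (key _ _ h.2)
  have htr : ∀ p q r, cong k p q → cong k q r → cong k p r := by
    intro p q r h1 h2
    refine ⟨?_, ?_⟩
    · have := dvd_add h1.1 h2.1
      rwa [sub_add_sub_cancel] at this
    · have := dvd_add h1.2 h2.2
      rwa [sub_add_sub_cancel] at this
  have hsy : ∀ p q, cong k p q → cong k q p := by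
    intro p q h
    exact ⟨by rw [← neg_sub]; exact h.1.neg_right, by rw [← neg_sub]; exact h.2.neg_right⟩
  have hbij : Function.Bijective fun s => R (e (ι s)) := by
    rw [← Finite.injective_iff_bijective]
    intro s t hst
    apply hinj
    apply he
    have h1 := hR (e (ι s))
    have h2 := hR (e (ι t))
    have hst' : R (e (ι s)) = R (e (ι t)) := hst
    rw [hst'] at h1
    exact htr _ _ _ (hsy _ _ h1) h2
  calc psum k (fun p => F (e p)) = ∑ s : Fin k × Fin k, F (ι (R (e (ι s)))) := by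
        unfold psum
        refine Finset.sum_congr rfl fun s _ => ?_
        exact (hF _ _ (hR _)).symm
    _ = ∑ s : Fin k × Fin k, F (ι s) := hbij.sum_comp (fun s => F (ι s))
    _ = _ := rfl

/-- the polar form -/
def bz (A B C : ℤ) (p q : ℤ × ℤ) : ℤ :=
  2 * A * p.1 * q.1 + B * (p.1 * q.2 + p.2 * q.1) + 2 * C * p.2 * q.2

/-- the complete Gauss sum -/
def Gs (A B C : ℤ) (α : ℤ) (k : ℕ) : ℂ := psum k fun s => ex ((α * qz A B C s.1 s.2 : ℤ) / k)

variable {A B C : ℤ}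

theorem ex_div_congr {k : ℕ} [NeZero k] {x y : ℤ} (h : (k : ℤ) ∣ x - y) :
    ex ((x : ℂ) / k) = ex ((y : ℂ) / k) := by
  obtain ⟨n, hn⟩ := h
  have hk : (k : ℂ) ≠ 0 := by exact_mod_cast NeZero.ne k
  apply ex_eq_of_sub_int (n := n)
  have h1 : ((x : ℂ) - y) = k * n := by exact_mod_cast congrArg (fun n : ℤ => (n : ℂ)) hn
  rw [← sub_div, h1]
  field_simp

theorem qz_congr {k : ℕ} {p q : ℤ × ℤ} (h : cong k p q) :
    (k : ℤ) ∣ qz A B C p.1 p.2 - qz A B C q.1 q.2 := by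
  obtain ⟨⟨m, hm⟩, ⟨n, hn⟩⟩ := h
  rw [qz, qz, show p.1 = q.1 + k * m by linarith, show p.2 = q.2 + k * n by linarith]
  exact ⟨A * (2 * q.1 * m + k * m ^ 2) + B * (q.1 * n + q.2 * m + k * m * n) +
    C * (2 * q.2 * n + k * n ^ 2), by ring⟩

variable {f : ℕ} [NeZero f] {a b d : ℤ} {k : ℕ} [NeZero k]

omit [NeZero f] [NeZero k] in
theorem gsum_eq_psum (h n : ℤ × ℤ) : gsum A B C f a k h n = psum k fun s =>
    ex (((a * qz A B C (h.1 + f * s.1) (h.2 + f * s.2) +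
      (n.1 * (h.1 + f * s.1) + n.2 * (h.2 + f * s.2)) : ℤ) : ℂ) / (k * f)) := rfl

/-- periodicity of the summands of the incomplete Gauss sum -/
theorem gsum_term_congr (h n : ℤ × ℤ) (p q : ℤ × ℤ) (hpq : cong k p q) :
    ex (((a * qz A B C (h.1 + f * p.1) (h.2 + f * p.2) +
      (n.1 * (h.1 + f * p.1) + n.2 * (h.2 + f * p.2)) : ℤ) : ℂ) / (k * f)) =
    ex (((a * qz A B C (h.1 + f * q.1) (h.2 + f * q.2) +
      (n.1 * (h.1 + f * q.1) + n.2 * (h.2 + f * q.2)) : ℤ) : ℂ) / (k * f)) := by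
  obtain ⟨⟨u, hu⟩, ⟨v, hv⟩⟩ := hpq
  have hf' : (f : ℂ) ≠ 0 := by exact_mod_cast NeZero.ne f
  have hk' : (k : ℂ) ≠ 0 := by exact_mod_cast NeZero.ne k
  have h1 : p.1 = q.1 + k * u := by linarith
  have h2 : p.2 = q.2 + k * v := by linarith
  rw [h1, h2]
  apply ex_eq_of_sub_int (n := a * (A * (2 * (h.1 + f * q.1) * u + f * k * u ^ 2) +
    B * ((h.1 + f * q.1) * v + (h.2 + f * q.2) * u + f * k * u * v) +
    C * (2 * (h.2 + f * q.2) * v + f * k * v ^ 2)) + n.1 * u + n.2 * v)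
  rw [qz, qz]
  push_cast
  field_simp
  ring

theorem gsum_shift {m : ℤ} (hm : (k : ℤ) = dsc A B C * m) (h n u : ℤ × ℤ) :
    gsum A B C f a k h n = ex (((n.1 * (2 * C * u.1 - B * u.2) + n.2 * (-B * u.1 + 2 * A * u.2) : ℤ) :
      ℂ) / (dsc A B C : ℤ)) * gsum A B C f a k h n := by
  have hf' : (f : ℂ) ≠ 0 := by exact_mod_cast NeZero.ne f
  have hk' : (k : ℂ) ≠ 0 := by exact_mod_cast NeZero.ne k
  have hD0 : ((dsc A B C : ℤ) : ℂ) ≠ 0 := by
    intro h0
    have h1 : (k : ℂ) = (dsc A B C : ℤ) * m := by exact_mod_cast congrArg (fun n : ℤ => (n : ℂ)) hm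
    rw [h0, zero_mul] at h1
    exact hk' h1
  have hm0 : (m : ℂ) ≠ 0 := by
    intro h0
    have h1 : (k : ℂ) = (dsc A B C : ℤ) * m := by exact_mod_cast congrArg (fun n : ℤ => (n : ℂ)) hm
    rw [h0, mul_zero] at h1
    exact hk' h1
  conv_lhs => rw [gsum_eq_psum]
  rw [gsum_eq_psum, ← psum_const_mul]
  rw [← psum_comp (gsum_term_congr h n) (fun s => (s.1 + m * (2 * C * u.1 - B * u.2),
    s.2 + m * (-B * u.1 + 2 * A * u.2)))
    (fun p q hpq => ⟨by simpa using hpq.1, by simpa using hpq.2⟩)]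
  refine psum_congr fun s => ?_
  rw [← ex_add]
  apply ex_eq_of_sub_int (n := a * (((h.1 + f * s.1) * u.1 + (h.2 + f * s.2) * u.2) +
    f * m * qz C (-B) A u.1 u.2))
  have hD1 : ((dsc A B C : ℤ) : ℂ) = 4 * A * C - B ^ 2 := by push_cast; ring
  have hkm : (k : ℂ) = (dsc A B C : ℤ) * m := by
    exact_mod_cast congrArg (fun n : ℤ => (n : ℂ)) hm
  generalize ((dsc A B C : ℤ) : ℂ) = Dc at *
  rw [qz, qz, qz, hkm]
  push_cast
  field_simp
  rw [hD1]
  ring

theorem ex_eq_one_iff (x : ℂ) : ex x = 1 ↔ ∃ n : ℤ, x = n := by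
  rw [ex, Complex.exp_eq_one_iff]
  constructor
  · rintro ⟨n, hn⟩
    refine ⟨n, ?_⟩
    have h0 : (2 * (π : ℂ) * I) ≠ 0 := Complex.two_pi_I_ne_zero
    apply mul_left_cancel₀ h0
    rw [hn]; ring
  · rintro ⟨n, rfl⟩
    exact ⟨n, by ring⟩

/-- the support of the incomplete Gauss sums -/
theorem gsum_support (hdvd : dsc A B C ∣ (k : ℤ)) (h n : ℤ × ℤ) (hne : gsum A B C f a k h n ≠ 0) :
    ∃ t : ℤ × ℤ, n = (-(2 * A * t.1 + B * t.2), -(B * t.1 + 2 * C * t.2)) := by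
  obtain ⟨m, hm⟩ := hdvd
  have hD0 : dsc A B C ≠ 0 := by
    intro h0
    rw [h0, zero_mul] at hm
    exact NeZero.ne k (by exact_mod_cast hm)
  have hD1 : ((dsc A B C : ℤ) : ℂ) ≠ 0 := by exact_mod_cast hD0
  have key : ∀ u : ℤ × ℤ, ∃ x : ℤ,
      n.1 * (2 * C * u.1 - B * u.2) + n.2 * (-B * u.1 + 2 * A * u.2) = dsc A B C * x := by
    intro u
    have h1 := gsum_shift (f := f) (a := a) hm h n u
    have h2 : ex (((n.1 * (2 * C * u.1 - B * u.2) + n.2 * (-B * u.1 + 2 * A * u.2) : ℤ) :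
      ℂ) / (dsc A B C : ℤ)) = 1 := by
      apply mul_right_cancel₀ hne
      rw [← h1, one_mul]
    obtain ⟨x, hx⟩ := (ex_eq_one_iff _).mp h2
    refine ⟨x, ?_⟩
    rw [div_eq_iff hD1] at hx
    have : ((n.1 * (2 * C * u.1 - B * u.2) + n.2 * (-B * u.1 + 2 * A * u.2) : ℤ) : ℂ) =
      ((dsc A B C * x : ℤ) : ℂ) := by rw [hx]; push_cast; ring
    exact_mod_cast this
  obtain ⟨x, hx⟩ := key (1, 0)
  obtain ⟨y, hy⟩ := key (0, 1)
  simp only [mul_one, mul_zero, sub_zero, add_zero, zero_sub, zero_add] at hx hy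
  refine ⟨(-x, -y), Prod.ext ?_ ?_⟩
  · show n.1 = -(2 * A * -x + B * -y)
    apply mul_left_cancel₀ hD0
    simp only [dsc] at hx hy ⊢
    linear_combination 2 * A * hx + B * hy
  · show n.2 = -(B * -x + 2 * C * -y)
    apply mul_left_cancel₀ hD0
    simp only [dsc] at hx hy ⊢
    linear_combination B * hx + 2 * C * hy

/-- factorisation of the incomplete Gauss sums on their support -/
theorem gsum_factor (hdet : a * d - b * k = 1) {kb fb : ℤ} (hcop : (k : ℤ) * kb + f * fb = 1)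
    (h t : ℤ × ℤ) :
    gsum A B C f a k h (-(2 * A * t.1 + B * t.2), -(B * t.1 + 2 * C * t.2)) *
      ex ((d * qz A B C t.1 t.2 : ℤ) / (k * f)) =
    ex ((kb * (a * qz A B C h.1 h.2 - bz A B C h t + d * qz A B C t.1 t.2) : ℤ) / f) *
      Gs A B C (fb * a) k := by
  have hf' : (f : ℂ) ≠ 0 := by exact_mod_cast NeZero.ne f
  have hk' : (k : ℂ) ≠ 0 := by exact_mod_cast NeZero.ne k
  have hF : ∀ p q : ℤ × ℤ, cong k p q → ex ((fb * a * qz A B C p.1 p.2 : ℤ) / k) =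
      ex ((fb * a * qz A B C q.1 q.2 : ℤ) / k) := by
    intro p q hpq
    apply ex_div_congr
    rw [← mul_sub]
    exact (qz_congr hpq).mul_left _
  have he : ∀ p q : ℤ × ℤ, cong k (h.1 + f * p.1 - d * t.1, h.2 + f * p.2 - d * t.2)
      (h.1 + f * q.1 - d * t.1, h.2 + f * q.2 - d * t.2) → cong k p q := by
    intro p q hpq
    have hc : IsCoprime (k : ℤ) f := ⟨kb, fb, by linarith⟩
    obtain ⟨h1, h2⟩ := hpq
    refine ⟨hc.dvd_of_dvd_mul_left ?_, hc.dvd_of_dvd_mul_left ?_⟩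
    · have : (f : ℤ) * (p.1 - q.1) = h.1 + f * p.1 - d * t.1 - (h.1 + f * q.1 - d * t.1) := by ring
      rw [this]; exact h1
    · have : (f : ℤ) * (p.2 - q.2) = h.2 + f * p.2 - d * t.2 - (h.2 + f * q.2 - d * t.2) := by ring
      rw [this]; exact h2
  rw [Gs, ← psum_comp hF _ he, ← psum_const_mul, gsum_eq_psum, mul_comm, ← psum_const_mul]
  refine psum_congr fun s => ?_
  rw [← ex_add, ← ex_add]
  have hcop' : (k : ℂ) * kb + f * fb = 1 := by
    exact_mod_cast congrArg (fun n : ℤ => (n : ℂ)) hcop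
  have hdet' : (a : ℂ) * d = 1 + b * k := by
    have := congrArg (fun n : ℤ => (n : ℂ)) hdet
    push_cast at this
    linear_combination this
  obtain ⟨N, hN⟩ : ∃ N : ℤ, N = a * qz A B C (h.1 + f * s.1) (h.2 + f * s.2) -
    bz A B C (h.1 + f * s.1, h.2 + f * s.2) t + d * qz A B C t.1 t.2 := ⟨_, rfl⟩
  have e1 : ((d * qz A B C t.1 t.2 : ℤ) : ℂ) / (k * f) +
      ((a * qz A B C (h.1 + f * s.1) (h.2 + f * s.2) +
      (-(2 * A * t.1 + B * t.2) * (h.1 + f * s.1) + -(B * t.1 + 2 * C * t.2) * (h.2 + f * s.2)) : ℤ) :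
        ℂ) / (k * f) = kb * N / f + fb * N / k := by
    have e2 : (kb * N / f + fb * N / k : ℂ) = (k * kb + f * fb) * N / (k * f) := by
      field_simp
    rw [e2, hcop', one_mul, ← add_div, hN, bz]
    congr 1
    push_cast
    ring
  have e3 : ((d * qz A B C t.1 t.2 : ℤ) : ℂ) / (k * f) +
      ((a * qz A B C (h.1 + f * s.1) (h.2 + f * s.2) +
      ((-(2 * A * t.1 + B * t.2), -(B * t.1 + 2 * C * t.2)).1 * (h.1 + f * s.1) +
        (-(2 * A * t.1 + B * t.2), -(B * t.1 + 2 * C * t.2)).2 * (h.2 + f * s.2)) : ℤ) :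
        ℂ) / (k * f) = kb * N / f + fb * N / k := e1
  rw [e3]
  apply ex_eq_of_sub_int (n := kb * (a * (bz A B C h s + f * qz A B C s.1 s.2) - bz A B C s t) +
    fb * b * (bz A B C (h.1 + f * s.1, h.2 + f * s.2) t - d * qz A B C t.1 t.2))
  have e4 : (kb * N / f : ℂ) - ((kb * (a * qz A B C h.1 h.2 - bz A B C h t + d * qz A B C t.1 t.2) : ℤ)
      : ℂ) / f = (kb * (a * (bz A B C h s + f * qz A B C s.1 s.2) - bz A B C s t) : ℤ) := by
    rw [hN, ← sub_div, div_eq_iff hf']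
    simp only [bz, qz]
    push_cast
    ring
  have e5 : (fb * N / k : ℂ) - ((fb * a * qz A B C (h.1 + f * s.1 - d * t.1)
      (h.2 + f * s.2 - d * t.2) : ℤ) : ℂ) / k =
      (fb * b * (bz A B C (h.1 + f * s.1, h.2 + f * s.2) t - d * qz A B C t.1 t.2) : ℤ) := by
    rw [hN, ← sub_div, div_eq_iff hk']
    simp only [bz, qz]
    push_cast
    linear_combination (fb : ℂ) * ((2 * A * (h.1 + f * s.1) * t.1 + B * ((h.1 + f * s.1) * t.2 +
      (h.2 + f * s.2) * t.1) + 2 * C * (h.2 + f * s.2) * t.2) -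
      d * (A * t.1 ^ 2 + B * t.1 * t.2 + C * t.2 ^ 2)) * hdet'
  have e6 := Int.cast_add (R := ℂ) (kb * (a * (bz A B C h s + f * qz A B C s.1 s.2) - bz A B C s t))
    (fb * b * (bz A B C (h.1 + f * s.1, h.2 + f * s.2) t - d * qz A B C t.1 t.2))
  rw [e6, ← e4, ← e5]
  ring

omit [NeZero k] in
/-- the theta vector: sums with periodic coefficients -/
theorem tsum_periodic (hA : 0 < A) (hD : 0 < dsc A B C) (E : ℤ × ℤ → ℂ)
    (hE : ∀ p q, cong f p q → E p = E q) {z : ℂ} (hz : 0 < z.im) :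
    ∑' t : ℤ × ℤ, E t * ex ((qz A B C t.1 t.2 : ℤ) * z / f) =
      ∑ y : Fin f × Fin f, E (((y.1 : ℕ) : ℤ), ((y.2 : ℕ) : ℤ)) *
        thz A B C f (((y.1 : ℕ) : ℤ), ((y.2 : ℕ) : ℤ)) z := by
  have hf : (0 : ℝ) < f := by exact_mod_cast NeZero.pos f
  obtain ⟨K, hK⟩ : ∃ K : ℝ, ∀ n, ‖E n‖ ≤ K := by
    obtain ⟨K, hK⟩ := (Finset.univ.image fun s : Fin f × Fin f =>
      ‖E (((s.1 : ℕ) : ℤ), ((s.2 : ℕ) : ℤ))‖).bddAbove
    refine ⟨K, fun n => ?_⟩
    have h1 : E n = E (((red f n.1 : ℕ) : ℤ), ((red f n.2 : ℕ) : ℤ)) := by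
      symm
      exact hE _ _ ⟨dvd_red f n.1, dvd_red f n.2⟩
    rw [h1]
    apply hK
    simp only [Finset.coe_image, Finset.coe_univ, Set.image_univ, Set.mem_range]
    exact ⟨(red f n.1, red f n.2), rfl⟩
  have hs := summable_TS hA hD hK (r := 1 / f) (by positivity) hz
  have hs' : Summable fun t : ℤ × ℤ => E t * ex ((qz A B C t.1 t.2 : ℤ) * z / f) := by
    refine hs.congr fun t => ?_
    congr 2
    push_cast
    ring
  rw [tsum_split _ hs' f]
  refine Finset.sum_congr rfl fun y _ => ?_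
  rw [thz, ← tsum_mul_left]
  refine tsum_congr fun m => ?_
  congr 1
  exact hE _ _ ⟨⟨m.1, by simp⟩, ⟨m.2, by simp⟩⟩

/-- the transformation formula for level divisible by the discriminant -/
theorem thz_level (hA : 0 < A) (hD : 0 < dsc A B C) (hdvd : dsc A B C ∣ (k : ℤ))
    (hdet : a * d - b * k = 1) {kb fb : ℤ} (hcop : (k : ℤ) * kb + f * fb = 1) (h : ℤ × ℤ) {z : ℂ}
    (hz : 0 < z.im) :
    thz A B C f h ((a * z + b) / (k * z + d)) =
      (k * z + d) * (-I * Gs A B C (fb * a) k / (k * (√((dsc A B C : ℤ) : ℝ) : ℝ))) * (1 / f) *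
      ∑ y : Fin f × Fin f,
        ex ((kb * (a * qz A B C h.1 h.2 - bz A B C h (((y.1 : ℕ) : ℤ), ((y.2 : ℕ) : ℤ)) +
          d * qz A B C ((y.1 : ℕ) : ℤ) ((y.2 : ℕ) : ℤ)) : ℤ) / f) *
        thz A B C f (((y.1 : ℕ) : ℤ), ((y.2 : ℕ) : ℤ)) z := by
  have hf' : (f : ℂ) ≠ 0 := by exact_mod_cast NeZero.ne f
  have hk' : (k : ℂ) ≠ 0 := by exact_mod_cast NeZero.ne k
  have hD0 : dsc A B C ≠ 0 := hD.ne'
  have hD1 : ((dsc A B C : ℤ) : ℂ) ≠ 0 := by exact_mod_cast hD0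
  rw [thz_smul hA hD hdet h hz]
  have hinj : Function.Injective fun t : ℤ × ℤ =>
      ((-(2 * A * t.1 + B * t.2), -(B * t.1 + 2 * C * t.2)) : ℤ × ℤ) := by
    intro t u htu
    have h1 : -(2 * A * t.1 + B * t.2) = -(2 * A * u.1 + B * u.2) := congrArg Prod.fst htu
    have h2 : -(B * t.1 + 2 * C * t.2) = -(B * u.1 + 2 * C * u.2) := congrArg Prod.snd htu
    refine Prod.ext ?_ ?_
    · apply mul_left_cancel₀ hD0
      simp only [dsc]
      linear_combination -2 * C * h1 + B * h2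
    · apply mul_left_cancel₀ hD0
      simp only [dsc]
      linear_combination B * h1 - 2 * A * h2
  rw [← hinj.tsum_eq (f := fun n : ℤ × ℤ => gsum A B C f a k h n *
        ex ((qz C (-B) A n.1 n.2 : ℤ) * (k * z + d) / ((dsc A B C : ℤ) * k * f))) ?_]
  · have h1 : ∀ t : ℤ × ℤ, gsum A B C f a k h (-(2 * A * t.1 + B * t.2), -(B * t.1 + 2 * C * t.2)) *
        ex ((qz C (-B) A (-(2 * A * t.1 + B * t.2)) (-(B * t.1 + 2 * C * t.2)) : ℤ) * (k * z + d) /
          ((dsc A B C : ℤ) * k * f)) =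
        Gs A B C (fb * a) k * (ex ((kb * (a * qz A B C h.1 h.2 - bz A B C h t +
          d * qz A B C t.1 t.2) : ℤ) / f) * ex ((qz A B C t.1 t.2 : ℤ) * z / f)) := by
      intro t
      have h2 : ex ((qz C (-B) A (-(2 * A * t.1 + B * t.2)) (-(B * t.1 + 2 * C * t.2)) : ℤ) *
          (k * z + d) / ((dsc A B C : ℤ) * k * f)) = ex ((d * qz A B C t.1 t.2 : ℤ) / (k * f)) *
          ex ((qz A B C t.1 t.2 : ℤ) * z / f) := by
        rw [← ex_add]
        congr 1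
        have h3 : qz C (-B) A (-(2 * A * t.1 + B * t.2)) (-(B * t.1 + 2 * C * t.2)) =
            dsc A B C * qz A B C t.1 t.2 := by
          rw [qz, qz]; simp only [dsc]; ring
        rw [h3, Int.cast_mul, Int.cast_mul]
        field_simp
        ring
      rw [h2, ← mul_assoc, gsum_factor hdet hcop]
      ring
    simp only [h1]
    rw [tsum_mul_left, tsum_periodic hA hD _ ?_ hz]
    · generalize (∑ y : Fin f × Fin f,
        ex ((kb * (a * qz A B C h.1 h.2 - bz A B C h (((y.1 : ℕ) : ℤ), ((y.2 : ℕ) : ℤ)) +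
          d * qz A B C ((y.1 : ℕ) : ℤ) ((y.2 : ℕ) : ℤ)) : ℤ) / f) *
        thz A B C f (((y.1 : ℕ) : ℤ), ((y.2 : ℕ) : ℤ)) z) = T
      have hs0 : ((√((dsc A B C : ℤ) : ℝ) : ℝ) : ℂ) ≠ 0 := by
        have : (0 : ℝ) < (dsc A B C : ℤ) := by exact_mod_cast hD
        exact_mod_cast (Real.sqrt_pos.mpr this).ne'
      field_simp
    · intro p q hpq
      apply ex_div_congr
      have h3 := (qz_congr (A := A) (B := B) (C := C) hpq).mul_left (kb * d)
      obtain ⟨⟨u, hu⟩, ⟨v, hv⟩⟩ := hpq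
      have h4 : (f : ℤ) ∣ kb * (bz A B C h q - bz A B C h p) := by
        refine ⟨-kb * (2 * A * h.1 * u + B * (h.1 * v + h.2 * u) + 2 * C * h.2 * v), ?_⟩
        rw [bz, bz, show p.1 = q.1 + f * u by linarith, show p.2 = q.2 + f * v by linarith]
        ring
      have h5 := dvd_add h3 h4
      refine h5.trans (dvd_of_eq ?_)
      ring
  · intro n hn
    have h1 : gsum A B C f a k h n ≠ 0 := fun h0 => hn (by simp [h0])
    obtain ⟨t, ht⟩ := gsum_support hdvd h n h1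
    exact ⟨t, ht.symm⟩

end Fermat.Agent.H18T
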