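import Fermat.Agent.H18T.Split

set_option autoImplicit false
set_option linter.all false

/-!
# Theta series with bounded coefficients: holomorphy and behaviour at `i∞`

-/

noncomputable section

open Complex Real Filter Topology

namespace Fermat.Agent.H18T

/-- neighbourhoods of `i∞` -/
def imTop : Filter ℂ := comap Complex.im atTop

theorem norm_ex (x : ℂ) : ‖ex x‖ = rexp (-(2 * π * x.im)) := by
  rw [ex, Complex.norm_exp]
  congr 1
  simp [Complex.mul_re, Complex.mul_im]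

theorem norm_ex_real (x : ℝ) : ‖ex x‖ = 1 := by
  rw [norm_ex, Complex.ofReal_im]; simp

variable {A B C : ℤ}

theorem qz_eq (A B C x y : ℤ) : 4 * A * qz A B C x y = (2 * A * x + B * y) ^ 2 + dsc A B C * y ^ 2 := by
  rw [qz]; ring

theorem qz_pos (hA : 0 < A) (hD : 0 < dsc A B C) {n : ℤ × ℤ} (hn : n ≠ 0) :
    0 < qz A B C n.1 n.2 := by
  have h := qz_eq A B C n.1 n.2
  by_cases h2 : n.2 = 0
  · have h1 : n.1 ≠ 0 := fun h1 => hn (Prod.ext h1 h2)
    rw [h2, qz]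
    simp only [mul_zero, add_zero, ne_eq, OfNat.ofNat_ne_zero, not_false_eq_true, zero_pow]
    positivity
  · have h3 : 0 < 4 * A * qz A B C n.1 n.2 := by
      rw [h]
      positivity
    have h4 : (0 : ℤ) < 4 * A := by linarith
    exact (mul_pos_iff_of_pos_left h4).mp h3

theorem qz_nonneg (hA : 0 < A) (hD : 0 < dsc A B C) (n : ℤ × ℤ) :
    0 ≤ qz A B C n.1 n.2 := by
  by_cases hn : n = 0
  · subst hn; simp [qz]
  · exact (qz_pos hA hD hn).le

theorem qz_zero : qz A B C 0 0 = 0 := by simp [qz]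

variable (A B C) in
/-- theta series with bounded coefficients -/
def TS (ψ : ℤ × ℤ → ℂ) (r : ℝ) (z : ℂ) : ℂ :=
  ∑' n : ℤ × ℤ, ψ n * ex ((qz A B C n.1 n.2 : ℤ) * (r * z))

variable {ψ : ℤ × ℤ → ℂ} {K r : ℝ}

theorem norm_term_le (hA : 0 < A) (hD : 0 < dsc A B C) (hψ : ∀ n, ‖ψ n‖ ≤ K) (hr : 0 < r) {ε : ℝ}
    {z : ℂ} (hz : ε ≤ z.im) (n : ℤ × ℤ) :
    ‖ψ n * ex ((qz A B C n.1 n.2 : ℤ) * (r * z))‖ ≤
      K * rexp (-(2 * π * r * ε) * qr A B C n.1 n.2) := by
  rw [norm_mul, norm_ex]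
  have hK : 0 ≤ K := (norm_nonneg _).trans (hψ 0)
  refine mul_le_mul (hψ n) ?_ (Real.exp_pos _).le hK
  apply Real.exp_le_exp.mpr
  have h1 : (((qz A B C n.1 n.2 : ℤ) : ℂ) * (r * z)).im = qr A B C n.1 n.2 * (r * z.im) := by
    rw [← qz_cast]
    simp [Complex.mul_im]
  rw [h1, ← qz_cast]
  have h2 : (0 : ℝ) ≤ (qz A B C n.1 n.2 : ℤ) := by exact_mod_cast qz_nonneg hA hD n
  have h3 : (0 : ℝ) ≤ (qz A B C n.1 n.2 : ℤ) * (2 * π * r) * (z.im - ε) := by
    have := sub_nonneg.mpr hz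
    positivity
  nlinarith [h3]

theorem summable_bound (hA : 0 < A) (hD : 0 < dsc A B C) (hr : 0 < r) {ε : ℝ} (hε : 0 < ε) :
    Summable fun n : ℤ × ℤ => K * rexp (-(2 * π * r * ε) * qr A B C n.1 n.2) := by
  have h1 := summable_gauss₂ (A := A) (B := B) (C := C) (by exact_mod_cast hA) (dsc_pos_cast hD)
    (c := 2 * π * r * ε) (by positivity) 0 0
  simpa using h1.mul_left K

theorem summable_TS (hA : 0 < A) (hD : 0 < dsc A B C) (hψ : ∀ n, ‖ψ n‖ ≤ K) (hr : 0 < r) {z : ℂ}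
    (hz : 0 < z.im) :
    Summable fun n : ℤ × ℤ => ψ n * ex ((qz A B C n.1 n.2 : ℤ) * (r * z)) :=
  Summable.of_norm_bounded (summable_bound (K := K) hA hD hr hz)
    fun n => norm_term_le hA hD hψ hr le_rfl n

theorem differentiableOn_TS (hA : 0 < A) (hD : 0 < dsc A B C) (hψ : ∀ n, ‖ψ n‖ ≤ K) (hr : 0 < r) :
    DifferentiableOn ℂ (TS A B C ψ r) {z | 0 < z.im} := by
  intro z hz
  have hz' : 0 < z.im := hz
  set ε := z.im / 2 with hε
  have hε0 : 0 < ε := by positivity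
  have hU : IsOpen {w : ℂ | ε < w.im} := isOpen_lt continuous_const Complex.continuous_im
  have hzU : z ∈ {w : ℂ | ε < w.im} := by
    show ε < z.im
    rw [hε]; linarith
  have h1 : DifferentiableOn ℂ (TS A B C ψ r) {w : ℂ | ε < w.im} := by
    refine Complex.differentiableOn_tsum_of_summable_norm (summable_bound (K := K) hA hD hr hε0)
      (fun n => ?_) hU (fun n w hw => norm_term_le hA hD hψ hr (le_of_lt hw) n)
    unfold ex
    fun_prop
  exact ((h1 z hzU).differentiableAt (hU.mem_nhds hzU)).differentiableWithinAt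

theorem eventually_imTop (c : ℝ) : ∀ᶠ z : ℂ in imTop, c ≤ z.im :=
  tendsto_comap.eventually (eventually_ge_atTop c)

theorem tendsto_im_imTop : Tendsto Complex.im imTop atTop := tendsto_comap

theorem tendsto_ex {q : ℝ} (hq : 0 < q) : Tendsto (fun z : ℂ => ex (q * z)) imTop (𝓝 0) := by
  rw [tendsto_zero_iff_norm_tendsto_zero]
  have h1 : ∀ z : ℂ, ‖ex (q * z)‖ = rexp (-((2 * π * q) * z.im)) := by
    intro z
    rw [norm_ex, Complex.im_ofReal_mul]
    congr 1; ring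
  simp only [h1]
  apply Real.tendsto_exp_neg_atTop_nhds_zero.comp
  exact tendsto_im_imTop.const_mul_atTop (by positivity)

theorem tendsto_TS (hA : 0 < A) (hD : 0 < dsc A B C) (hψ : ∀ n, ‖ψ n‖ ≤ K) (hr : 0 < r) :
    Tendsto (TS A B C ψ r) imTop (𝓝 (ψ 0)) := by
  have h0 : ψ 0 = ∑' n : ℤ × ℤ, if n = 0 then ψ 0 else 0 := by rw [tsum_ite_eq]
  rw [h0]
  refine tendsto_tsum_of_dominated_convergence (summable_bound (K := K) hA hD hr one_pos)
    (fun n => ?_) ?_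
  · by_cases hn : n = 0
    · subst hn
      rw [if_pos rfl]
      have : (fun z : ℂ => ψ 0 * ex ((qz A B C (0 : ℤ × ℤ).1 (0 : ℤ × ℤ).2 : ℤ) * (r * z))) =
          fun _ => ψ 0 := by
        funext z
        simp [qz, ex_zero]
      rw [this]
      exact tendsto_const_nhds
    · rw [if_neg hn]
      have hq : (0 : ℝ) < (qz A B C n.1 n.2 : ℤ) * r := by
        have : (0 : ℝ) < (qz A B C n.1 n.2 : ℤ) := by exact_mod_cast qz_pos hA hD hn
        positivity
      have h1 := (tendsto_ex hq).const_mul (ψ n)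
      rw [mul_zero] at h1
      refine h1.congr fun z => ?_
      congr 2
      push_cast; ring
  · filter_upwards [eventually_imTop 1] with z hz n
    exact norm_term_le hA hD hψ hr hz n

/-- the adjoint form -/
theorem dsc_adj (A B C : ℤ) : dsc C (-B) A = dsc A B C := by
  simp only [dsc]; ring

theorem C_pos_int (hA : 0 < A) (hD : 0 < dsc A B C) : 0 < C := by
  have := C_pos (A := A) (B := B) (C := C) (by exact_mod_cast hA) (dsc_pos_cast hD)
  exact_mod_cast this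

theorem norm_gsum_le (A B C : ℤ) (f : ℕ) (a : ℤ) (c : ℕ) (h n : ℤ × ℤ) :
    ‖gsum A B C f a c h n‖ ≤ (c : ℝ) * c := by
  rw [gsum]
  refine (norm_sum_le _ _).trans ?_
  have h1 : ∀ s : Fin c × Fin c, ‖ex (((a * qz A B C (h.1 + f * (s.1 : ℕ)) (h.2 + f * (s.2 : ℕ)) +
    (n.1 * (h.1 + f * (s.1 : ℕ)) + n.2 * (h.2 + f * (s.2 : ℕ))) : ℤ) : ℂ) / (c * f))‖ = 1 := by
    intro s
    have : (((a * qz A B C (h.1 + f * (s.1 : ℕ)) (h.2 + f * (s.2 : ℕ)) +
      (n.1 * (h.1 + f * (s.1 : ℕ)) + n.2 * (h.2 + f * (s.2 : ℕ))) : ℤ) : ℂ) / (c * f)) =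
      (((((a * qz A B C (h.1 + f * (s.1 : ℕ)) (h.2 + f * (s.2 : ℕ)) +
      (n.1 * (h.1 + f * (s.1 : ℕ)) + n.2 * (h.2 + f * (s.2 : ℕ))) : ℤ) : ℝ) / (c * f) : ℝ)) : ℂ) := by
      push_cast; ring
    rw [this, norm_ex_real]
  simp only [h1]
  simp

variable {f : ℕ} [NeZero f] {a b d : ℤ} {k : ℕ} [NeZero k]

/-- the constant term of a theta series at the cusp `a / k` -/
theorem tendsto_thz_smul (hA : 0 < A) (hD : 0 < dsc A B C) (hdet : a * d - b * k = 1)
    (h : ℤ × ℤ) :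
    Tendsto (fun z : ℂ => (k * z + d)⁻¹ * thz A B C f h ((a * z + b) / (k * z + d))) imTop
      (𝓝 (-I / (k * f * (√((dsc A B C : ℤ) : ℝ) : ℝ)) * gsum A B C f a k h 0)) := by
  have hf : (0 : ℝ) < f := by exact_mod_cast NeZero.pos f
  have hk : (0 : ℝ) < k := by exact_mod_cast NeZero.pos k
  have hf' : (f : ℂ) ≠ 0 := by exact_mod_cast hf.ne'
  have hk' : (k : ℂ) ≠ 0 := by exact_mod_cast hk.ne'
  have hDr : (0 : ℝ) < (dsc A B C : ℤ) := by exact_mod_cast hD
  have hD0 : ((dsc A B C : ℤ) : ℂ) ≠ 0 := by exact_mod_cast hD.ne'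
  have hC := C_pos_int hA hD
  have hD' : 0 < dsc C (-B) A := by rwa [dsc_adj]
  set ψ : ℤ × ℤ → ℂ := fun n => gsum A B C f a k h n *
    ex (((qz C (-B) A n.1 n.2 * d : ℤ) / ((dsc A B C : ℤ) * k * f) : ℝ) : ℂ) with hψdef
  have hψ : ∀ n, ‖ψ n‖ ≤ (k : ℝ) * k := by
    intro n
    rw [hψdef]
    simp only
    rw [norm_mul, norm_ex_real, mul_one]
    exact norm_gsum_le A B C f a k h n
  have hr : 0 < (1 / ((dsc A B C : ℤ) * f) : ℝ) := by positivity
  have h1 := (tendsto_TS hC hD' hψ hr).const_mul (-I / (k * f * (√((dsc A B C : ℤ) : ℝ) : ℝ)))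
  have h0 : ψ 0 = gsum A B C f a k h 0 := by
    simp [hψdef, qz, ex_zero]
  rw [h0] at h1
  refine h1.congr' ?_
  filter_upwards [eventually_imTop 1] with z hz
  have hz0 : 0 < z.im := by linarith
  have hw : ((k : ℂ) * z + d) ≠ 0 := by
    intro h
    have : ((k : ℂ) * z + d).im = k * z.im := by simp
    rw [h, Complex.zero_im] at this
    have h2 : (0 : ℝ) < k * z.im := by positivity
    rw [← this] at h2
    exact lt_irrefl _ h2
  rw [thz_smul hA hD hdet h hz0, TS]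
  have h2 : ∀ n : ℤ × ℤ, gsum A B C f a k h n *
        ex ((qz C (-B) A n.1 n.2 : ℤ) * (k * z + d) / ((dsc A B C : ℤ) * k * f)) =
      ψ n * ex ((qz C (-B) A n.1 n.2 : ℤ) * ((1 / ((dsc A B C : ℤ) * f) : ℝ) * z)) := by
    intro n
    rw [hψdef]
    simp only
    rw [mul_assoc (gsum A B C f a k h n), ← ex_add]
    congr 2
    push_cast
    push_cast at hD0
    field_simp
    ring
  simp only [h2]
  generalize (∑' n : ℤ × ℤ, ψ n * ex ((qz C (-B) A n.1 n.2 : ℤ) *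
    ((1 / ((dsc A B C : ℤ) * f) : ℝ) * z))) = T
  field_simp

end Fermat.Agent.H18T
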