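import Fermat.Agent.H18T.HeckeSeq

set_option autoImplicit false
set_option linter.all false

/-!
# Hecke operators on forms: coefficients, and lowering the level

-/

noncomputable section

open Module Function Filter Topology UpperHalfPlane Complex
open Fermat.Agent.H29W Fermat.Agent.H24ES Fermat.Agent.H16
open ModularForm
open scoped MatrixGroups Manifold

namespace Fermat.Agent.H18T

section low

variable {W : Type*} [AddCommGroup W] [Module ℂ W] {N N' : ℕ} {ρ : M2 →* Module.End ℂ W} {k : ℤ}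
  {ι : Type*} [Fintype ι] (T : HFam N' ι)

/-- lowering the level by a Hecke family -/
theorem fun_mem_low (hT : ∀ γ i, (N : ℤ) ∣ gm (T.τ γ i) 1 0) {F : ℍ → W}
    (hF : F ∈ vForms N ρ k) : T.fun ρ k F ∈ vForms N' ρ k := by
  refine ⟨fun γ z => ?_, fun φ => ?_⟩
  · show vslash k (gm γ) (fun w => ∑ i, ρ (T.α i).adjugate (vslash k (T.α i) F w)) z = _
    rw [vslash_sum]
    show _ = ρ (gm γ) (∑ i, ρ (T.α i).adjugate (vslash k (T.α i) F z))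
    rw [map_sum, ← Equiv.sum_comp (T.perm γ)
      (fun i => ρ (gm γ) (ρ (T.α i).adjugate (vslash k (T.α i) F z)))]
    refine Finset.sum_congr rfl fun i _ => ?_
    rw [vslash_comp, ← vslash_mul k (T.det_pos i) (det_gm_pos γ), T.spec,
      vslash_mul k (det_gm_pos _) (T.det_pos _)]
    have e : vslash k (gm (T.τ γ i)) F = fun w => ρ (gm (T.τ γ i)) (F w) := by
      funext w
      have := hF.1 (mkG (gm (T.τ γ i)) (det_gm _) (hT γ i)) w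
      rwa [gm_mkG] at this
    rw [e, vslash_comp, rho_adj_tau, T.perm_apply]
  · have e : (fun z => φ (T.fun ρ k F z)) =
        ∑ i, ((fun z => (φ ∘ₗ ρ (T.α i).adjugate) (F z)) ∣[k] iGL (T.α i)) := by
      funext z
      rw [Finset.sum_apply]
      show φ (∑ i, ρ (T.α i).adjugate (vslash k (T.α i) F z)) = _
      rw [map_sum]
      refine Finset.sum_congr rfl fun i _ => ?_
      rw [← dual_vslash k (T.det_pos i)]
      rfl
    rw [e]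
    exact CuspV.sum _ fun i _ => (hF.2 _).comp_iGL (T.det_pos i)

variable {ℓ : ℕ}

theorem UF_tau (hℓ : ℓ.Prime) (hℓN : ℓ ∣ N') (γ : CongruenceSubgroup.Gamma0 N') (i : Fin ℓ) :
    ((ℓ * N' : ℕ) : ℤ) ∣ gm ((UF N' ℓ hℓ hℓN).τ γ i) 1 0 := by
  have h1 := (UF N' ℓ hℓ hℓN).spec γ i
  rw [UF_α] at h1
  have h2 := congrFun (congrFun h1 1) 0
  have h3 : (upM ℓ ((i : ℕ) : ℤ) * gm γ) 1 0 = ℓ * gm γ 1 0 := by
    simp [upM, Matrix.mul_apply, Fin.sum_univ_two]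
  have h4 : (gm ((UF N' ℓ hℓ hℓN).τ γ i) * upM ℓ (((UF N' ℓ hℓ hℓN).σ γ i : ℕ) : ℤ)) 1 0 =
      gm ((UF N' ℓ hℓ hℓN).τ γ i) 1 0 := by
    simp [upM, Matrix.mul_apply, Fin.sum_univ_two]
  rw [← h4, ← h2]
  show _ ∣ (upM ℓ ((i : ℕ) : ℤ) * gm γ) 1 0
  rw [h3]
  push_cast
  exact mul_dvd_mul_left _ (dvd_gm γ)

/-- `U_ℓ` lowers the level from `ℓ N'` to `N'` if `ℓ ∣ N'` -/
theorem U_low (hℓ : ℓ.Prime) (hℓN : ℓ ∣ N') {F : ℍ → W} (hF : F ∈ vForms (ℓ * N') ρ k) :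
    (UF N' ℓ hℓ hℓN).fun ρ k F ∈ vForms N' ρ k :=
  fun_mem_low _ (fun γ i => UF_tau hℓ hℓN γ i) hF

end low

section seq

variable {f : ℕ} [NeZero f] {r : GL (Fin 2) (ZMod f) →* Module.End ℂ ((ZMod f)ˣ → ℂ)}
  (hr : UpT r) {N : ℕ} {k : ℤ} {ℓ : ℕ}

/-- coefficients of `T_ℓ F` -/
theorem coefV_TF (hℓ : ℓ.Prime) (hℓN : ¬ ℓ ∣ N) (hℓf : Nat.Coprime ℓ f)
    (F : vForms N (ofGL f r) k) {n : ℕ} (hn : IsUnit (n : ZMod f)) :
    coefV hr ((TF N ℓ hℓ hℓN).opF (ofGL f r) k F) n = coefV hr F (ℓ * n) +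
      (ℓ : ℂ) ^ (k - 1) * if ℓ ∣ n then coefV hr F (n / ℓ) else 0 := by
  have h1 := hasSeq_coefV hr F
  have h2 := (U_seq hr (k := k) hℓ.pos hℓf h1).add (V_seq hr (k := k) hℓ.pos hℓf h1)
  refine coefV_eq hr _ (a := fun n => coefV hr F (ℓ * n) +
      (ℓ : ℂ) ^ (k - 1) * if ℓ ∣ n then coefV hr F (n / ℓ) else 0) ?_ hn
  have h3 : ((TF N ℓ hℓ hℓN).opF (ofGL f r) k F).1 =
      (fun z => ∑ j : Fin ℓ, ofGL f r (upM ℓ (j : ℕ)).adjugate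
      (vslash k (upM ℓ (j : ℕ)) F.1 z)) +
      (fun z => ofGL f r (diM ℓ).adjugate (vslash k (diM ℓ) F.1 z)) := by
    funext z
    rw [Pi.add_apply]
    show ∑ i, ofGL f r ((TF N ℓ hℓ hℓN).α i).adjugate (vslash k ((TF N ℓ hℓ hℓN).α i) F.1 z) = _
    rw [Fintype.sum_option, add_comm]
    rfl
  rw [h3]
  exact h2

omit [NeZero f] in
/-- `U_ℓ` on functions, without reference to a representation -/
def Ufun [NeZero f] (ℓ : ℕ) (hℓf : Nat.Coprime ℓ f) (F : ℍ → ((ZMod f)ˣ → ℂ)) (z : ℍ)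
    (s : (ZMod f)ˣ) : ℂ :=
  ∑ j : Fin ℓ, ZMod.stdAddChar (-((j : ℕ) : ZMod f) * (s : ZMod f)) * ((ℓ : ℂ)⁻¹ *
        F (iGL (upM ℓ ((j : ℕ) : ℤ)) • z) (ZMod.unitOfCoprime ℓ hℓf * s))

include hr in
theorem Ufun_eq (hℓ : 0 < ℓ) (hℓf : Nat.Coprime ℓ f) (F : ℍ → ((ZMod f)ˣ → ℂ)) :
    Ufun ℓ hℓf F = fun z => ∑ j : Fin ℓ, ofGL f r (upM ℓ (j : ℕ)).adjugate
      (vslash k (upM ℓ (j : ℕ)) F z) := by
  funext z s
  rw [Finset.sum_apply, Ufun]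
  refine Finset.sum_congr rfl fun j _ => ?_
  rw [term_up hr hℓ hℓf, Int.cast_natCast]

include hr in
theorem Ufun_seq (hℓ : 0 < ℓ) (hℓf : Nat.Coprime ℓ f) {F : ℍ → ((ZMod f)ˣ → ℂ)} {a : ℕ → ℂ}
    (ha : HasSeq F a) : HasSeq (Ufun ℓ hℓf F) (fun n => a (ℓ * n)) := by
  rw [Ufun_eq (k := 0) hr hℓ hℓf]
  exact U_seq hr hℓ hℓf ha

include hr in
theorem Ufun_mem (hℓ : ℓ.Prime) (hℓf : Nat.Coprime ℓ f) (hℓN : ℓ ∣ N)
    {F : ℍ → ((ZMod f)ˣ → ℂ)} (hF : F ∈ vForms (ℓ * N) (ofGL f r) k) :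
    Ufun ℓ hℓf F ∈ vForms N (ofGL f r) k := by
  rw [Ufun_eq (k := k) hr hℓ.pos hℓf]
  exact U_low hℓ hℓN hF

end seq

end Fermat.Agent.H18T
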