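import Fermat.Agent.H18T.PhiX

set_option autoImplicit false
set_option linter.all false

/-!
# Main theorem on theta series

-/

noncomputable section

open Module Function Filter Topology UpperHalfPlane
open Fermat.Agent.H29W Fermat.Agent.H24ES
open scoped nonZeroDivisors MatrixGroups Manifold NumberTheorySymbols

namespace Fermat.Agent.H18T

section arith

variable {M f : ℕ} [NeZero M] [NeZero f] {ι : Type*} [Fintype ι] [DecidableEq ι] {k : ι → Type*}
  [∀ i, Field (k i)] [∀ i, Fintype (k i)] [∀ i, DecidableEq (k i)]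
  (E : ZMod f ≃+* ((i : ι) → k i)) {d : ZMod f}
  [hF : ∀ i, Fact (∀ r : k i, r ^ 2 ≠ pr E i d + 0 * r)]

include E in
omit [∀ i, DecidableEq (k i)] in
theorem exists_int_pr (i : ι) (x : k i) : ∃ n : ℤ, (n : k i) = x := by
  classical
  obtain ⟨y, hy⟩ := E.surjective (Pi.single i x)
  refine ⟨(y.val : ℤ), ?_⟩
  have h1 : pr E i ((y.val : ℤ) : ZMod f) = pr E i y := by
    congr 1
    push_cast
    exact ZMod.natCast_zmod_val y
  rw [map_intCast] at h1
  rw [h1, pr_apply, hy, Pi.single_eq_same]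

include hF in
/-- the residue fields are prime fields in which `-2M` is not a square -/
theorem jacobi_card (hd : ((-2 * M : ℤ) : ZMod f) = d) (i : ι) :
    J(-2 * M | Fintype.card (k i)) = -1 := by
  obtain ⟨p, hp⟩ := CharP.exists (k i)
  haveI := hp
  haveI : Fact p.Prime := ⟨CharP.char_is_prime (k i) p⟩
  have hinj : Injective (ZMod.castHom (dvd_refl p) (k i)) := RingHom.injective _
  have hsurj : Surjective (ZMod.castHom (dvd_refl p) (k i)) := by
    intro x
    obtain ⟨n, hn⟩ := exists_int_pr E i x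
    exact ⟨(n : ZMod p), by rw [map_intCast, hn]⟩
  have hcard : Fintype.card (k i) = p := by
    rw [← Fintype.card_of_bijective ⟨hinj, hsurj⟩, ZMod.card]
  rw [hcard, ← jacobiSym.legendreSym.to_jacobiSym, legendreSym.eq_neg_one_iff]
  rintro ⟨r, hr⟩
  apply (hF i).out (ZMod.castHom (dvd_refl p) (k i) r)
  rw [zero_mul, add_zero, ← hd, map_intCast, sq, ← map_mul, ← hr, map_intCast]

include E hF in
theorem chi_f (hd : ((-2 * M : ℤ) : ZMod f) = d) (hf : Nat.Coprime f (8 * M)) :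
    chi M f = (-1) ^ (Fintype.card ι) := by
  have hodd : Odd f := by
    rw [← Nat.coprime_two_right]
    exact Nat.Coprime.coprime_dvd_right (Dvd.intro (4 * M) (by ring)) hf
  have hcard : f = ∏ i, Fintype.card (k i) := by
    rw [← ZMod.card f, Fintype.card_congr E.toEquiv, Fintype.card_pi]
  have key : ∀ s : Finset ι, J(-2 * M | ∏ i ∈ s, Fintype.card (k i)) = (-1) ^ s.card := by
    intro s
    induction s using Finset.induction_on with
    | empty => simp
    | insert a s ha ih =>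
      rw [Finset.prod_insert ha, jacobiSym.mul_right' _ Fintype.card_ne_zero
        (Finset.prod_ne_zero_iff.mpr fun i _ => Fintype.card_ne_zero), ih, jacobi_card E hd,
        Finset.card_insert_of_notMem ha]
      ring
  rw [chi_natCast hodd, hcard, key, Finset.card_univ]

variable {E}

include hF in
theorem prod_qi (D : WData E d ℂ) (hd : ((-2 * M : ℤ) : ZMod f) = d)
    (hf : Nat.Coprime f (8 * M)) : ∏ i, (-D.qi i) = (chi M f : ℂ) / f := by
  have h1 : ∀ i, -D.qi i = -1 * (Fintype.card (k i) : ℂ)⁻¹ := by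
    intro i
    have h2 := D.hq i
    rw [eq_inv_of_mul_eq_one_right h2]
    ring
  have hcard : f = ∏ i, Fintype.card (k i) := by
    rw [← ZMod.card f, Fintype.card_congr E.toEquiv, Fintype.card_pi]
  simp only [h1]
  rw [Finset.prod_mul_distrib, Finset.prod_const, Finset.card_univ, Finset.prod_inv_distrib,
    chi_f E hd hf]
  conv_rhs => rw [hcard]
  push_cast
  rw [div_eq_mul_inv]

/-- `-1` acts trivially -/
theorem kirE_neg_one {Z : Type*} [CommRing Z] [Fintype Z] [DecidableEq Z]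
    {E : Z ≃+* ((i : ι) → k i)} {d : Z} [∀ i, Fact (∀ r : k i, r ^ 2 ≠ pr E i d + 0 * r)]
    {R : Type*} [CommRing R] (D : WData E d R) : kirE D (-1) = 1 := by
  apply LinearMap.ext
  intro φ
  rw [kirE_apply]
  funext s
  have h10 : (((-1 : GL (Fin 2) Z) : GL (Fin 2) Z).1 : Matrix (Fin 2) (Fin 2) Z) 1 0 = 0 := by
    simp
  have h11 : (-1 : Z) * (((-1 : GL (Fin 2) Z) : GL (Fin 2) Z).1 : Matrix (Fin 2) (Fin 2) Z) 1 1 = 1 := by
    simp
  have h00 : (((-1 : GL (Fin 2) Z) : GL (Fin 2) Z).1 : Matrix (Fin 2) (Fin 2) Z) 0 0 = -1 := by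
    simp
  have h01 : (((-1 : GL (Fin 2) Z) : GL (Fin 2) Z).1 : Matrix (Fin 2) (Fin 2) Z) 0 1 = 0 := by
    simp
  rw [Matrix.mulVec, dotProduct, Finset.sum_eq_single s]
  · rw [D.M_apply_of_zero h10 h11, h00, h01, if_pos (by ring), zero_mul, zero_mul,
      AddChar.map_zero_eq_one, one_mul]
    rfl
  · intro t _ hts
    rw [D.M_apply_of_zero h10 h11, h00, if_neg, zero_mul]
    intro h
    exact hts (Units.ext (by rw [h]; ring))
  · intro h; exact absurd (Finset.mem_univ _) h

end arith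

/-! ### the theta series of the order -/

/-- the theta series of the order `ℤ[√-2M]` -/
def theta0 (M : ℕ) (z : ℂ) : ℂ := thz 1 0 (2 * M) 1 0 z

theorem theta0_eq (M : ℕ) (z : ℂ) :
    theta0 M z = ∑' m : ℤ × ℤ, ex (((m.1 ^ 2 + 2 * M * m.2 ^ 2 : ℤ) : ℂ) * z) := by
  rw [theta0, thz]
  refine tsum_congr fun m => ?_
  congr 1
  rw [qz]
  push_cast
  simp

theorem dsc_one (M : ℕ) : dsc 1 0 (2 * M) = 8 * M := by simp only [dsc]; ring

section main

variable {M f : ℕ} [NeZero M] [NeZero f] {ι : Type*} [Fintype ι] [DecidableEq ι] {k : ι → Type*}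
  [∀ i, Field (k i)] [∀ i, Fintype (k i)] [∀ i, DecidableEq (k i)]
  {E : ZMod f ≃+* ((i : ι) → k i)} {d : ZMod f}
  [hF : ∀ i, Fact (∀ r : k i, r ^ 2 ≠ pr E i d + 0 * r)] (D : WData E d ℂ)
  {S : Type*} [CommRing S] [IsDedekindDomain S] [Module.Free ℤ S] [Module.Finite ℤ S]
  [Finite (ClassGroup S)]
  (e : S ≃+* QuadraticAlgebra ℤ (-2 * M : ℤ) 0) (hd : ((-2 * M : ℤ) : ZMod f) = d)
  {X : Ideal S → ℂ}

/-- **Main theorem on theta series**: the product of the theta series of the order with the theta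
series of a character of ideals is a vector valued cusp form of weight two for `Γ₀(8M)`. -/
theorem theta_mem_vForms (hXmul : ∀ a b : Ideal S, X (a * b) = X a * X b)
    (hXξ : ∀ y : S, X (Ideal.span {y}) = xi' D (rdS e hd y))
    (hΨ : ∀ x : ZMod f, D.Ψ x = ZMod.stdAddChar x) (hf1 : 1 < f)
    (hf : Nat.Coprime f (8 * M)) :
    (fun z : ℍ => theta0 M z • phiX (f := f) X z) ∈ vForms (8 * M) (ofGL f (kirE D)) 2 := by
  have hM : (0 : ℤ) < M := by exact_mod_cast NeZero.pos M
  have hD0 : 0 < dsc 1 0 (2 * M) := by rw [dsc_one]; linarith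
  obtain ⟨h1, h2, h3⟩ := phiX_props D e hd hXmul hXξ hΨ (prod_qi D hd hf) hf1 hf
  exact mem_vForms_of D hΨ hf1 hf (theta0_law one_pos (dsc_one M)) h1
    (fun g hg => LimAt_thz one_pos hD0 0 hg) h2 (mdiff_thz one_pos hD0 0) h3

/-- transformation law of the weight one theta series -/
theorem phiX_law (hXmul : ∀ a b : Ideal S, X (a * b) = X a * X b)
    (hXξ : ∀ y : S, X (Ideal.span {y}) = xi' D (rdS e hd y))
    (hΨ : ∀ x : ZMod f, D.Ψ x = ZMod.stdAddChar x) (hf1 : 1 < f)
    (hf : Nat.Coprime f (8 * M)) (g : SL(2, ℤ)) (hg : (8 * M : ℤ) ∣ g 1 0) (z : ℍ) :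
    phiX (f := f) X (g • z : ℍ) = ((chi M (g 1 1) : ℂ) *
      (((g 1 0 : ℤ) : ℂ) * z + ((g 1 1 : ℤ) : ℂ))) •
      (D.M (redSL f g).1).mulVec (phiX (f := f) X z) := by
  obtain ⟨h1, h2, h3⟩ := phiX_props D e hd hXmul hXξ hΨ (prod_qi D hd hf) hf1 hf
  exact (h1 g hg).2 z

/-- transformation law of the theta series of the order -/
theorem theta0_trans (g : SL(2, ℤ)) (hg : (8 * M : ℤ) ∣ g 1 0) (z : ℍ) :
    theta0 M (g • z : ℍ) = ((chi M (g 1 1) : ℂ) *
      (((g 1 0 : ℤ) : ℂ) * z + ((g 1 1 : ℤ) : ℂ))) * theta0 M z :=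
  (theta0_law one_pos (dsc_one M) g hg).2 z

end main

end Fermat.Agent.H18T
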