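import Fermat.Agent.H18T.Unfold

set_option autoImplicit false
set_option linter.all false

/-!
# Theta series of Hecke characters with values in the Kirillov model

-/

noncomputable section

open Module Function Filter Topology UpperHalfPlane
open Fermat.Agent.H29W Fermat.Agent.H24ES
open scoped nonZeroDivisors MatrixGroups Manifold

namespace Fermat.Agent.H18T

section xi

variable {ι : Type*} [Fintype ι] [DecidableEq ι] {k : ι → Type*} [∀ i, Field (k i)]
  [∀ i, Fintype (k i)] [∀ i, DecidableEq (k i)] {Z : Type*} [CommRing Z] [Fintype Z]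
  [DecidableEq Z] {E : Z ≃+* ((i : ι) → k i)} {d : Z}
  [∀ i, Fact (∀ r : k i, r ^ 2 ≠ pr E i d + 0 * r)] {R : Type*} [CommRing R] (D : WData E d R)

/-- the product of the inverses of the local characters -/
def xi' (x : QuadraticAlgebra Z d 0) : R := ∏ i, D.ξ i (qmap (pr E i) d x)⁻¹

theorem xi'_mul (x y : QuadraticAlgebra Z d 0) : xi' D (x * y) = xi' D x * xi' D y := by
  rw [xi', xi', xi', ← Finset.prod_mul_distrib]
  refine Finset.prod_congr rfl fun i _ => ?_
  rw [map_mul, mul_inv, map_mul]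

theorem xi'_one : xi' D 1 = 1 := by
  rw [xi']
  refine Finset.prod_eq_one fun i _ => ?_
  rw [map_one, inv_one, map_one]

theorem kap_eq (x : QuadraticAlgebra Z d 0) (t : Zˣ) :
    D.kap x t = if x.norm = (t : Z) then xi' D x else 0 := by
  rw [WData.kap]
  split_ifs with h
  · rw [xi']
    refine Finset.prod_congr rfl fun i _ => ?_
    rw [Kap, if_pos (by rw [qmap_norm, h])]
  · have h1 : ∃ i, pr E i x.norm ≠ pr E i (t : Z) := by
      by_contra hcon
      push Not at hcon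
      exact h (E.injective (funext hcon))
    obtain ⟨i, hi⟩ := h1
    refine Finset.prod_eq_zero (Finset.mem_univ i) ?_
    rw [Kap, if_neg (by rw [qmap_norm]; exact hi)]

end xi

theorem bounded_of_periodic {f : ℕ} [NeZero f] {Ec : ℤ × ℤ → ℂ}
    (hE : ∀ p q, cong f p q → Ec p = Ec q) : ∃ K : ℝ, ∀ n, ‖Ec n‖ ≤ K := by
  obtain ⟨K, hK⟩ := (Finset.univ.image fun s : Fin f × Fin f =>
    ‖Ec (((s.1 : ℕ) : ℤ), ((s.2 : ℕ) : ℤ))‖).bddAbove
  refine ⟨K, fun n => ?_⟩
  have h1 : Ec n = Ec (((red f n.1 : ℕ) : ℤ), ((red f n.2 : ℕ) : ℤ)) := by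
    symm
    exact hE _ _ ⟨dvd_red f n.1, dvd_red f n.2⟩
  rw [h1]
  apply hK
  simp only [Finset.coe_image, Finset.coe_univ, Set.image_univ, Set.mem_range]
  exact ⟨(red f n.1, red f n.2), rfl⟩

section phi

variable {M f : ℕ} [NeZero M] [NeZero f] {ι : Type*} [Fintype ι] [DecidableEq ι] {k : ι → Type*}
  [∀ i, Field (k i)] [∀ i, Fintype (k i)] [∀ i, DecidableEq (k i)]
  {E : ZMod f ≃+* ((i : ι) → k i)} {d : ZMod f}
  [hF : ∀ i, Fact (∀ r : k i, r ^ 2 ≠ pr E i d + 0 * r)] (D : WData E d ℂ)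
  {S : Type*} [CommRing S] [IsDedekindDomain S] [Module.Free ℤ S] [Module.Finite ℤ S]
  (e : S ≃+* QuadraticAlgebra ℤ (-2 * M : ℤ) 0) (hd : ((-2 * M : ℤ) : ZMod f) = d)

/-- a term of the theta series -/
def GX (X : Ideal S → ℂ) (z : ℂ) (t : (ZMod f)ˣ) (b : Ideal S) : ℂ :=
  if ((Ideal.absNorm b : ℕ) : ZMod f) = t then X b * ex ((Ideal.absNorm b : ℕ) * z / f) else 0

/-- the theta series of a character of ideals -/
def phiX (X : Ideal S → ℂ) (z : ℂ) (t : (ZMod f)ˣ) : ℂ := ∑' b : Ideal S, GX X z t b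

variable {X : Ideal S → ℂ} (hXmul : ∀ a b : Ideal S, X (a * b) = X a * X b)
  (hXξ : ∀ y : S, X (Ideal.span {y}) = xi' D (rdS e hd y))

include hXmul hXξ

theorem hasSum_lattice (hf1 : 1 < f) {a : Ideal S} (ha : a ≠ ⊥) {w₁ w₂ : S} {A B C : ℤ}
    (hA : 0 < A) (hD : 0 < dsc A B C)
    (hmem : ∀ y, y ∈ a ↔ ∃ m n : ℤ, y = m * w₁ + n * w₂)
    (hform : ∀ m n : ℤ, (e (m * w₁ + n * w₂)).norm = (Ideal.absNorm a : ℤ) * qz A B C m n)
    {b : QuadraticAlgebra (ZMod f) d 0} {β : QuadraticAlgebra (ZMod f) d 0 ≃ ZMod f × ZMod f}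
    (hq : ∀ x, qb A B C f (β x) = x.norm)
    (hβ : ∀ m n : ℤ, rdS e hd (m * w₁ + n * w₂) = b * β.symm ((m : ZMod f), (n : ZMod f)))
    {z : ℂ} (hz : 0 < z.im) (t : (ZMod f)ˣ) :
    HasSum (fun p : {p : ℤ × ℤ // p ≠ 0} => X a * GX X z t (quot hmem p.1))
      (xi' D b * ∑ x, D.kap x t * thX A B C β z x) := by
  classical
  haveI : Fact (1 < f) := ⟨hf1⟩
  set Ec : ℤ × ℤ → ℂ := fun p => if qb A B C f ((p.1 : ZMod f), (p.2 : ZMod f)) = t then
    X (Ideal.span {yy w₁ w₂ p}) else 0 with hEc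
  have hEc' : ∀ p : ℤ × ℤ, Ec p = if qb A B C f ((p.1 : ZMod f), (p.2 : ZMod f)) = t then
      xi' D b * xi' D (β.symm ((p.1 : ZMod f), (p.2 : ZMod f))) else 0 := by
    intro p
    rw [hEc]
    simp only
    congr 1
    rw [hXξ, yy, hβ, xi'_mul]
  have hE : ∀ p q, cong f p q → Ec p = Ec q := by
    intro p q hpq
    have e1 : ((p.1 : ZMod f), (p.2 : ZMod f)) = ((q.1 : ZMod f), (q.2 : ZMod f)) := by
      refine Prod.ext ?_ ?_
      · have := (ZMod.intCast_zmod_eq_zero_iff_dvd (p.1 - q.1) f).mpr hpq.1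
        push_cast at this
        exact sub_eq_zero.mp this
      · have := (ZMod.intCast_zmod_eq_zero_iff_dvd (p.2 - q.2) f).mpr hpq.2
        push_cast at this
        exact sub_eq_zero.mp this
    rw [hEc', hEc', e1]
  obtain ⟨K, hK⟩ := bounded_of_periodic hE
  have hfpos : (0 : ℝ) < f := by exact_mod_cast NeZero.pos f
  have hs := summable_TS hA hD hK (r := 1 / f) (by positivity) hz
  have hs' : Summable fun t : ℤ × ℤ => Ec t * ex ((qz A B C t.1 t.2 : ℤ) * z / f) := by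
    refine hs.congr fun t => ?_
    congr 2
    push_cast
    ring
  have h1 := hs'.hasSum
  rw [tsum_periodic' hA hD Ec hE β hz] at h1
  have h2 : ∑ x, Ec (lft (β x)) * thX A B C β z x =
      xi' D b * ∑ x, D.kap x t * thX A B C β z x := by
    rw [Finset.mul_sum]
    refine Finset.sum_congr rfl fun x _ => ?_
    rw [hEc', lft_coe, hq, Equiv.symm_apply_apply, kap_eq]
    split_ifs
    · ring
    · ring
  rw [h2] at h1
  have hsupp : support (fun t : ℤ × ℤ => Ec t * ex ((qz A B C t.1 t.2 : ℤ) * z / f)) ⊆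
      {p : ℤ × ℤ | p ≠ 0} := by
    intro p hp hp0
    apply hp
    have : Ec p = 0 := by
      rw [hEc]
      simp only
      rw [if_neg]
      rw [hp0]
      intro h
      have h3 : (t : ZMod f) = 0 := by
        rw [← h]; simp [qb]
      exact not_isUnit_zero (h3 ▸ t.isUnit)
    simp only [this, zero_mul]
  have h3 := (hasSum_subtype_iff_of_support_subset hsupp).mpr h1
  refine h3.congr_fun ?_
  rintro ⟨p, hp⟩
  show X a * GX X z t (quot hmem p) = Ec p * ex ((qz A B C p.1 p.2 : ℤ) * z / f)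
  have hNa : (Ideal.absNorm a : ℤ) ≠ 0 := by
    have : Ideal.absNorm a ≠ 0 := fun h => ha (Ideal.absNorm_eq_zero_iff.mp h)
    exact_mod_cast this
  have hN : (Ideal.absNorm (quot hmem p) : ℤ) = qz A B C p.1 p.2 := by
    apply mul_left_cancel₀ hNa
    rw [← hform, ← Nat.cast_mul, ← map_mul, quot_spec, absNorm_span e, yy]
  have hN1 : ((Ideal.absNorm (quot hmem p) : ℕ) : ZMod f) =
      qb A B C f ((p.1 : ZMod f), (p.2 : ZMod f)) := by
    rw [← qz_zmod, ← hN, Int.cast_natCast]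
  have hN2 : ((Ideal.absNorm (quot hmem p) : ℕ) : ℂ) = ((qz A B C p.1 p.2 : ℤ) : ℂ) := by
    rw [← hN, Int.cast_natCast]
  rw [GX, hN1, hN2, hEc]
  simp only
  by_cases h : qb A B C f ((p.1 : ZMod f), (p.2 : ZMod f)) = t
  · rw [if_pos h, if_pos h, ← mul_assoc, ← hXmul, quot_spec]
  · rw [if_neg h, if_neg h, mul_zero, zero_mul]

theorem X_ne_zero {a : Ideal S} (hcop : a ⊔ Ideal.span {(f : S)} = ⊤) : X a ≠ 0 := by
  have h1 : (1 : S) ∈ a ⊔ Ideal.span {(f : S)} := by rw [hcop]; trivial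
  obtain ⟨y, hy, t, ht, hyt⟩ := Submodule.mem_sup.mp h1
  obtain ⟨u, rfl⟩ := Ideal.mem_span_singleton.mp ht
  have h2 : rdS e hd y = 1 := by
    have h3 : y = 1 - f * u := by rw [← hyt]; ring
    rw [h3, map_sub, map_one, map_mul, map_natCast, natCast_f_eq_zero, zero_mul, sub_zero]
  obtain ⟨b, hb⟩ := Ideal.dvd_iff_le.mpr ((Ideal.span_singleton_le_iff_mem a).mpr hy)
  have h4 := hXξ y
  rw [hb, hXmul, h2, xi'_one] at h4
  exact left_ne_zero_of_mul_eq_one h4

omit [NeZero M] in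
theorem GX_bot (hf1 : 1 < f) (z : ℂ) (t : (ZMod f)ˣ) : GX X z t ⊥ = 0 := by
  haveI : Fact (1 < f) := ⟨hf1⟩
  rw [GX, if_neg]
  rw [Ideal.absNorm_bot, Nat.cast_zero]
  intro h
  exact not_isUnit_zero (h ▸ t.isUnit)

include hF in
/-- the theta series as a combination of theta vectors of binary forms -/
theorem phiX_eq [Finite (ClassGroup S)] (hf1 : 1 < f) :
    ∃ (A B C : ClassGroup S → ℤ)
      (β : ClassGroup S → (QuadraticAlgebra (ZMod f) d 0 ≃ ZMod f × ZMod f))
      (κ : ClassGroup S → ℂ),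
      (∀ c, 0 < A c ∧ dsc (A c) (B c) (C c) = 8 * M ∧
        (∀ x, qb (A c) (B c) (C c) f (β c x) = x.norm) ∧
        (∀ x y, bb (A c) (B c) (C c) f (β c x) (β c y) = QuadraticAlgebra.trace (x * star y))) ∧
      ∀ (_ : Fintype (ClassGroup S)) (z : ℂ) (_ : 0 < z.im) (t : (ZMod f)ˣ),
        HasSum (GX X z t)
          (∑ c, κ c * ∑ x, D.kap x t * thX (A c) (B c) (C c) (β c) z x) := by
  classical
  have hfS : (f : S) ≠ 0 := by
    intro h
    have h1 := congrArg e h
    rw [map_natCast, map_zero] at h1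
    have h2 := congrArg QuadraticAlgebra.re h1
    rw [QuadraticAlgebra.re_natCast, QuadraticAlgebra.re_zero] at h2
    exact NeZero.ne f (by exact_mod_cast h2)
  have hfu : ¬ IsUnit (f : S) := by
    intro h
    have h1 := h.map e
    rw [map_natCast, QuadraticAlgebra.isUnit_iff_norm_isUnit, QuadraticAlgebra.norm_natCast,
      Int.isUnit_iff] at h1
    have h2 : (1 : ℤ) < f := by exact_mod_cast hf1
    rcases h1 with h1 | h1 <;> nlinarith
  obtain ⟨a, ha, hcop, huniq⟩ := exists_reps (S := S) hfS hfu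
  choose w₁ w₂ A B C hA hD hmem hind hform using fun c => exists_lattice e (ha c)
  have hβ := fun c => (exists_beta E e hd (hmem c) (hform c) (hcop c)).2
  choose b β hbu hbn hq hb hbeta using hβ
  refine ⟨A, B, C, β, fun c => (2 * X (a c))⁻¹ * xi' D (b c),
    fun c => ⟨hA c, hD c, hq c, hb c⟩, fun _ z hz t => ?_⟩
  have hM : (0 : ℤ) < M := by exact_mod_cast NeZero.pos M
  have h1 : ∀ c, HasSum (fun I : Ideal S => if PP (a c) I then GX X z t I else 0)
      ((2 * X (a c))⁻¹ * (xi' D (b c) * ∑ x, D.kap x t * thX (A c) (B c) (C c) (β c) z x)) := by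
    intro c
    have h2 := hasSum_lattice D e hd hXmul hXξ hf1 (ha c) (hA c) (by rw [hD]; linarith) (hmem c)
      (hform c) (hq c) (hbeta c) hz t
    have h3 := hasSum_ideals e (ha c) (hmem c) (hind c) (G := fun I => X (a c) * GX X z t I) h2
    have h4 := h3.mul_left (2 * X (a c))⁻¹
    refine h4.congr_fun fun I => ?_
    have h5 := X_ne_zero D e hd hXmul hXξ (hcop c)
    split_ifs
    · field_simp
    · rw [mul_zero]
  have h6 := hasSum_sum (s := Finset.univ) fun c _ => h1 c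
  have h7 : GX X z t = fun I : Ideal S => ∑ c, if PP (a c) I then GX X z t I else 0 := by
    funext I
    by_cases hI : I = ⊥
    · subst hI
      rw [GX_bot D e hd hXmul hXξ hf1]
      simp
    · obtain ⟨c, hc, hc'⟩ := huniq I hI
      rw [Finset.sum_eq_single c]
      · rw [if_pos hc]
      · intro c' _ hne
        rw [if_neg]
        intro h
        exact hne (hc' c' h)
      · intro h; exact absurd (Finset.mem_univ _) h
  rw [h7]
  have h8 : ∑ c, (2 * X (a c))⁻¹ * xi' D (b c) *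
      ∑ x, D.kap x t * thX (A c) (B c) (C c) (β c) z x =
      ∑ c, (2 * X (a c))⁻¹ * (xi' D (b c) * ∑ x, D.kap x t * thX (A c) (B c) (C c) (β c) z x) :=
    Finset.sum_congr rfl fun c _ => mul_assoc _ _ _
  rw [h8]
  exact h6

end phi

/-! ### linear combinations -/

theorem mdiff_sum {J : Type*} (s : Finset J) (F : J → ℍ → ℂ) (hF' : ∀ j, MDiff (F j)) :
    MDiff fun z => ∑ j ∈ s, F j z := by
  classical
  induction s using Finset.induction_on with
  | empty => simp only [Finset.sum_empty]; exact mdifferentiable_const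
  | insert a s ha ih =>
    simp only [Finset.sum_insert ha]
    exact (hF' a).add ih

section lin

variable {W : Type*} [NormedAddCommGroup W] [NormedSpace ℂ W] [FiniteDimensional ℂ W]
  {M f : ℕ} [NeZero M] [NeZero f] {ρ : SL(2, ZMod f) →* (W →ₗ[ℂ] W)}

omit [FiniteDimensional ℂ W] in
theorem law_sum {J : Type*} (s : Finset J) (κ : J → ℂ) (F : J → ℍ → W) {g : SL(2, ℤ)}
    (h8 : (8 * M : ℤ) ∣ g 1 0) (h : ∀ j, g ∈ lawGroup M f ρ (F j)) :
    g ∈ lawGroup M f ρ (fun z => ∑ j ∈ s, κ j • F j z) := by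
  refine ⟨h8, fun z => ?_⟩
  show ∑ j ∈ s, κ j • F j (g • z) = ((chi M (g 1 1) : ℂ) * jf g z) • ρ (redSL f g)
    (∑ j ∈ s, κ j • F j z)
  rw [map_sum, Finset.smul_sum]
  refine Finset.sum_congr rfl fun j _ => ?_
  rw [(h j).2 z, map_smul, smul_comm]

omit [FiniteDimensional ℂ W] in
theorem lim_sum {J : Type*} (s : Finset J) (κ : J → ℂ) (F : J → ℍ → W) {g : SL(2, ℤ)}
    (h : ∀ j, ∃ c, LimAt (F j) g c) : ∃ c, LimAt (fun z => ∑ j ∈ s, κ j • F j z) g c := by
  choose c hc using h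
  refine ⟨∑ j ∈ s, κ j • c j, ?_⟩
  have h1 : Tendsto (fun z : ℍ => ∑ j ∈ s, κ j • ((jf g z)⁻¹ • F j (g • z))) atImInfty
      (𝓝 (∑ j ∈ s, κ j • c j)) := tendsto_finsetSum s fun j _ => (hc j).const_smul (κ j)
  refine h1.congr fun z => ?_
  rw [Finset.smul_sum]
  refine Finset.sum_congr rfl fun j _ => ?_
  rw [smul_comm]

omit [FiniteDimensional ℂ W] in
theorem law_congr {F G : ℍ → W} (h : F = G) {g : SL(2, ℤ)} (hg : g ∈ lawGroup M f ρ F) :
    g ∈ lawGroup M f ρ G := h ▸ hg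

end lin

section main

variable {M f : ℕ} [NeZero M] [NeZero f] {ι : Type*} [Fintype ι] [DecidableEq ι] {k : ι → Type*}
  [∀ i, Field (k i)] [∀ i, Fintype (k i)] [∀ i, DecidableEq (k i)]
  {E : ZMod f ≃+* ((i : ι) → k i)} {d : ZMod f}
  [hF : ∀ i, Fact (∀ r : k i, r ^ 2 ≠ pr E i d + 0 * r)] (D : WData E d ℂ)
  {S : Type*} [CommRing S] [IsDedekindDomain S] [Module.Free ℤ S] [Module.Finite ℤ S]
  [Finite (ClassGroup S)]
  (e : S ≃+* QuadraticAlgebra ℤ (-2 * M : ℤ) 0) (hd : ((-2 * M : ℤ) : ZMod f) = d)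
  {X : Ideal S → ℂ} (hXmul : ∀ a b : Ideal S, X (a * b) = X a * X b)
  (hXξ : ∀ y : S, X (Ideal.span {y}) = xi' D (rdS e hd y))

include hXmul hXξ

omit [Finite (ClassGroup S)] in
theorem summable_GX [Finite (ClassGroup S)] (hf1 : 1 < f) {z : ℂ} (hz : 0 < z.im)
    (t : (ZMod f)ˣ) : Summable (GX X z t) := by
  obtain ⟨A, B, C, β, κ, h1, h2⟩ := phiX_eq D e hd hXmul hXξ hf1
  haveI : Fintype (ClassGroup S) := Fintype.ofFinite _
  exact (h2 inferInstance z hz t).summable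

/-- all analytic properties of the theta series -/
theorem phiX_props (hΨ : ∀ x : ZMod f, D.Ψ x = ZMod.stdAddChar x)
    (hq : ∏ i, (-D.qi i) = (chi M f : ℂ) / f) (hf1 : 1 < f) (hf : Nat.Coprime f (8 * M)) :
    (∀ g : SL(2, ℤ), (8 * M : ℤ) ∣ g 1 0 → g ∈ lawGroup M f (kirSL D)
      (fun z : ℍ => phiX (f := f) X z)) ∧
    (∀ g : SL(2, ℤ), 0 < g 1 0 → ∃ c, LimAt (fun z : ℍ => phiX (f := f) X z) g c) ∧
    ∀ t, MDiff fun z : ℍ => phiX (f := f) X z t := by
  obtain ⟨A, B, C, β, κ, h1, h2⟩ := phiX_eq D e hd hXmul hXξ hf1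
  haveI : Fintype (ClassGroup S) := Fintype.ofFinite _
  have hM : (0 : ℤ) < M := by exact_mod_cast NeZero.pos M
  have hD0 : ∀ c, 0 < dsc (A c) (B c) (C c) := fun c => by rw [(h1 c).2.1]; linarith
  have h3 : (fun z : ℍ => ∑ c, κ c • D.kap.transpose.mulVec (thX (A c) (B c) (C c) (β c) z)) =
      fun z : ℍ => phiX (f := f) X z := by
    funext z t
    rw [phiX, (h2 inferInstance z z.im_pos t).tsum_eq, Finset.sum_apply]
    refine Finset.sum_congr rfl fun c _ => ?_
    rw [Pi.smul_apply, smul_eq_mul]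
    rfl
  refine ⟨fun g h8 => ?_, fun g hg => ?_, fun t => ?_⟩
  · refine law_congr h3 (law_sum Finset.univ κ
      (fun c (z : ℍ) => D.kap.transpose.mulVec (thX (A c) (B c) (C c) (β c) z)) h8 fun c => ?_)
    obtain ⟨hA, hD, hN, hT⟩ := h1 c
    exact kapT_law D hΨ hq hA hD (β c) hN hT hf g h8
  · rw [← h3]
    refine lim_sum Finset.univ κ
      (fun c (z : ℍ) => D.kap.transpose.mulVec (thX (A c) (B c) (C c) (β c) z)) fun c => ?_
    have h4 : ∀ x, ∃ w : ℂ, LimAt (fun z : ℍ => thX (A c) (B c) (C c) (β c) z x) g w := fun x =>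
      LimAt_thz (h1 c).1 (hD0 c) _ hg
    choose w hw using h4
    refine ⟨D.kap.transpose.mulVec w, ?_⟩
    rw [LimAt, tendsto_pi_nhds]
    intro t
    have h5 : Tendsto (fun z : ℍ => ∑ x, D.kap x t *
        ((jf g z)⁻¹ • thX (A c) (B c) (C c) (β c) (g • z : ℍ) x)) atImInfty
        (𝓝 (∑ x, D.kap x t * w x)) :=
      tendsto_finsetSum _ fun x _ => (hw x).const_mul (D.kap x t)
    refine h5.congr fun z => ?_
    rw [Pi.smul_apply, smul_eq_mul, Matrix.mulVec, dotProduct, Finset.mul_sum]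
    refine Finset.sum_congr rfl fun x _ => ?_
    rw [smul_eq_mul, Matrix.transpose_apply]
    ring
  · have h4 : (fun z : ℍ => phiX (f := f) X z t) = fun z : ℍ => ∑ c, ∑ x,
        (κ c * D.kap x t) * thX (A c) (B c) (C c) (β c) z x := by
      funext z
      rw [phiX, (h2 inferInstance z z.im_pos t).tsum_eq]
      refine Finset.sum_congr rfl fun c _ => ?_
      rw [Finset.mul_sum]
      refine Finset.sum_congr rfl fun x _ => ?_
      rw [mul_assoc]
    rw [h4]
    refine mdiff_sum _ _ fun c => mdiff_sum _ _ fun x => ?_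
    exact mdifferentiable_const.mul (mdiff_thz (h1 c).1 (hD0 c) _)

end main

end Fermat.Agent.H18T
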