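import Fermat.Agent.H18T.Lattice

set_option autoImplicit false
set_option linter.all false

/-!
# Reduction modulo `f` of the lattices

-/

noncomputable section

open Module
open Fermat.Agent.H29W

namespace Fermat.Agent.H18T

section red

variable {M f : ℕ} [NeZero f] {d : ZMod f}

/-- reduction modulo `f` -/
def rdm (hd : ((-2 * M : ℤ) : ZMod f) = d) :
    QuadraticAlgebra ℤ (-2 * M : ℤ) 0 →+* QuadraticAlgebra (ZMod f) d 0 where
  toFun x := ⟨(x.re : ZMod f), (x.im : ZMod f)⟩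
  map_one' := by ext <;> simp [QuadraticAlgebra.re_one, QuadraticAlgebra.im_one]
  map_zero' := by ext <;> simp
  map_add' x y := by ext <;> simp
  map_mul' x y := by
    ext
    · simp only [QuadraticAlgebra.re_mul]
      push_cast
      rw [← hd]; push_cast; ring
    · simp only [QuadraticAlgebra.im_mul]
      push_cast; ring

theorem rdm_norm (hd : ((-2 * M : ℤ) : ZMod f) = d) (x : QuadraticAlgebra ℤ (-2 * M : ℤ) 0) :
    (rdm hd x).norm = ((x.norm : ℤ) : ZMod f) := by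
  subst hd
  rw [quad_norm, QuadraticAlgebra.norm_def]
  show (x.re : ZMod f) * x.re + 0 * x.re * x.im - _ * x.im * x.im = _
  push_cast
  ring

variable {S : Type*} [CommRing S] (e : S ≃+* QuadraticAlgebra ℤ (-2 * M : ℤ) 0)
  (hd : ((-2 * M : ℤ) : ZMod f) = d)

/-- reduction modulo `f` on `S` -/
def rdS : S →+* QuadraticAlgebra (ZMod f) d 0 := (rdm hd).comp (e : S →+* _)

theorem rdS_norm (s : S) : (rdS e hd s).norm = (((e s).norm : ℤ) : ZMod f) := rdm_norm hd _

theorem rdS_surjective : Function.Surjective (rdS e hd) := by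
  intro x
  refine ⟨e.symm ⟨(x.re.val : ℤ), (x.im.val : ℤ)⟩, ?_⟩
  show rdm hd (e (e.symm _)) = x
  rw [RingEquiv.apply_symm_apply]
  ext
  · show (((x.re.val : ℕ) : ℤ) : ZMod f) = x.re
    simp
  · show (((x.im.val : ℕ) : ℤ) : ZMod f) = x.im
    simp

theorem natCast_f_eq_zero : ((f : ℕ) : QuadraticAlgebra (ZMod f) d 0) = 0 := by
  ext
  · rw [QuadraticAlgebra.re_natCast]; simp
  · rw [QuadraticAlgebra.im_natCast]; simp

theorem card_quad : Fintype.card (ZMod f × ZMod f) =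
    Fintype.card (QuadraticAlgebra (ZMod f) d 0) :=
  (Fintype.card_congr (QuadraticAlgebra.equivProd d 0)).symm

/-- the parametrisation of the reduction of the lattice -/
def gam (w₁ w₂ : S) (p : ZMod f × ZMod f) : QuadraticAlgebra (ZMod f) d 0 :=
  p.1 • rdS e hd w₁ + p.2 • rdS e hd w₂

theorem gam_add (w₁ w₂ : S) (p q : ZMod f × ZMod f) :
    gam e hd w₁ w₂ (p + q) = gam e hd w₁ w₂ p + gam e hd w₁ w₂ q := by
  simp only [gam, Prod.fst_add, Prod.snd_add, add_smul]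
  abel

theorem gam_int (w₁ w₂ : S) (m n : ℤ) :
    gam e hd w₁ w₂ ((m : ZMod f), (n : ZMod f)) = rdS e hd (m * w₁ + n * w₂) := by
  rw [gam, map_add, map_mul, map_mul, map_intCast, map_intCast]
  congr 1
  · ext <;> simp
  · ext <;> simp

theorem exists_int_pair (p : ZMod f × ZMod f) : ∃ m n : ℤ, ((m : ZMod f), (n : ZMod f)) = p :=
  ⟨p.1.val, p.2.val, by ext <;> simp⟩

variable {w₁ w₂ : S} {A B C : ℤ} {a : Ideal S}

theorem gam_bijective (hmem : ∀ y, y ∈ a ↔ ∃ m n : ℤ, y = m * w₁ + n * w₂)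
    (hcop : a ⊔ Ideal.span {(f : S)} = ⊤) : Function.Bijective (gam e hd w₁ w₂) := by
  rw [Fintype.bijective_iff_surjective_and_card]
  refine ⟨fun x => ?_, card_quad⟩
  obtain ⟨s, rfl⟩ := rdS_surjective e hd x
  have h1 : (1 : S) ∈ a ⊔ Ideal.span {(f : S)} := by rw [hcop]; trivial
  obtain ⟨y, hy, t, ht, hyt⟩ := Submodule.mem_sup.mp h1
  obtain ⟨u, rfl⟩ := Ideal.mem_span_singleton.mp ht
  obtain ⟨m, n, hmn⟩ := (hmem (y * s)).mp (a.mul_mem_right s hy)
  refine ⟨((m : ZMod f), (n : ZMod f)), ?_⟩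
  rw [gam_int, ← hmn]
  have h2 : s = y * s + f * (u * s) := by
    calc s = 1 * s := (one_mul s).symm
      _ = (y + f * u) * s := by rw [hyt]
      _ = _ := by ring
  conv_rhs => rw [h2]
  rw [map_add, map_mul (rdS e hd) (f : S), map_natCast, natCast_f_eq_zero, zero_mul, add_zero]

theorem gam_norm {N : ℤ} (hform : ∀ m n : ℤ, (e (m * w₁ + n * w₂)).norm = N * qz A B C m n)
    (p : ZMod f × ZMod f) : (gam e hd w₁ w₂ p).norm = (N : ZMod f) * qb A B C f p := by
  obtain ⟨m, n, rfl⟩ := exists_int_pair p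
  rw [gam_int, rdS_norm, hform, ← qz_zmod]
  push_cast
  ring

theorem qb_add (p q : ZMod f × ZMod f) :
    qb A B C f (p + q) = qb A B C f p + qb A B C f q + bb A B C f p q := by
  simp only [qb, bb, Prod.fst_add, Prod.snd_add]
  ring

end red

section norms

variable {ι : Type*} [Fintype ι] [DecidableEq ι] {k : ι → Type*} [∀ i, Field (k i)]
  [∀ i, Fintype (k i)] [∀ i, DecidableEq (k i)] {Z : Type*} [CommRing Z] [Fintype Z]
  [DecidableEq Z] (E : Z ≃+* ((i : ι) → k i)) (d : Z)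
  [hF : ∀ i, Fact (∀ r : k i, r ^ 2 ≠ pr E i d + 0 * r)]

include hF in
theorem exists_norm (t : Z) : ∃ x : QuadraticAlgebra Z d 0, x.norm = t := by
  have h1 : ∀ i, ∃ x : QuadraticAlgebra (k i) (pr E i d) 0, x.norm = pr E i t := fun i =>
    norm_surj (fun r h => (hF i).out r (by rw [h, zero_mul, add_zero])) (pr E i t)
  choose x hx using h1
  refine ⟨(eqA E d).symm x, ?_⟩
  apply E.injective
  funext i
  show pr E i _ = pr E i t
  rw [← qmap_norm, ← eqA_apply, Equiv.apply_symm_apply, hx]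

end norms

section beta

variable {M f : ℕ} [NeZero f] {ι : Type*} [Fintype ι] [DecidableEq ι] {k : ι → Type*}
  [∀ i, Field (k i)] [∀ i, Fintype (k i)] [∀ i, DecidableEq (k i)]
  (E : ZMod f ≃+* ((i : ι) → k i)) {d : ZMod f}
  [hF : ∀ i, Fact (∀ r : k i, r ^ 2 ≠ pr E i d + 0 * r)]
  {S : Type*} [CommRing S] (e : S ≃+* QuadraticAlgebra ℤ (-2 * M : ℤ) 0)
  (hd : ((-2 * M : ℤ) : ZMod f) = d) {w₁ w₂ : S} {A B C : ℤ} {a : Ideal S}

include E hF in
theorem exists_beta {N : ℤ} (hmem : ∀ y, y ∈ a ↔ ∃ m n : ℤ, y = m * w₁ + n * w₂)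
    (hform : ∀ m n : ℤ, (e (m * w₁ + n * w₂)).norm = N * qz A B C m n)
    (hcop : a ⊔ Ideal.span {(f : S)} = ⊤) :
    IsUnit (N : ZMod f) ∧ ∃ (b : QuadraticAlgebra (ZMod f) d 0)
      (β : QuadraticAlgebra (ZMod f) d 0 ≃ ZMod f × ZMod f), IsUnit b ∧
      b.norm = (N : ZMod f) ∧ (∀ x, qb A B C f (β x) = x.norm) ∧
      (∀ x y, bb A B C f (β x) (β y) = QuadraticAlgebra.trace (x * star y)) ∧
      ∀ m n : ℤ, rdS e hd (m * w₁ + n * w₂) = b * β.symm ((m : ZMod f), (n : ZMod f)) := by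
  have hbij := gam_bijective e hd hmem hcop
  have hNu : IsUnit (N : ZMod f) := by
    obtain ⟨p, hp⟩ := hbij.2 1
    have h1 := gam_norm e hd hform p
    rw [hp, map_one] at h1
    exact IsUnit.of_mul_eq_one _ h1.symm
  refine ⟨hNu, ?_⟩
  obtain ⟨b, hb⟩ := exists_norm E d (N : ZMod f)
  have hbu : IsUnit b := by
    rw [QuadraticAlgebra.isUnit_iff_norm_isUnit, hb]; exact hNu
  obtain ⟨b, rfl⟩ := hbu
  let Γ : (ZMod f × ZMod f) ≃ QuadraticAlgebra (ZMod f) d 0 := Equiv.ofBijective _ hbij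
  have hΓ : ∀ p, Γ p = gam e hd w₁ w₂ p := fun p => rfl
  let β : QuadraticAlgebra (ZMod f) d 0 ≃ ZMod f × ZMod f := (Units.mulLeft b).trans Γ.symm
  have hβ : ∀ x, gam e hd w₁ w₂ (β x) = b * x := by
    intro x
    rw [← hΓ]
    show Γ (Γ.symm ((b : QuadraticAlgebra (ZMod f) d 0) * x)) = _
    rw [Equiv.apply_symm_apply]
  have hβadd : ∀ x y, β (x + y) = β x + β y := by
    intro x y
    apply hbij.1
    rw [gam_add, hβ, hβ, hβ, mul_add]
  have hq : ∀ x, qb A B C f (β x) = x.norm := by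
    intro x
    apply hNu.mul_left_cancel
    rw [← gam_norm e hd hform, hβ, map_mul, hb]
  refine ⟨b, β, b.isUnit, hb, hq, fun x y => ?_, fun m n => ?_⟩
  · have h1 := qb_add (A := A) (B := B) (C := C) (β x) (β y)
    rw [← hβadd, hq, hq, hq, norm_add'] at h1
    exact (add_left_cancel h1).symm
  · rw [← hβ, Equiv.apply_symm_apply, gam_int]

end beta

end Fermat.Agent.H18T
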