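import Fermat.Agent.H18T.Main

set_option autoImplicit false
set_option linter.all false

/-!
# Expansions of Kirillov valued forms

-/

noncomputable section

open Module Function Filter Topology UpperHalfPlane Complex
open Fermat.Agent.H29W Fermat.Agent.H24ES Fermat.Agent.H16
open scoped MatrixGroups Manifold

namespace Fermat.Agent.H18T

local notation "𝕢" => Function.Periodic.qParam

section scalar

variable {f : ℕ} [NeZero f]

theorem qParam_pow (n : ℕ) (z : ℂ) : 𝕢 (f : ℝ) z ^ n = ex (n * z / f) := by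
  rw [Function.Periodic.qParam, ← Complex.exp_nat_mul, ex]
  congr 1
  push_cast
  ring

omit [NeZero f] in
theorem hasSum_zero_unique (hf : 0 < (f : ℝ)) {c : ℕ → ℂ}
    (h : ∀ z : ℍ, HasSum (fun n : ℕ => c n • 𝕢 (f : ℝ) z ^ n) (0 : ℂ)) : c = 0 := by
  have h0 : cuspFunction (f : ℝ) (0 : ℍ → ℂ) = 0 := by
    unfold cuspFunction Function.Periodic.cuspFunction
    funext q
    by_cases hq : q = 0
    · subst hq
      simp only [Function.update_self, Pi.zero_apply]
      apply Tendsto.limUnder_eq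
      have : ((0 : ℍ → ℂ) ∘ ofComplex) ∘ Function.Periodic.invQParam (f : ℝ) = fun _ => (0 : ℂ) := by
        funext x; rfl
      rw [this]
      exact tendsto_const_nhds
    · rw [Function.update_of_ne hq]; rfl
  have h1 := hasFPowerSeriesOnBall_cuspFunction (h := (f : ℝ)) (f := (0 : ℍ → ℂ)) (c := c) hf
    (by rw [h0]; exact analyticAt_const) (fun z => h z)
  rw [h0] at h1
  have h2 := h1.hasFPowerSeriesAt.eq_zero
  exact (FormalMultilinearSeries.ofScalars_series_eq_zero (𝕜 := ℂ) (E := ℂ) (c := c)).mp h2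

theorem expansion_unique {g : ℍ → ℂ} {c c' : ℕ → ℂ}
    (h : ∀ z : ℍ, HasSum (fun n : ℕ => c n * ex (n * z / f)) (g z))
    (h' : ∀ z : ℍ, HasSum (fun n : ℕ => c' n * ex (n * z / f)) (g z)) : c = c' := by
  have hf : (0 : ℝ) < f := by exact_mod_cast NeZero.pos f
  rw [← sub_eq_zero]
  apply hasSum_zero_unique hf
  intro z
  have h1 := (h z).sub (h' z)
  rw [sub_self] at h1
  refine h1.congr_fun fun n => ?_
  rw [qParam_pow, smul_eq_mul, Pi.sub_apply]
  ring

theorem periodic_of_stdAddChar {g : ℍ → ℂ} {s : ZMod f}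
    (hg : ∀ (n : ℤ) (z : ℍ), g (Tn n • z) = ZMod.stdAddChar ((n : ZMod f) * s) * g z) :
    Periodic (g ∘ ofComplex) ((f : ℝ) : ℂ) := by
  apply periodic_comp_ofComplex_of
  intro τ hw
  have h1 : (⟨(τ : ℂ) + (f : ℝ), hw⟩ : ℍ) = Tn f • τ := by
    apply UpperHalfPlane.ext
    rw [coe_Tn]
    show (τ : ℂ) + (f : ℝ) = _
    push_cast; rfl
  rw [h1, hg, Int.cast_natCast, ZMod.natCast_self, zero_mul, AddChar.map_zero_eq_one, one_mul]

theorem exists_expansion {g : ℍ → ℂ} {s : ZMod f} (hhol : MDiff g) (hz : IsZeroAtImInfty g)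
    (hg : ∀ (n : ℤ) (z : ℍ), g (Tn n • z) = ZMod.stdAddChar ((n : ZMod f) * s) * g z) :
    ∃ c : ℕ → ℂ, (∀ n : ℕ, (n : ZMod f) ≠ s → c n = 0) ∧
      ∀ z : ℍ, HasSum (fun n : ℕ => c n * ex (n * z / f)) (g z) := by
  have hf : (0 : ℝ) < f := by exact_mod_cast NeZero.pos f
  have hfc : (f : ℂ) ≠ 0 := by exact_mod_cast hf.ne'
  have hper := periodic_of_stdAddChar hg
  have hbdd : IsBoundedAtImInfty g := hz.isBoundedAtImInfty
  set c : ℕ → ℂ := fun n => (qExpansion (f : ℝ) g).coeff n with hc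
  have h1 : ∀ z : ℍ, HasSum (fun n : ℕ => c n * ex (n * z / f)) (g z) := by
    intro z
    refine (hasSum_qExpansion hf hper hhol hbdd z).congr_fun fun n => ?_
    rw [qParam_pow, smul_eq_mul]
  refine ⟨c, fun n hn => ?_, h1⟩
  -- compare `g (z + 1)` in two ways
  have h2 : ∀ z : ℍ, HasSum (fun n : ℕ => (c n * ZMod.stdAddChar (n : ZMod f)) * ex (n * z / f))
      (g (Tn 1 • z)) := by
    intro z
    refine (h1 (Tn 1 • z)).congr_fun fun n => ?_
    have e1 : ((Tn 1 • z : ℍ) : ℂ) = z + 1 := by rw [coe_Tn]; push_cast; rfl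
    have e2 : ex (n * ((Tn 1 • z : ℍ) : ℂ) / f) = ex (n * z / f) * ex ((n : ℤ) / f) := by
      rw [← ex_add, e1]
      congr 1
      push_cast
      field_simp
    rw [e2, ex_zmod, Int.cast_natCast]
    ring
  have h3 : ∀ z : ℍ, HasSum (fun n : ℕ => (c n * ZMod.stdAddChar s) * ex (n * z / f))
      (g (Tn 1 • z)) := by
    intro z
    rw [hg]
    refine ((h1 z).mul_left _).congr_fun fun n => ?_
    rw [Int.cast_one, one_mul]
    ring
  have h4 := congrFun (expansion_unique h2 h3) n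
  by_contra hcn
  apply hn
  exact ZMod.injective_stdAddChar (mul_left_cancel₀ hcn h4)

end scalar

/-! ### Kirillov valued functions as sequences -/

section seq

variable {f : ℕ} [NeZero f]

/-- `F` has the coefficients `a` -/
def HasSeq (F : ℍ → ((ZMod f)ˣ → ℂ)) (a : ℕ → ℂ) : Prop :=
  ∀ (z : ℍ) (t : (ZMod f)ˣ),
    HasSum (fun n : ℕ => if (n : ZMod f) = t then a n * ex (n * z / f) else 0) (F z t)

theorem HasSeq.unique {F : ℍ → ((ZMod f)ˣ → ℂ)} {a b : ℕ → ℂ} (ha : HasSeq F a) (hb : HasSeq F b)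
    {n : ℕ} (hn : IsUnit (n : ZMod f)) : a n = b n := by
  have h1 : (fun m : ℕ => if (m : ZMod f) = hn.unit then a m else 0) =
      fun m : ℕ => if (m : ZMod f) = hn.unit then b m else 0 := by
    apply expansion_unique (f := f) (g := fun z => F z hn.unit)
    · intro z
      refine (ha z hn.unit).congr_fun fun m => ?_
      rw [ite_mul, zero_mul]
    · intro z
      refine (hb z hn.unit).congr_fun fun m => ?_
      rw [ite_mul, zero_mul]
  have h2 := congrFun h1 n
  simpa using h2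

theorem HasSeq.add {F G : ℍ → ((ZMod f)ˣ → ℂ)} {a b : ℕ → ℂ} (ha : HasSeq F a) (hb : HasSeq G b) :
    HasSeq (F + G) (a + b) := by
  intro z t
  refine ((ha z t).add (hb z t)).congr_fun fun n => ?_
  split_ifs
  · rw [Pi.add_apply]; ring
  · rw [add_zero]

theorem HasSeq.smul {F : ℍ → ((ZMod f)ˣ → ℂ)} {a : ℕ → ℂ} (c : ℂ) (ha : HasSeq F a) :
    HasSeq (c • F) (c • a) := by
  intro z t
  refine ((ha z t).mul_left c).congr_fun fun n => ?_
  split_ifs
  · rw [Pi.smul_apply, smul_eq_mul]; ring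
  · rw [mul_zero]

theorem HasSeq.congr {F : ℍ → ((ZMod f)ˣ → ℂ)} {a b : ℕ → ℂ} (ha : HasSeq F a)
    (h : ∀ n : ℕ, IsUnit (n : ZMod f) → a n = b n) : HasSeq F b := by
  intro z t
  refine (ha z t).congr_fun fun n => ?_
  by_cases hn : (n : ZMod f) = t
  · rw [if_pos hn, if_pos hn, h n (by rw [hn]; exact t.isUnit)]
  · rw [if_neg hn, if_neg hn]

/-- representations in which upper triangular matrices act as in the Kirillov model -/
structure UpT (r : GL (Fin 2) (ZMod f) →* Module.End ℂ ((ZMod f)ˣ → ℂ)) : Prop where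
  up : ∀ (A : M2) (_ : A 1 0 = 0) (u v : (ZMod f)ˣ) (_ : ((A 0 0 : ℤ) : ZMod f) = u)
    (_ : ((A 1 1 : ℤ) : ZMod f) = v) (φ : (ZMod f)ˣ → ℂ) (s : (ZMod f)ˣ),
    ofGL f r A φ s = ZMod.stdAddChar (((A 0 1 : ℤ) : ZMod f) * ((v⁻¹ : (ZMod f)ˣ) : ZMod f) *
      (s : ZMod f)) * φ (u * v⁻¹ * s)

variable {r : GL (Fin 2) (ZMod f) →* Module.End ℂ ((ZMod f)ˣ → ℂ)} (hr : UpT r) {N : ℕ} {k : ℤ}

include hr in
theorem exists_seq {F : ℍ → ((ZMod f)ˣ → ℂ)} (hF : F ∈ vForms N (ofGL f r) k) :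
    ∃ a : ℕ → ℂ, HasSeq F a ∧ ∀ n : ℕ, ¬ IsUnit (n : ZMod f) → a n = 0 := by
  classical
  have h1 : ∀ t : (ZMod f)ˣ, ∃ c : ℕ → ℂ, (∀ n : ℕ, (n : ZMod f) ≠ (t : ZMod f) → c n = 0) ∧
      ∀ z : ℍ, HasSum (fun n : ℕ => c n * ex (n * z / f)) (F z t) := by
    intro t
    have hc : Cuspidal fun z => F z t := (hF.2 (LinearMap.proj t)).cuspidal
    refine exists_expansion (g := fun z => F z t) (s := (t : ZMod f)) hc.holo hc.zero
      fun n z => ?_
    have hTn : Tn n ∈ CongruenceSubgroup.Gamma0 N := by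
      rw [CongruenceSubgroup.Gamma0_mem]
      show ((0 : ℤ) : ZMod N) = 0
      simp
    have h2 := (mem_vForms_iff.mp hF).1 ⟨Tn n, hTn⟩ z
    have h3 : ((gm (⟨Tn n, hTn⟩ : CongruenceSubgroup.Gamma0 N) 1 0 : ℂ) * z +
        (gm (⟨Tn n, hTn⟩ : CongruenceSubgroup.Gamma0 N) 1 1 : ℂ)) = 1 := by
      show (((0 : ℤ) : ℂ) * z + ((1 : ℤ) : ℂ)) = 1
      simp
    rw [h3, one_zpow, one_smul] at h2
    show F (Tn n • z) t = _
    have h4 : F (Tn n • z) t = ofGL f r (gm (⟨Tn n, hTn⟩ : CongruenceSubgroup.Gamma0 N)) (F z) t :=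
      congrFun h2 t
    rw [h4, hr.up (gm (⟨Tn n, hTn⟩ : CongruenceSubgroup.Gamma0 N))
      (rfl : (gm (⟨Tn n, hTn⟩ : CongruenceSubgroup.Gamma0 N)) 1 0 = 0) 1 1
      (by show ((1 : ℤ) : ZMod f) = _; simp)
      (by show ((1 : ℤ) : ZMod f) = _; simp)]
    have h5 : (1 : (ZMod f)ˣ) * (1 : (ZMod f)ˣ)⁻¹ * t = t := by group
    rw [h5, inv_one, Units.val_one, mul_one]
    rfl
  choose c hc0 hc using h1
  refine ⟨fun n => if h : IsUnit (n : ZMod f) then c h.unit n else 0, fun z t => ?_, fun n hn => ?_⟩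
  · refine (hc t z).congr_fun fun n => ?_
    by_cases hn : (n : ZMod f) = t
    · have hu : IsUnit (n : ZMod f) := by rw [hn]; exact t.isUnit
      have hut : hu.unit = t := Units.ext hn
      rw [if_pos hn]
      show (if h : IsUnit (n : ZMod f) then c h.unit n else 0) * _ = _
      rw [dif_pos hu, hut]
    · rw [if_neg hn, hc0 t n hn, zero_mul]
  · exact dif_neg hn

/-- the coefficients of a form -/
def coefV : vForms N (ofGL f r) k →ₗ[ℂ] (ℕ → ℂ) where
  toFun F := (exists_seq hr F.2).choose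
  map_add' F G := by
    funext n
    have hF := (exists_seq hr F.2).choose_spec
    have hG := (exists_seq hr G.2).choose_spec
    have hFG := (exists_seq hr (F + G).2).choose_spec
    by_cases hn : IsUnit (n : ZMod f)
    · exact hFG.1.unique (hF.1.add hG.1) hn
    · rw [hFG.2 n hn, Pi.add_apply, hF.2 n hn, hG.2 n hn, add_zero]
  map_smul' c F := by
    funext n
    have hF := (exists_seq hr F.2).choose_spec
    have hcF := (exists_seq hr (c • F).2).choose_spec
    by_cases hn : IsUnit (n : ZMod f)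
    · exact hcF.1.unique (hF.1.smul c) hn
    · rw [hcF.2 n hn, RingHom.id_apply, Pi.smul_apply, hF.2 n hn, smul_zero]

theorem hasSeq_coefV (F : vForms N (ofGL f r) k) : HasSeq F.1 (coefV hr F) :=
  (exists_seq hr F.2).choose_spec.1

theorem coefV_eq_zero (F : vForms N (ofGL f r) k) {n : ℕ} (hn : ¬ IsUnit (n : ZMod f)) :
    coefV hr F n = 0 := (exists_seq hr F.2).choose_spec.2 n hn

theorem coefV_eq (F : vForms N (ofGL f r) k) {a : ℕ → ℂ} (ha : HasSeq F.1 a) {n : ℕ}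
    (hn : IsUnit (n : ZMod f)) : coefV hr F n = a n := (hasSeq_coefV hr F).unique ha hn

theorem coefV_injective : Injective (coefV hr : vForms N (ofGL f r) k →ₗ[ℂ] (ℕ → ℂ)) := by
  intro F G h
  apply Subtype.ext
  funext z t
  have h1 := hasSeq_coefV hr F z t
  have h2 := hasSeq_coefV hr G z t
  rw [h] at h1
  exact h1.unique h2

end seq

/-! ### the Kirillov model -/

theorem upT_kirE {f : ℕ} [NeZero f] {ι : Type*} [Fintype ι] [DecidableEq ι] {k : ι → Type*}
    [∀ i, Field (k i)] [∀ i, Fintype (k i)] [∀ i, DecidableEq (k i)]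
    {E : ZMod f ≃+* ((i : ι) → k i)} {d : ZMod f}
    [∀ i, Fact (∀ r : k i, r ^ 2 ≠ pr E i d + 0 * r)] (D : WData E d ℂ)
    (hΨ : ∀ x : ZMod f, D.Ψ x = ZMod.stdAddChar x) : UpT (kirE D) := by
  refine ⟨fun A h10 u v hu hv φ s => ?_⟩
  have hdet : IsUnit (redM f A).det := by
    rw [det_redM, Matrix.det_fin_two, h10, mul_zero, sub_zero, Int.cast_mul, hu, hv]
    exact u.isUnit.mul v.isUnit
  rw [ofGL_of_isUnit _ hdet, kirE_apply]
  have g10 : (toGLf f A hdet).1 1 0 = 0 := by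
    show ((A 1 0 : ℤ) : ZMod f) = 0
    rw [h10]; simp
  have g11 : (toGLf f A hdet).1 1 1 = v := hv
  have g00 : (toGLf f A hdet).1 0 0 = u := hu
  have g01 : (toGLf f A hdet).1 0 1 = ((A 0 1 : ℤ) : ZMod f) := rfl
  have he : ((v⁻¹ : (ZMod f)ˣ) : ZMod f) * (toGLf f A hdet).1 1 1 = 1 := by
    rw [g11]; exact v.inv_mul
  rw [Matrix.mulVec, dotProduct, Finset.sum_eq_single (u * v⁻¹ * s)]
  · rw [D.M_apply_of_zero g10 he, g00, g01, if_pos, hΨ]
    push_cast; ring
  · intro t _ hts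
    rw [D.M_apply_of_zero g10 he, g00, if_neg, zero_mul]
    intro h
    exact hts (Units.ext (by rw [h]; push_cast; ring))
  · intro h; exact absurd (Finset.mem_univ _) h

end Fermat.Agent.H18T
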