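import Fermat.Agent.H18T.Inv

set_option autoImplicit false
set_option linter.all false

/-!
# The general transformation formula of binary theta series

-/

noncomputable section

open Complex Real Filter Topology

namespace Fermat.Agent.H18T

/-- `exp(2 π i x)` -/
def ex (x : ℂ) : ℂ := cexp (2 * π * I * x)

theorem ex_add (x y : ℂ) : ex (x + y) = ex x * ex y := by
  rw [ex, ex, ex, ← Complex.exp_add]; congr 1; ring

theorem ex_int (n : ℤ) : ex n = 1 := by
  rw [ex, mul_comm]; exact Complex.exp_int_mul_two_pi_mul_I n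

theorem ex_zero : ex 0 = 1 := by simpa using ex_int 0

theorem ex_add_int (x : ℂ) (n : ℤ) : ex (x + n) = ex x := by rw [ex_add, ex_int, mul_one]

theorem ex_eq_of_sub_int {x y : ℂ} {n : ℤ} (h : x - y = n) : ex x = ex y := by
  have : x = y + n := by rw [← h]; ring
  rw [this, ex_add_int]

/-- integral binary quadratic form -/
def qz (A B C x y : ℤ) : ℤ := A * x ^ 2 + B * x * y + C * y ^ 2

theorem qz_cast (A B C x y : ℤ) : ((qz A B C x y : ℤ) : ℝ) = qr A B C x y := by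
  rw [qz, qr]; push_cast; ring

/-- splitting a lattice sum into residue classes -/
theorem tsum_split (F : ℤ × ℤ → ℂ) (hF : Summable F) (c : ℕ) [NeZero c] :
    ∑' p, F p = ∑ s : Fin c × Fin c, ∑' m : ℤ × ℤ,
      F ((s.1 : ℤ) + c * m.1, (s.2 : ℤ) + c * m.2) := by
  let e : (Fin c × Fin c) × (ℤ × ℤ) ≃ ℤ × ℤ :=
    ((Equiv.prodComm _ _).trans (Equiv.prodProdProdComm ℤ ℤ (Fin c) (Fin c))).trans
      (Equiv.prodCongr (Int.divModEquiv c).symm (Int.divModEquiv c).symm)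
  have he : ∀ x, e x = ((x.1.1 : ℤ) + c * x.2.1, (x.1.2 : ℤ) + c * x.2.2) := by
    intro x
    have h1 : e x = ((x.2.1 * c + (x.1.1 : ℕ) : ℤ), (x.2.2 * c + (x.1.2 : ℕ) : ℤ)) := rfl
    rw [h1]
    ext <;> simp <;> ring
  rw [← e.tsum_eq F]
  have hs : Summable fun x => F (e x) := (e.summable_iff).mpr hF
  rw [hs.tsum_prod, tsum_fintype]
  refine Finset.sum_congr rfl fun s _ => tsum_congr fun m => ?_
  rw [he]

variable (A B C : ℤ) (f : ℕ)

/-- theta series of the coset `h` modulo `f` -/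
def thz (h : ℤ × ℤ) (z : ℂ) : ℂ :=
  ∑' m : ℤ × ℤ, ex ((qz A B C (h.1 + f * m.1) (h.2 + f * m.2) : ℤ) * z / f)

/-- the discriminant -/
abbrev dsc (A B C : ℤ) : ℤ := 4 * A * C - B ^ 2

/-- the incomplete Gauss sum -/
def gsum (a : ℤ) (c : ℕ) (h n : ℤ × ℤ) : ℂ :=
  ∑ s : Fin c × Fin c, ex (((a * qz A B C (h.1 + f * (s.1 : ℕ)) (h.2 + f * (s.2 : ℕ)) +
    (n.1 * (h.1 + f * (s.1 : ℕ)) + n.2 * (h.2 + f * (s.2 : ℕ))) : ℤ) : ℂ) / (c * f))

variable {A B C f}

theorem dsc_pos_cast (hD : 0 < dsc A B C) : (0 : ℝ) < 4 * (A : ℝ) * C - (B : ℝ) ^ 2 := by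
  have : ((dsc A B C : ℤ) : ℝ) = 4 * (A : ℝ) * C - (B : ℝ) ^ 2 := by push_cast; ring
  rw [← this]
  exact_mod_cast hD

theorem summable_thz (hA : 0 < A) (hD : 0 < dsc A B C) [NeZero f] (h : ℤ × ℤ) {z : ℂ}
    (hz : 0 < z.im) :
    Summable fun m : ℤ × ℤ => ex ((qz A B C (h.1 + f * m.1) (h.2 + f * m.2) : ℤ) * z / f) := by
  have hf : (0 : ℝ) < f := by exact_mod_cast NeZero.pos f
  have hf' : (f : ℂ) ≠ 0 := by exact_mod_cast hf.ne'
  have h1 := summable_theta (A := A) (B := B) (C := C) (by exact_mod_cast hA) (dsc_pos_cast hD)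
    (τ := (f : ℝ) * z) (by rw [Complex.im_ofReal_mul]; positivity) (h.1 / f) (h.2 / f)
  refine h1.congr fun m => ?_
  rw [ex]
  congr 1
  rw [qz, qr]
  push_cast
  field_simp
  ring

variable [NeZero f] {a b c d : ℤ} {k : ℕ} [NeZero k]

/-- the general transformation formula -/
theorem thz_smul (hA : 0 < A) (hD : 0 < dsc A B C) (hdet : a * d - b * k = 1) (h : ℤ × ℤ) {z : ℂ}
    (hz : 0 < z.im) :
    thz A B C f h ((a * z + b) / (k * z + d)) =
      (-I * (k * z + d)) / (k * f * (√((dsc A B C : ℤ) : ℝ) : ℝ)) *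
      ∑' n : ℤ × ℤ, gsum A B C f a k h n *
        ex ((qz C (-B) A n.1 n.2 : ℤ) * (k * z + d) / ((dsc A B C : ℤ) * k * f)) := by
  have hf : (0 : ℝ) < f := by exact_mod_cast NeZero.pos f
  have hk : (0 : ℝ) < k := by exact_mod_cast NeZero.pos k
  have hf' : (f : ℂ) ≠ 0 := by exact_mod_cast hf.ne'
  have hk' : (k : ℂ) ≠ 0 := by exact_mod_cast hk.ne'
  set w : ℂ := k * z + d with hw
  have hwim : 0 < w.im := by
    have : w.im = k * z.im := by rw [hw]; simp
    rw [this]; positivity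
  have hw0 : w ≠ 0 := fun h => by rw [h, Complex.zero_im] at hwim; exact lt_irrefl _ hwim
  have hgz : (a * z + b) / w = a / k - 1 / (k * w) := by
    have h1 : ((a : ℂ) * d - b * k) = 1 := by exact_mod_cast congrArg (fun n : ℤ => (n : ℂ)) hdet
    field_simp
    rw [hw]
    linear_combination -h1
  have hgim : 0 < ((a * z + b) / w).im := by
    rw [hgz, Complex.sub_im]
    have h1 : ((a : ℂ) / k).im = 0 := by
      have : ((a : ℂ) / k) = ((a / k : ℝ) : ℂ) := by push_cast; ring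
      rw [this, Complex.ofReal_im]
    have h2 := im_neg_inv hwim hk
    rw [neg_div, Complex.neg_im] at h2
    push_cast at h2
    rw [h1]
    linarith
  have hA' : (0 : ℝ) < A := by exact_mod_cast hA
  have hDr := dsc_pos_cast hD
  have hDc : ((dsc A B C : ℤ) : ℝ) = 4 * (A : ℝ) * C - (B : ℝ) ^ 2 := by push_cast; ring
  set τ : ℂ := ((k * f : ℝ) : ℂ) * (-1 / w) with hτ
  have hτim : 0 < τ.im := by
    rw [hτ, Complex.im_ofReal_mul]
    have := im_neg_inv hwim one_pos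
    rw [Complex.ofReal_one, one_mul] at this
    positivity
  -- splitting
  rw [thz, tsum_split _ (summable_thz hA hD h hgim) k]
  -- each residue class
  have key : ∀ s : Fin k × Fin k, ∑' m : ℤ × ℤ,
      ex ((qz A B C (h.1 + f * ((s.1 : ℤ) + k * m.1)) (h.2 + f * ((s.2 : ℤ) + k * m.2)) : ℤ) *
        ((a * z + b) / w) / f) = (-I * w) / (k * f * (√((dsc A B C : ℤ) : ℝ) : ℝ)) *
      ∑' n : ℤ × ℤ, ex (((a * qz A B C (h.1 + f * (s.1 : ℕ)) (h.2 + f * (s.2 : ℕ)) +
        (n.1 * (h.1 + f * (s.1 : ℕ)) + n.2 * (h.2 + f * (s.2 : ℕ))) : ℤ) : ℂ) / (k * f)) *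
        ex ((qz C (-B) A n.1 n.2 : ℤ) * w / ((dsc A B C : ℤ) * k * f)) := by
    intro s
    have h1 := inversion (A := A) (B := B) (C := C) hA' hDr ((h.1 + f * (s.1 : ℕ)) / (k * f))
      ((h.2 + f * (s.2 : ℕ)) / (k * f)) hτim
    calc _ = ∑' m : ℤ × ℤ, ex ((a * qz A B C (h.1 + f * (s.1 : ℕ)) (h.2 + f * (s.2 : ℕ)) : ℤ) /
        (k * f)) * cexp (2 * π * I * (qr A B C (m.1 + (h.1 + f * (s.1 : ℕ)) / (k * f))
          (m.2 + (h.2 + f * (s.2 : ℕ)) / (k * f)) : ℝ) * τ) := by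
          refine tsum_congr fun m => ?_
          have h2 : cexp (2 * π * I * (qr A B C (m.1 + (h.1 + f * (s.1 : ℕ)) / (k * f))
            (m.2 + (h.2 + f * (s.2 : ℕ)) / (k * f)) : ℝ) * τ) =
              ex ((qr A B C (m.1 + (h.1 + f * (s.1 : ℕ)) / (k * f))
            (m.2 + (h.2 + f * (s.2 : ℕ)) / (k * f)) : ℝ) * τ) := by rw [ex]; congr 1; ring
          rw [h2, ← ex_add]
          apply ex_eq_of_sub_int (n := a * (A * (2 * (h.1 + f * (s.1 : ℕ)) * m.1 +
            k * f * m.1 ^ 2) + B * ((h.1 + f * (s.1 : ℕ)) * m.2 + (h.2 + f * (s.2 : ℕ)) * m.1 +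
              k * f * m.1 * m.2) + C * (2 * (h.2 + f * (s.2 : ℕ)) * m.2 + k * f * m.2 ^ 2)))
          rw [hgz, hτ, qr, qz, qz]
          push_cast
          field_simp
          ring
      _ = _ := by
          rw [tsum_mul_left, h1]
          have h3 : I / (τ * (√(4 * (A : ℝ) * C - (B : ℝ) ^ 2) : ℝ)) =
              (-I * w) / (k * f * (√((dsc A B C : ℤ) : ℝ) : ℝ)) := by
            rw [hDc, hτ]
            have : ((√(4 * (A : ℝ) * C - (B : ℝ) ^ 2) : ℝ) : ℂ) ≠ 0 := by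
              exact_mod_cast (Real.sqrt_pos.mpr hDr).ne'
            push_cast
            field_simp
          rw [h3, mul_left_comm]
          congr 1
          rw [← tsum_mul_left]
          refine tsum_congr fun n => ?_
          have h4 : cexp (2 * π * I * (qr C (-B) A n.1 n.2 : ℝ) *
              (-1 / ((4 * (A : ℝ) * C - (B : ℝ) ^ 2 : ℝ) * τ)) + 2 * π * I *
              (n.1 * ((((h.1 + f * (s.1 : ℕ)) / (k * f) : ℝ)) : ℂ) +
                n.2 * ((((h.2 + f * (s.2 : ℕ)) / (k * f) : ℝ)) : ℂ))) =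
              ex ((qr C (-B) A n.1 n.2 : ℝ) *
              (-1 / ((4 * (A : ℝ) * C - (B : ℝ) ^ 2 : ℝ) * τ)) +
              (n.1 * ((((h.1 + f * (s.1 : ℕ)) / (k * f) : ℝ)) : ℂ) +
                n.2 * ((((h.2 + f * (s.2 : ℕ)) / (k * f) : ℝ)) : ℂ))) := by
            rw [ex]; congr 1; ring
          rw [h4, ← ex_add, ← ex_add]
          congr 1
          have hD0 : ((4 * (A : ℝ) * C - (B : ℝ) ^ 2 : ℝ) : ℂ) ≠ 0 := by exact_mod_cast hDr.ne'
          have hD1 : ((dsc A B C : ℤ) : ℂ) = ((4 * (A : ℝ) * C - (B : ℝ) ^ 2 : ℝ) : ℂ) := by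
            push_cast; ring
          rw [hD1, hτ, qr, qz, qz]
          push_cast
          push_cast at hD0
          field_simp
          ring
  simp only [key]
  rw [← Finset.mul_sum]
  congr 1
  rw [← Summable.tsum_finsetSum]
  · refine tsum_congr fun n => ?_
    rw [gsum, Finset.sum_mul]
  · intro s _
    apply Summable.of_norm
    have hC' := C_pos hA' hDr
    have hD' : 0 < 4 * (C : ℝ) * A - (-(B : ℝ)) ^ 2 := by linarith
    have h5 : (0 : ℝ) < 2 * π * (w / ((dsc A B C : ℤ) * k * f)).im := by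
      have h6 : w / ((dsc A B C : ℤ) * k * f) =
          ((1 / ((4 * (A : ℝ) * C - (B : ℝ) ^ 2) * k * f) : ℝ) : ℂ) * w := by
        push_cast; field_simp
      rw [h6, Complex.im_ofReal_mul]
      positivity
    have h1 := summable_gauss₂ (A := C) (B := -B) (C := A) hC' hD' h5 0 0
    refine h1.congr fun n => ?_
    have h7 : ex (((a * qz A B C (h.1 + f * (s.1 : ℕ)) (h.2 + f * (s.2 : ℕ)) +
        (n.1 * (h.1 + f * (s.1 : ℕ)) + n.2 * (h.2 + f * (s.2 : ℕ))) : ℤ) : ℂ) / (k * f)) =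
        cexp (((2 * π * (((a * qz A B C (h.1 + f * (s.1 : ℕ)) (h.2 + f * (s.2 : ℕ)) +
        (n.1 * (h.1 + f * (s.1 : ℕ)) + n.2 * (h.2 + f * (s.2 : ℕ))) : ℤ) : ℝ) / (k * f)) : ℝ) : ℂ)
          * I) := by
      rw [ex]; congr 1; push_cast; ring
    have h8 : ex ((qz C (-B) A n.1 n.2 : ℤ) * w / ((dsc A B C : ℤ) * k * f)) =
        cexp (2 * π * I * ((qz C (-B) A n.1 n.2 : ℤ) : ℝ) * (w / ((dsc A B C : ℤ) * k * f))) := by
      rw [ex]; congr 1; push_cast; ring
    rw [norm_mul, h7, Complex.norm_exp_ofReal_mul_I, one_mul, h8, norm_exp_qr, qz_cast, add_zero,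
      add_zero]
    push_cast
    rfl

end Fermat.Agent.H18T
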