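import Fermat.Agent.H18T.Reduce

set_option autoImplicit false
set_option linter.all false

/-!
# Sums over ideals as sums over lattices

-/

noncomputable section

open Module Function Filter Topology
open Fermat.Agent.H29W
open scoped nonZeroDivisors

namespace Fermat.Agent.H18T

/-! ### representatives of the class group prime to `f` -/

section reps

variable {S : Type*} [CommRing S] [IsDedekindDomain S]

/-- `a b` is principal and non-zero -/
def PP (a b : Ideal S) : Prop := ∃ y : S, y ≠ 0 ∧ a * b = Ideal.span {y}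

theorem PP_bot (a : Ideal S) : ¬ PP a ⊥ := by
  rintro ⟨y, hy, h⟩
  rw [Ideal.mul_bot] at h
  exact hy (Ideal.span_singleton_eq_bot.mp h.symm)

theorem PP_iff {a b : Ideal S} (ha : a ∈ (Ideal S)⁰) (hb : b ∈ (Ideal S)⁰) :
    PP a b ↔ ClassGroup.mk0 ⟨a, ha⟩ = (ClassGroup.mk0 ⟨b, hb⟩)⁻¹ := by
  rw [ClassGroup.mk0_eq_mk0_inv_iff]
  rfl

theorem exists_rep_coprime {x : S} (hx0 : x ≠ 0) (hx : ¬ IsUnit x) (c : ClassGroup S) :
    ∃ (a : Ideal S) (ha : a ∈ (Ideal S)⁰), ClassGroup.mk0 ⟨a, ha⟩ = c ∧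
      a ⊔ Ideal.span {x} = ⊤ := by
  obtain ⟨⟨I, hI⟩, hIc⟩ := ClassGroup.mk0_surjective c⁻¹
  have hI0 : I ≠ ⊥ := nonZeroDivisors.coe_ne_zero ⟨I, hI⟩
  have hspan : Ideal.span {x} ≠ (⊥ : Ideal S) := by rwa [Ne, Ideal.span_singleton_eq_bot]
  have h1 : Ideal.span {x} * I ≤ I := Ideal.mul_le_right
  have h2 : Ideal.span {x} * I ≠ 0 := mul_ne_zero hspan hI0
  obtain ⟨y, hy⟩ := IsDedekindDomain.exists_sup_span_eq h1 h2
  have h3 : Ideal.span {y} ≤ I := by rw [← hy]; exact le_sup_right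
  obtain ⟨J, hJ⟩ := Ideal.dvd_iff_le.mpr h3
  have h4 : I * (J ⊔ Ideal.span {x}) = I * ⊤ := by
    rw [Ideal.mul_top, Ideal.mul_sup, ← hJ, sup_comm, mul_comm I (Ideal.span {x})]
    exact hy
  have h5 : J ⊔ Ideal.span {x} = ⊤ := mul_left_cancel₀ hI0 h4
  have hJ0 : J ≠ ⊥ := by
    intro h
    rw [h, bot_sup_eq, Ideal.span_singleton_eq_top] at h5
    exact hx h5
  have hJ' : J ∈ (Ideal S)⁰ := mem_nonZeroDivisors_of_ne_zero hJ0
  refine ⟨J, hJ', ?_, h5⟩
  have h6 : PP J I := by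
    refine ⟨y, ?_, by rw [hJ, mul_comm]⟩
    rintro rfl
    rw [Ideal.span_singleton_eq_bot.mpr rfl] at hJ
    exact mul_ne_zero hI0 hJ0 hJ.symm
  rw [PP_iff hJ' hI] at h6
  rw [h6, hIc, inv_inv]

theorem exists_reps [Finite (ClassGroup S)] {x : S} (hx0 : x ≠ 0) (hx : ¬ IsUnit x) :
    ∃ a : ClassGroup S → Ideal S, (∀ c, a c ≠ ⊥) ∧ (∀ c, a c ⊔ Ideal.span {x} = ⊤) ∧
      ∀ b : Ideal S, b ≠ ⊥ → ∃! c, PP (a c) b := by
  choose a ha h1 h2 using fun c : ClassGroup S => exists_rep_coprime hx0 hx c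
  refine ⟨a, fun c => nonZeroDivisors.coe_ne_zero ⟨a c, ha c⟩, h2, fun b hb => ?_⟩
  have hb' : b ∈ (Ideal S)⁰ := mem_nonZeroDivisors_of_ne_zero hb
  refine ⟨(ClassGroup.mk0 ⟨b, hb'⟩)⁻¹, ?_, fun c hc => ?_⟩
  · show PP _ b
    rw [PP_iff (ha _) hb', h1]
  · have hc' : PP (a c) b := hc
    rw [PP_iff (ha _) hb', h1] at hc'
    exact hc'

end reps

/-! ### fibres -/

section fibres

variable {S : Type*} [CommRing S] [IsDedekindDomain S] [Module.Free ℤ S] [Module.Finite ℤ S]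
  {M : ℕ} [NeZero M] (e : S ≃+* QuadraticAlgebra ℤ (-2 * M : ℤ) 0)

include e in
theorem associated_iff {x y : S} : Associated x y ↔ y = x ∨ y = -x := by
  constructor
  · rintro ⟨u, rfl⟩
    have h1 : IsUnit (e (u : S)) := u.isUnit.map e
    rw [QuadraticAlgebra.isUnit_iff_norm_isUnit, Int.isUnit_iff] at h1
    have h2 := nm_nonneg e (u : S)
    have h3 : (e (u : S)).norm = 1 := by omega
    rw [quad_norm] at h3
    have hM : (0 : ℤ) < M := by exact_mod_cast NeZero.pos M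
    have him : (e (u : S)).im = 0 := by
      by_contra h
      have h4 : 0 < (e (u : S)).im ^ 2 := by positivity
      nlinarith [sq_nonneg (e (u : S)).re]
    rw [him] at h3
    have hre : (e (u : S)).re = 1 ∨ (e (u : S)).re = -1 := by
      have h5 : ((e (u : S)).re - 1) * ((e (u : S)).re + 1) = 0 := by linarith
      rcases mul_eq_zero.mp h5 with h | h
      · left; linarith
      · right; linarith
    rcases hre with h | h
    · left
      have : (u : S) = 1 := by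
        apply e.injective
        rw [map_one]
        exact QuadraticAlgebra.ext h him
      rw [this, mul_one]
    · right
      have : (u : S) = -1 := by
        apply e.injective
        rw [map_neg, map_one]
        exact QuadraticAlgebra.ext h (by rw [him]; simp [QuadraticAlgebra.im_one])
      rw [this, mul_neg, mul_one]
  · rintro (rfl | rfl)
    · exact Associated.refl _
    · exact ⟨-1, by simp⟩

variable {a : Ideal S} {w₁ w₂ : S}

/-- elements of the lattice -/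
def yy (w₁ w₂ : S) (p : ℤ × ℤ) : S := (p.1 : S) * w₁ + p.2 * w₂

omit [IsDedekindDomain S] [Module.Free ℤ S] [Module.Finite ℤ S] in
theorem yy_sub (w₁ w₂ : S) (p q : ℤ × ℤ) : yy w₁ w₂ p - yy w₁ w₂ q =
    ((p.1 - q.1 : ℤ) : S) * w₁ + ((p.2 - q.2 : ℤ) : S) * w₂ := by
  rw [yy, yy]; push_cast; ring

omit [IsDedekindDomain S] [Module.Free ℤ S] [Module.Finite ℤ S] in
theorem yy_inj (hind : ∀ m n : ℤ, (m : S) * w₁ + n * w₂ = 0 → m = 0 ∧ n = 0) {p q : ℤ × ℤ}
    (h : yy w₁ w₂ p = yy w₁ w₂ q) : p = q := by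
  have h1 := yy_sub w₁ w₂ p q
  rw [h, sub_self] at h1
  obtain ⟨h2, h3⟩ := hind _ _ h1.symm
  exact Prod.ext (by linarith) (by linarith)

omit [IsDedekindDomain S] [Module.Free ℤ S] [Module.Finite ℤ S] in
theorem yy_neg (w₁ w₂ : S) (p : ℤ × ℤ) : yy w₁ w₂ (-p) = - yy w₁ w₂ p := by
  rw [yy, yy, Prod.fst_neg, Prod.snd_neg]; push_cast; ring

omit [IsDedekindDomain S] [Module.Free ℤ S] [Module.Finite ℤ S] in
theorem yy_zero (w₁ w₂ : S) : yy w₁ w₂ 0 = 0 := by
  rw [yy]; simp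

theorem exists_quot (hmem : ∀ y, y ∈ a ↔ ∃ m n : ℤ, y = m * w₁ + n * w₂) (p : ℤ × ℤ) :
    ∃ b : Ideal S, a * b = Ideal.span {yy w₁ w₂ p} := by
  have h : Ideal.span {yy w₁ w₂ p} ≤ a := by
    rw [Ideal.span_singleton_le_iff_mem, hmem]
    exact ⟨p.1, p.2, rfl⟩
  obtain ⟨b, hb⟩ := Ideal.dvd_iff_le.mpr h
  exact ⟨b, hb.symm⟩

/-- the quotient ideal -/
def quot (hmem : ∀ y, y ∈ a ↔ ∃ m n : ℤ, y = m * w₁ + n * w₂) (p : ℤ × ℤ) : Ideal S :=
  (exists_quot hmem p).choose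

theorem quot_spec (hmem : ∀ y, y ∈ a ↔ ∃ m n : ℤ, y = m * w₁ + n * w₂) (p : ℤ × ℤ) :
    a * quot hmem p = Ideal.span {yy w₁ w₂ p} := (exists_quot hmem p).choose_spec

include e in
theorem card_fibre (ha : a ≠ ⊥) (hmem : ∀ y, y ∈ a ↔ ∃ m n : ℤ, y = m * w₁ + n * w₂)
    (hind : ∀ m n : ℤ, (m : S) * w₁ + n * w₂ = 0 → m = 0 ∧ n = 0) {b : Ideal S} (hb : PP a b) :
    Nat.card ((fun p : {p : ℤ × ℤ // p ≠ 0} => quot hmem p.1) ⁻¹' {b}) = 2 := by
  obtain ⟨y, hy0, hy⟩ := hb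
  have hya : y ∈ a := by
    rw [← Ideal.span_singleton_le_iff_mem, ← hy]
    exact Ideal.mul_le_left
  obtain ⟨m, n, hmn⟩ := (hmem y).mp hya
  set p0 : ℤ × ℤ := (m, n) with hp0
  have hyp : yy w₁ w₂ p0 = y := hmn.symm
  have hp00 : p0 ≠ 0 := by
    intro h
    rw [h, yy_zero] at hyp
    exact hy0 hyp.symm
  have hset : ((fun p : {p : ℤ × ℤ // p ≠ 0} => quot hmem p.1) ⁻¹' {b}) =
      {⟨p0, hp00⟩, ⟨-p0, neg_ne_zero.mpr hp00⟩} := by
    ext p
    rw [Set.mem_preimage, Set.mem_singleton_iff, Set.mem_insert_iff, Set.mem_singleton_iff]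
    have h1 : quot hmem p.1 = b ↔ Ideal.span {y} = Ideal.span {yy w₁ w₂ p.1} := by
      rw [← hy, ← quot_spec hmem p.1]
      constructor
      · intro h; rw [h]
      · intro h; exact (mul_left_cancel₀ ha h).symm
    rw [h1, Ideal.span_singleton_eq_span_singleton, associated_iff e, ← hyp, ← yy_neg]
    constructor
    · rintro (h | h)
      · left; exact Subtype.ext (yy_inj hind h)
      · right; exact Subtype.ext (yy_inj hind h)
    · rintro (h | h)
      · left; rw [h]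
      · right; rw [h]
  rw [hset, Nat.card_coe_set_eq, Set.ncard_pair]
  intro h
  have h1 : p0 = -p0 := congrArg Subtype.val h
  have h2 := congrArg Prod.fst h1
  have h3 := congrArg Prod.snd h1
  rw [Prod.fst_neg] at h2
  rw [Prod.snd_neg] at h3
  exact hp00 (Prod.ext (by simp; omega) (by simp; omega))

include e in
/-- summation over the quotient ideals -/
theorem hasSum_ideals (ha : a ≠ ⊥) (hmem : ∀ y, y ∈ a ↔ ∃ m n : ℤ, y = m * w₁ + n * w₂)
    (hind : ∀ m n : ℤ, (m : S) * w₁ + n * w₂ = 0 → m = 0 ∧ n = 0) {G : Ideal S → ℂ} {s : ℂ}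
    (h : HasSum (fun p : {p : ℤ × ℤ // p ≠ 0} => G (quot hmem p.1)) s) [DecidablePred (PP a)] :
    HasSum (fun b => if PP a b then 2 * G b else 0) s := by
  have h1 := h.tsum_fiberwise (fun p : {p : ℤ × ℤ // p ≠ 0} => quot hmem p.1)
  have h0 : (fun b => if PP a b then 2 * G b else 0) = fun b : Ideal S =>
      ∑' p : ((fun p : {p : ℤ × ℤ // p ≠ 0} => quot hmem p.1) ⁻¹' {b}),
        G (quot hmem (p : {p : ℤ × ℤ // p ≠ 0}).1) := ?_
  · rw [h0]; exact h1
  funext b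
  have h2 : ∑' p : ((fun p : {p : ℤ × ℤ // p ≠ 0} => quot hmem p.1) ⁻¹' {b}),
      G (quot hmem (p : {p : ℤ × ℤ // p ≠ 0}).1) =
      ∑' p : ((fun p : {p : ℤ × ℤ // p ≠ 0} => quot hmem p.1) ⁻¹' {b}), G b := by
    refine tsum_congr fun p => ?_
    congr 1
    exact p.2
  rw [h2, tsum_const]
  split_ifs with hb
  · rw [card_fibre e ha hmem hind hb, nsmul_eq_mul]; norm_num
  · have h3 : IsEmpty ((fun p : {p : ℤ × ℤ // p ≠ 0} => quot hmem p.1) ⁻¹' {b}) := by
      constructor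
      rintro ⟨p, hp⟩
      apply hb
      refine ⟨yy w₁ w₂ p.1, ?_, ?_⟩
      · intro h0
        rw [← yy_zero w₁ w₂] at h0
        exact p.2 (yy_inj hind h0)
      · have : quot hmem p.1 = b := hp
        rw [← this]
        exact quot_spec hmem p.1
    rw [Nat.card_of_isEmpty, zero_nsmul]

end fibres

end Fermat.Agent.H18T
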