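import Fermat.Agent.H18T.Ext
import Fermat.Agent.H29W.Global

set_option autoImplicit false
set_option linter.all false

/-!
# Theta vectors and the Kirillov model

-/

noncomputable section

open Complex Real Filter Topology UpperHalfPlane
open scoped NumberTheorySymbols MatrixGroups
open Fermat.Agent.H29W

namespace Fermat.Agent.H18T

/-! ### the transposed intertwiner -/

section kapT

variable {ι : Type*} [Fintype ι] [DecidableEq ι] {k : ι → Type*} [∀ i, Field (k i)]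
  [∀ i, Fintype (k i)] [∀ i, DecidableEq (k i)] {Z : Type*} [CommRing Z] [Fintype Z]
  [DecidableEq Z] {E : Z ≃+* ((i : ι) → k i)} {d : Z}
  [∀ i, Fact (∀ r : k i, r ^ 2 ≠ pr E i d + 0 * r)] {R : Type*} [CommRing R] (D : WData E d R)

theorem trace_star_comm {Z : Type*} [CommRing Z] {d : Z} (x y : QuadraticAlgebra Z d 0) :
    QuadraticAlgebra.trace (x * star y) = QuadraticAlgebra.trace (y * star x) := by
  rw [trace_mul_star, trace_mul_star]; ring

/-- `κᵀ` intertwines, for matrices with invertible lower left entry -/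
theorem kapT_K {g : Matrix (Fin 2) (Fin 2) Z} (hg : g.det = 1) {c' : Z} (hc : c' * g 1 0 = 1) :
    D.kap.transpose * D.K g = D.M g * D.kap.transpose := by
  set g' : Matrix (Fin 2) (Fin 2) Z := !![g 1 1, g 0 1; g 1 0, g 0 0] with hg'
  have e00 : g' 0 0 = g 1 1 := rfl
  have e01 : g' 0 1 = g 0 1 := rfl
  have e10 : g' 1 0 = g 1 0 := rfl
  have e11 : g' 1 1 = g 0 0 := rfl
  have hdet : g'.det = 1 := by
    rw [Matrix.det_fin_two, e00, e01, e10, e11, ← hg, Matrix.det_fin_two]; ring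
  have h := congrArg Matrix.transpose (D.K_kap hdet)
  rw [Matrix.transpose_mul, Matrix.transpose_mul] at h
  have hK : (D.K g').transpose = D.K g := by
    ext x y
    rw [Matrix.transpose_apply, D.K_apply_of_isUnit (g := g') (c' := c') (by rw [e10]; exact hc),
      D.K_apply_of_isUnit hc, e00, e11, trace_star_comm y x]
    congr 2
    ring
  have hM : (D.M g').transpose = D.M g := by
    ext s t
    rw [Matrix.transpose_apply, WData.M, WData.M]
    refine Finset.prod_congr rfl fun i _ => ?_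
    have h2 : pr E i (g 1 0) ≠ 0 := by
      have h1 : pr E i c' * pr E i (g 1 0) = 1 := by rw [← map_mul, hc, map_one]
      exact right_ne_zero_of_mul_eq_one h1
    rw [e00, e01, e10, e11, Mf_ne _ _ h2, Mf_ne _ _ h2]
    congr 2
    · congr 1
      ring
    · congr 1
      ring
  rw [hK, hM] at h
  exact h

/-- the Kirillov model of `SL₂` as linear endomorphisms -/
def kirSL : Matrix.SpecialLinearGroup (Fin 2) Z →* ((Zˣ → R) →ₗ[R] (Zˣ → R)) where
  toFun g := Matrix.toLin' (D.M g.1)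
  map_one' := by
    show Matrix.toLin' (D.M 1) = 1
    rw [D.M_one, Matrix.toLin'_one]; rfl
  map_mul' g g' := by
    show Matrix.toLin' (D.M (g.1 * g'.1)) = _
    rw [← D.M_mul (by rw [g.2]; exact isUnit_one) (by rw [g'.2]; exact isUnit_one),
      Matrix.toLin'_mul]
    rfl

theorem kirSL_apply (g : Matrix.SpecialLinearGroup (Fin 2) Z) (φ : Zˣ → R) :
    kirSL D g φ = (D.M g.1).mulVec φ := rfl

end kapT

/-! ### theta vectors -/

theorem thz_congr {A B C : ℤ} {f : ℕ} {h h' : ℤ × ℤ} (hh : cong f h h') (z : ℂ) :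
    thz A B C f h z = thz A B C f h' z := by
  obtain ⟨⟨u, hu⟩, ⟨v, hv⟩⟩ := hh
  rw [thz, thz, ← (Equiv.addRight ((-u, -v) : ℤ × ℤ)).tsum_eq]
  refine tsum_congr fun m => ?_
  have h1 : h.1 + f * (m.1 + -u) = h'.1 + f * m.1 := by linarith
  have h2 : h.2 + f * (m.2 + -v) = h'.2 + f * m.2 := by linarith
  show ex ((qz A B C (h.1 + f * (m.1 + -u)) (h.2 + f * (m.2 + -v)) : ℤ) * z / f) = _
  rw [h1, h2]

/-- reduction of the form -/
def qb (A B C : ℤ) (f : ℕ) (p : ZMod f × ZMod f) : ZMod f :=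
  A * p.1 ^ 2 + B * p.1 * p.2 + C * p.2 ^ 2

/-- reduction of the polar form -/
def bb (A B C : ℤ) (f : ℕ) (p q : ZMod f × ZMod f) : ZMod f :=
  2 * A * p.1 * q.1 + B * (p.1 * q.2 + p.2 * q.1) + 2 * C * p.2 * q.2

theorem qz_zmod (A B C : ℤ) (f : ℕ) (x y : ℤ) :
    ((qz A B C x y : ℤ) : ZMod f) = qb A B C f ((x : ZMod f), (y : ZMod f)) := by
  rw [qz, qb]; push_cast; ring

theorem bz_zmod (A B C : ℤ) (f : ℕ) (p q : ℤ × ℤ) :
    ((bz A B C p q : ℤ) : ZMod f) =
      bb A B C f ((p.1 : ZMod f), (p.2 : ZMod f)) ((q.1 : ZMod f), (q.2 : ZMod f)) := by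
  rw [bz, bb]; push_cast; ring

variable {f : ℕ} [NeZero f]

/-- representatives -/
def lft (p : ZMod f × ZMod f) : ℤ × ℤ := ((p.1.val : ℤ), (p.2.val : ℤ))

theorem lft_coe (p : ZMod f × ZMod f) : (((lft p).1 : ZMod f), ((lft p).2 : ZMod f)) = p := by
  rw [lft]
  push_cast
  rw [ZMod.natCast_zmod_val, ZMod.natCast_zmod_val]

theorem cong_lft (p : ℤ × ℤ) : cong f p (lft ((p.1 : ZMod f), (p.2 : ZMod f))) := by
  have key : ∀ x : ℤ, (f : ℤ) ∣ x - (((x : ZMod f)).val : ℤ) := by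
    intro x
    rw [← ZMod.intCast_zmod_eq_zero_iff_dvd]
    push_cast
    rw [ZMod.natCast_zmod_val, sub_self]
  exact ⟨key p.1, key p.2⟩

variable {A B C : ℤ} {M : ℕ} [NeZero M] {X : Type*} [Fintype X]

/-- the theta vector -/
def thX (A B C : ℤ) (β : X ≃ ZMod f × ZMod f) (z : ℂ) (x : X) : ℂ := thz A B C f (lft (β x)) z

theorem sum_box {G : ℤ × ℤ → ℂ} (hG : ∀ p q, cong f p q → G p = G q)
    (β : X ≃ ZMod f × ZMod f) :
    ∑ y : Fin f × Fin f, G (((y.1 : ℕ) : ℤ), ((y.2 : ℕ) : ℤ)) = ∑ x : X, G (lft (β x)) := by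
  rw [β.sum_comp (fun p => G (lft p))]
  exact psum_zmod (k := f) (F := G) fun p => hG _ _ (cong_lft p)

/-- sums with periodic coefficients in terms of the theta vector -/
theorem tsum_periodic' (hA : 0 < A) (hD : 0 < dsc A B C) (Ec : ℤ × ℤ → ℂ)
    (hE : ∀ p q, cong f p q → Ec p = Ec q) (β : X ≃ ZMod f × ZMod f) {z : ℂ} (hz : 0 < z.im) :
    ∑' t : ℤ × ℤ, Ec t * ex ((qz A B C t.1 t.2 : ℤ) * z / f) =
      ∑ x : X, Ec (lft (β x)) * thX A B C β z x := by
  rw [tsum_periodic hA hD Ec hE hz]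
  exact sum_box (G := fun p => Ec p * thz A B C f p z)
    (fun p q h => by rw [hE p q h, thz_congr h]) β

/-- the law for matrices of level `8M` with lower left entry prime to `f` -/
theorem thX_law (hA : 0 < A) (hD : dsc A B C = 8 * M) (β : X ≃ ZMod f × ZMod f)
    {g : SL(2, ℤ)} (h8 : (8 * M : ℤ) ∣ g 1 0) (hpos : 0 < g 1 0) {kb fb : ℤ}
    (hcop : g 1 0 * kb + f * fb = 1) (z : ℍ) (x : X) :
    thX A B C β (g • z : ℍ) x = ((chi M (g 1 1) : ℂ) * jf g z) * ∑ y : X,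
      ((chi M f : ℂ) / f * ZMod.stdAddChar ((kb : ZMod f) * ((g 0 0 : ZMod f) * qb A B C f (β x) -
        bb A B C f (β x) (β y) + (g 1 1 : ZMod f) * qb A B C f (β y)))) * thX A B C β z y := by
  obtain ⟨k, hk⟩ : ∃ k : ℕ, g 1 0 = k := ⟨(g 1 0).toNat, (Int.toNat_of_nonneg hpos.le).symm⟩
  have hk0 : k ≠ 0 := by rintro rfl; rw [hk] at hpos; simp at hpos
  haveI : NeZero k := ⟨hk0⟩
  have hdet : g 0 0 * g 1 1 - g 0 1 * k = 1 := by rw [← hk]; exact det_eq g
  have h1 := thz_trans (f := f) hA hD (by rwa [← hk]) hdet (by rwa [← hk]) (lft (β x)) z.im_pos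
  have h2 : ((g • z : ℍ) : ℂ) = (((g 0 0 : ℤ) : ℂ) * z + ((g 0 1 : ℤ) : ℂ)) /
      ((k : ℂ) * z + ((g 1 1 : ℤ) : ℂ)) := by
    rw [coe_smul', hk, Int.cast_natCast]
  have h3 : jf g z = (k : ℂ) * z + ((g 1 1 : ℤ) : ℂ) := by rw [jf, hk, Int.cast_natCast]
  rw [thX, h2, h1, h3, sum_box (G := fun p => ex ((kb * (g 0 0 * qz A B C (lft (β x)).1
    (lft (β x)).2 - bz A B C (lft (β x)) p + g 1 1 * qz A B C p.1 p.2) : ℤ) / f) *
      thz A B C f p z) ?_ β]
  · rw [Finset.mul_sum]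
    congr 1
    refine Finset.sum_congr rfl fun y _ => ?_
    rw [mul_assoc]
    congr 1
    rw [thX]
    congr 1
    rw [ex_zmod]
    congr 1
    push_cast
    rw [qz_zmod, qz_zmod, bz_zmod, lft_coe, lft_coe]
  · intro p q hpq
    rw [thz_congr hpq]
    congr 1
    rw [ex_zmod, ex_zmod]
    congr 1
    push_cast
    rw [qz_zmod, qz_zmod, qz_zmod, bz_zmod, bz_zmod]
    have e : ((p.1 : ZMod f), (p.2 : ZMod f)) = ((q.1 : ZMod f), (q.2 : ZMod f)) := by
      refine Prod.ext ?_ ?_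
      · have := (ZMod.intCast_zmod_eq_zero_iff_dvd (p.1 - q.1) f).mpr hpq.1
        push_cast at this
        exact sub_eq_zero.mp this
      · have := (ZMod.intCast_zmod_eq_zero_iff_dvd (p.2 - q.2) f).mpr hpq.2
        push_cast at this
        exact sub_eq_zero.mp this
    rw [e]

/-! ### the law in the Kirillov model -/

section kir

variable {ι : Type*} [Fintype ι] [DecidableEq ι] {k : ι → Type*} [∀ i, Field (k i)]
  [∀ i, Fintype (k i)] [∀ i, DecidableEq (k i)]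
  {E : ZMod f ≃+* ((i : ι) → k i)} {d : ZMod f}
  [∀ i, Fact (∀ r : k i, r ^ 2 ≠ pr E i d + 0 * r)] (D : WData E d ℂ)

theorem thX_law_K (hΨ : ∀ x : ZMod f, D.Ψ x = ZMod.stdAddChar x)
    (hq : ∏ i, (-D.qi i) = (chi M f : ℂ) / f) (hA : 0 < A) (hD : dsc A B C = 8 * M)
    (β : QuadraticAlgebra (ZMod f) d 0 ≃ ZMod f × ZMod f) (hN : ∀ x, qb A B C f (β x) = x.norm)
    (hT : ∀ x y, bb A B C f (β x) (β y) = QuadraticAlgebra.trace (x * star y))
    {g : SL(2, ℤ)} (h8 : (8 * M : ℤ) ∣ g 1 0) (hpos : 0 < g 1 0) (hcop : IsCoprime (g 1 0) (f : ℤ))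
    (z : ℍ) :
    thX A B C β (g • z : ℍ) = ((chi M (g 1 1) : ℂ) * jf g z) •
      (D.K (redSL f g).1).mulVec (thX A B C β z) := by
  obtain ⟨kb, fb, hkf⟩ := hcop
  have hkf' : g 1 0 * kb + f * fb = 1 := by linarith
  have hc : (kb : ZMod f) * (redSL f g).1 1 0 = 1 := by
    have h1 := congrArg (Int.cast : ℤ → ZMod f) hkf
    push_cast at h1
    rw [ZMod.natCast_self, mul_zero, add_zero] at h1
    exact h1
  funext x
  rw [thX_law hA hD β h8 hpos hkf' z x, Pi.smul_apply, smul_eq_mul, Matrix.mulVec, dotProduct]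
  congr 1
  refine Finset.sum_congr rfl fun y _ => ?_
  rw [D.K_apply_of_isUnit hc, hq, hΨ, hN, hN, hT]
  rfl

theorem kapT_law (hΨ : ∀ x : ZMod f, D.Ψ x = ZMod.stdAddChar x)
    (hq : ∏ i, (-D.qi i) = (chi M f : ℂ) / f) (hA : 0 < A) (hD : dsc A B C = 8 * M)
    (β : QuadraticAlgebra (ZMod f) d 0 ≃ ZMod f × ZMod f) (hN : ∀ x, qb A B C f (β x) = x.norm)
    (hT : ∀ x y, bb A B C f (β x) (β y) = QuadraticAlgebra.trace (x * star y))
    (hf : Nat.Coprime f (8 * M)) :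
    ∀ g : SL(2, ℤ), (8 * M : ℤ) ∣ g 1 0 → g ∈ lawGroup M f (kirSL D)
      (fun z => D.kap.transpose.mulVec (thX A B C β z)) := by
  apply mem_of_level hf
  intro g h8 hpos hcop
  refine ⟨h8, fun z => ?_⟩
  show D.kap.transpose.mulVec (thX A B C β (g • z : ℍ)) = ((chi M (g 1 1) : ℂ) * jf g z) •
    (D.M (redSL f g).1).mulVec (D.kap.transpose.mulVec (thX A B C β z))
  rw [thX_law_K D hΨ hq hA hD β hN hT h8 hpos hcop z, Matrix.mulVec_smul,
    Matrix.mulVec_mulVec, Matrix.mulVec_mulVec]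
  obtain ⟨kb, fb, hkf⟩ := hcop
  have hc : (kb : ZMod f) * (redSL f g).1 1 0 = 1 := by
    have h1 := congrArg (Int.cast : ℤ → ZMod f) hkf
    push_cast at h1
    rw [ZMod.natCast_self, mul_zero, add_zero] at h1
    exact h1
  rw [kapT_K D (redSL f g).2 hc]

end kir

end Fermat.Agent.H18T
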